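import Mathlib

/-!
# S28 / ALG (helper18): the step `QEP_C ⇒ QEP_B` in abstract form

`A` a normal domain with fraction field `E`, `l ∈ A`, `O` a normal domain with the same fraction
field `E` such that `O ∩ A[1/l] = A` inside `E` (e.g. `O = A_(l)` for a prime element `l`),
`F / E` a field extension.  If `x = l y` in `F`, `x` is integral over `A` and `y` is integral over
`O`, then `y` is integral over `A`.

* `mem_range_of_prime_pow_mul_mem` : the intersection property for `O = A_(l)`, `l` prime.
* `isIntegral_of_mul_of_isIntegral` : the abstract step.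
-/

set_option autoImplicit false

open Polynomial

namespace Fermat.Agent.S28.Alg.H18

/-- In a domain `A` with fraction field `E` and a prime element `l`: an element `e : E` with
`s e ∈ A` for some `s ∉ l A` and `l ^ m e ∈ A` lies in `A`. -/
theorem mem_range_of_prime_pow_mul_mem {A E : Type*} [CommRing A] [IsDomain A] [Field E]
    [Algebra A E] [IsFractionRing A E] {l : A} (hl : Prime l) (e : E) {s : A} (hs : ¬ l ∣ s)
    (hse : algebraMap A E s * e ∈ Set.range (algebraMap A E)) :
    ∀ m : ℕ, algebraMap A E l ^ m * e ∈ Set.range (algebraMap A E) →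
      e ∈ Set.range (algebraMap A E) := by
  have hinj : Function.Injective (algebraMap A E) := IsFractionRing.injective A E
  have hlE : algebraMap A E l ≠ 0 := by
    rw [Ne, map_eq_zero_iff _ hinj]
    exact hl.ne_zero
  intro m
  induction m with
  | zero =>
    intro h
    simpa using h
  | succ m ih =>
    rintro ⟨a, ha⟩
    obtain ⟨b, hb⟩ := hse
    apply ih
    -- `s * a = l ^ (m + 1) * b`
    have h1 : s * a = l ^ (m + 1) * b := by
      apply hinj
      rw [map_mul, map_mul, map_pow, ha, hb]
      ring
    have h2 : l ∣ s * a := ⟨l ^ m * b, by rw [h1]; ring⟩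
    obtain ⟨a', rfl⟩ := (hl.dvd_or_dvd h2).resolve_left hs
    refine ⟨a', ?_⟩
    apply mul_left_cancel₀ hlE
    rw [← map_mul, ha]
    ring

/-- **The abstract step `QEP_C ⇒ QEP_B`.** -/
theorem isIntegral_of_mul_of_isIntegral {A O E F : Type*} [CommRing A] [IsDomain A]
    [IsIntegrallyClosed A] [CommRing O] [IsDomain O] [IsIntegrallyClosed O] [Field E] [Field F]
    [Algebra A E] [IsFractionRing A E] [Algebra O E] [IsFractionRing O E]
    [Algebra E F] [Algebra A F] [Algebra O F] [IsScalarTower A E F] [IsScalarTower O E F]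
    (l : A) (hl0 : l ≠ 0)
    (hAO : ∀ e : E, e ∈ Set.range (algebraMap O E) →
      (∃ m : ℕ, algebraMap A E l ^ m * e ∈ Set.range (algebraMap A E)) →
        e ∈ Set.range (algebraMap A E))
    {x y : F} (hx : IsIntegral A x) (hxy : x = algebraMap A F l * y) (hy : IsIntegral O y) :
    IsIntegral A y := by
  have hinj : Function.Injective (algebraMap A E) := IsFractionRing.injective A E
  have hlE : algebraMap A E l ≠ 0 := by
    rw [Ne, map_eq_zero_iff _ hinj]
    exact hl0
  have hyE : IsIntegral E y := hy.tower_top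
  have hxE : IsIntegral E x := hx.tower_top
  -- the two minimal polynomials
  have hQ : minpoly E y = (minpoly O y).map (algebraMap O E) :=
    minpoly.isIntegrallyClosed_eq_field_fractions' E hy
  have hM : minpoly E x = (minpoly A x).map (algebraMap A E) :=
    minpoly.isIntegrallyClosed_eq_field_fractions' E hx
  set Q := minpoly E y with hQdef
  set M := minpoly E x with hMdef
  have hQmonic : Q.Monic := minpoly.monic hyE
  have hMmonic : M.Monic := minpoly.monic hxE
  -- `P = Q.scaleRoots l` kills `x`
  set P := Q.scaleRoots (algebraMap A E l) with hPdef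
  have hPmonic : P.Monic := (monic_scaleRoots_iff _).mpr hQmonic
  have hlF : algebraMap E F (algebraMap A E l) = algebraMap A F l :=
    (IsScalarTower.algebraMap_apply A E F l).symm
  have hPx : aeval x P = 0 := by
    have := scaleRoots_aeval_eq_zero (p := Q) (a := y) (r := algebraMap A E l) (minpoly.aeval E y)
    rwa [hlF, ← hxy] at this
  have hMP : M ∣ P := minpoly.dvd E x hPx
  -- degree comparison through `M.scaleRoots l⁻¹`
  have hyx : algebraMap E F (algebraMap A E l)⁻¹ * x = y := by
    rw [hxy, ← hlF, ← mul_assoc, ← map_mul, inv_mul_cancel₀ hlE, map_one, one_mul]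
  have hQ'y : aeval y (M.scaleRoots (algebraMap A E l)⁻¹) = 0 := by
    have := scaleRoots_aeval_eq_zero (p := M) (a := x) (r := (algebraMap A E l)⁻¹)
      (minpoly.aeval E x)
    rwa [hyx] at this
  have hdeg : P.natDegree ≤ M.natDegree := by
    have h1 : Q ∣ M.scaleRoots (algebraMap A E l)⁻¹ := minpoly.dvd E y hQ'y
    have h2 : (M.scaleRoots (algebraMap A E l)⁻¹).Monic := (monic_scaleRoots_iff _).mpr hMmonic
    have h3 := natDegree_le_of_dvd h1 h2.ne_zero
    rwa [natDegree_scaleRoots, ← natDegree_scaleRoots Q (algebraMap A E l)] at h3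
  have hPM : P = M := eq_of_monic_of_dvd_of_natDegree_le hMmonic hPmonic hMP hdeg
  -- the coefficients of `Q` lie in `A`
  have hcoeff : ∀ i, Q.coeff i ∈ Set.range (algebraMap A E) := by
    intro i
    refine hAO _ ?_ ⟨Q.natDegree - i, ?_⟩
    · rw [hQ, coeff_map]
      exact ⟨_, rfl⟩
    · have : P.coeff i = Q.coeff i * algebraMap A E l ^ (Q.natDegree - i) :=
        coeff_scaleRoots Q _ i
      rw [mul_comm, ← this, hPM, hM, coeff_map]
      exact ⟨_, rfl⟩
  have hlifts : Q ∈ Polynomial.lifts (algebraMap A E) :=
    (Polynomial.lifts_iff_coeff_lifts Q).mpr hcoeff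
  obtain ⟨Q₀, hQ₀, -, hQ₀monic⟩ := Polynomial.lifts_and_natDegree_eq_and_monic hlifts hQmonic
  refine ⟨Q₀, hQ₀monic, ?_⟩
  have h := minpoly.aeval E y
  rw [← hQdef, ← hQ₀, aeval_def, eval₂_map, ← IsScalarTower.algebraMap_eq] at h
  exact h

end Fermat.Agent.S28.Alg.H18
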