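import Mathlib
import Fermat.Agent.S28.Alg.H18_QepbAbs

/-!
# S28 / ALG (helper18): the step `QEP_C ⇒ QEP_B` for `A = R[t]`, `t` transcendental

`R` a normal domain, `l : R` a prime element, `F` a field, `t : F` transcendental over `R`,
`A = R[t] = Algebra.adjoin R {t}`.  "`c ∈ O_v`" is expressed by the predicate
`IsLocFrac l t c : ∃ a b : R[X], ¬ C l ∣ b ∧ c * b(t) = a(t)`.

* `isIntegral_adjoin_of_isLocFrac` : if `x = l y`, `x` is integral over `R[t]` and `y` is a root
  of a monic polynomial with coefficients in `O_v`, then `y` is integral over `R[t]`.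
* `isLocFrac_inv_iff` : `O_v` for `t` and for `t⁻¹` coincide.
-/

set_option autoImplicit false
set_option linter.style.haveILetI false

open Polynomial

namespace Fermat.Agent.S28.Alg.H18

section Pred

variable {R F : Type*} [CommRing R] [Field F] [Algebra R F]

/-- `c` is a fraction `a(t) / b(t)` with `a, b ∈ R[X]`, `b ∉ l R[X]`. -/
def IsLocFrac (l : R) (t c : F) : Prop :=
  ∃ a b : R[X], ¬ (C l ∣ b) ∧ c * aeval t b = aeval t a

theorem isLocFrac_of_mem_adjoin (l : R) (hl : ¬ IsUnit l) (t : F) {c : F}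
    (hc : c ∈ Algebra.adjoin R {t}) : IsLocFrac l t c := by
  rw [Algebra.adjoin_singleton_eq_range_aeval] at hc
  obtain ⟨a, rfl⟩ := hc
  refine ⟨a, 1, ?_, by simp⟩
  intro h
  apply hl
  have h1 : IsUnit (C l) := isUnit_of_dvd_one h
  exact (Polynomial.isUnit_C).mp h1

theorem isLocFrac_algebraMap (l : R) (hl : ¬ IsUnit l) (t : F) (r : R) :
    IsLocFrac l t (algebraMap R F r) :=
  isLocFrac_of_mem_adjoin l hl t (Subalgebra.algebraMap_mem _ r)

theorem IsLocFrac.mul {l : R} (hl : Prime l) {t c d : F} (hc : IsLocFrac l t c)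
    (hd : IsLocFrac l t d) : IsLocFrac l t (c * d) := by
  obtain ⟨a, b, hb, h⟩ := hc
  obtain ⟨a', b', hb', h'⟩ := hd
  refine ⟨a * a', b * b', ?_, ?_⟩
  · intro hdiv
    have hp : Prime (C l : R[X]) := Polynomial.prime_C_iff.mpr hl
    rcases hp.dvd_or_dvd hdiv with h1 | h1
    · exact hb h1
    · exact hb' h1
  · rw [map_mul, map_mul, ← h, ← h']
    ring

theorem IsLocFrac.add {l : R} (hl : Prime l) {t c d : F} (hc : IsLocFrac l t c)
    (hd : IsLocFrac l t d) : IsLocFrac l t (c + d) := by
  obtain ⟨a, b, hb, h⟩ := hc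
  obtain ⟨a', b', hb', h'⟩ := hd
  refine ⟨a * b' + a' * b, b * b', ?_, ?_⟩
  · intro hdiv
    have hp : Prime (C l : R[X]) := Polynomial.prime_C_iff.mpr hl
    rcases hp.dvd_or_dvd hdiv with h1 | h1
    · exact hb h1
    · exact hb' h1
  · rw [map_add, map_mul, map_mul, map_mul, ← h, ← h']
    ring

theorem IsLocFrac.pow {l : R} (hl : Prime l) {t c : F} (hc : IsLocFrac l t c) (n : ℕ) :
    IsLocFrac l t (c ^ n) := by
  induction n with
  | zero =>
    rw [pow_zero, ← map_one (algebraMap R F)]
    exact isLocFrac_algebraMap l hl.not_isUnit t 1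
  | succ n ih =>
    rw [pow_succ]
    exact ih.mul hl hc

theorem isLocFrac_self (l : R) (hl : ¬ IsUnit l) (t : F) : IsLocFrac l t t :=
  isLocFrac_of_mem_adjoin l hl t (Algebra.subset_adjoin rfl)

theorem not_C_dvd_reflect {l : R} {b : R[X]} (m : ℕ) (hb : ¬ (C l ∣ b)) :
    ¬ (C l ∣ b.reflect m) := by
  intro h
  apply hb
  rw [C_dvd_iff_dvd_coeff] at h ⊢
  intro i
  have := h (revAt m i)
  rwa [coeff_reflect, revAt_invol] at this

theorem aeval_inv_reflect {t : F} (ht : t ≠ 0) (m : ℕ) (f : R[X]) (hf : f.natDegree ≤ m) :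
    aeval t⁻¹ (f.reflect m) * t ^ m = aeval t f := by
  letI : Invertible t := invertibleOfNonzero ht
  have := eval₂_reflect_mul_pow (algebraMap R F) t m f hf
  rwa [invOf_eq_inv] at this

theorem IsLocFrac.inv {l : R} {t c : F} (ht : t ≠ 0) (hc : IsLocFrac l t c) :
    IsLocFrac l t⁻¹ c := by
  obtain ⟨a, b, hb, h⟩ := hc
  set m := max a.natDegree b.natDegree with hm
  refine ⟨a.reflect m, b.reflect m, not_C_dvd_reflect m hb, ?_⟩
  have h1 := aeval_inv_reflect (R := R) ht m a (le_max_left _ _)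
  have h2 := aeval_inv_reflect (R := R) ht m b (le_max_right _ _)
  have htm : t ^ m ≠ 0 := pow_ne_zero _ ht
  apply mul_right_cancel₀ htm
  rw [mul_assoc, h1, h2, h]

theorem isLocFrac_inv_iff {l : R} {t c : F} (ht : t ≠ 0) :
    IsLocFrac l t⁻¹ c ↔ IsLocFrac l t c :=
  ⟨fun h => by simpa using h.inv (inv_ne_zero ht), fun h => h.inv ht⟩

end Pred

section Adjoin

variable {R F : Type*} [CommRing R] [Field F] [Algebra R F] {t : F}

/-- `R[X] ≃ R[t]` for transcendental `t`. -/
noncomputable def adjoinEquivPoly (ht : Function.Injective (aeval (R := R) t)) :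
    R[X] ≃ₐ[R] ↥(Algebra.adjoin R {t}) :=
  (AlgEquiv.ofInjective (aeval (R := R) t) ht).trans
    (Subalgebra.equivOfEq _ _ (Algebra.adjoin_singleton_eq_range_aeval R t).symm)

theorem coe_adjoinEquivPoly (ht : Function.Injective (aeval (R := R) t)) (p : R[X]) :
    ((adjoinEquivPoly ht p : ↥(Algebra.adjoin R {t})) : F) = aeval t p := rfl

theorem isIntegrallyClosed_adjoin [IsDomain R] [IsIntegrallyClosed R]
    (ht : Function.Injective (aeval (R := R) t)) :
    IsIntegrallyClosed ↥(Algebra.adjoin R {t}) :=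
  IsIntegrallyClosed.of_equiv (adjoinEquivPoly ht).toRingEquiv

theorem prime_algebraMap_adjoin (ht : Function.Injective (aeval (R := R) t)) {l : R}
    (hl : Prime l) : Prime (algebraMap R ↥(Algebra.adjoin R {t}) l) := by
  have h1 : Prime (C l : R[X]) := Polynomial.prime_C_iff.mpr hl
  have h2 : adjoinEquivPoly ht (C l) = algebraMap R ↥(Algebra.adjoin R {t}) l := by
    apply Subtype.ext
    rw [coe_adjoinEquivPoly, aeval_C]
    rfl
  rw [← h2]
  exact (MulEquiv.prime_iff (adjoinEquivPoly ht).toRingEquiv.toMulEquiv).mpr h1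

theorem dvd_adjoinEquivPoly_iff (ht : Function.Injective (aeval (R := R) t)) (l : R) (b : R[X]) :
    algebraMap R ↥(Algebra.adjoin R {t}) l ∣ adjoinEquivPoly ht b ↔ C l ∣ b := by
  have h2 : adjoinEquivPoly ht (C l) = algebraMap R ↥(Algebra.adjoin R {t}) l := by
    apply Subtype.ext
    rw [coe_adjoinEquivPoly, aeval_C]
    rfl
  rw [← h2]
  exact map_dvd_iff (adjoinEquivPoly ht)

/-- If `t ≠ 0` is transcendental, so is `t⁻¹`. -/
theorem injective_aeval_inv (ht0 : t ≠ 0) (ht : Function.Injective (aeval (R := R) t)) :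
    Function.Injective (aeval (R := R) t⁻¹) := by
  rw [injective_iff_map_eq_zero] at ht ⊢
  intro P hP
  have h1 := aeval_inv_reflect (R := R) (inv_ne_zero ht0) P.natDegree P le_rfl
  rw [inv_inv, hP] at h1
  have h2 : aeval t (P.reflect P.natDegree) = 0 := by
    have h3 : (t⁻¹) ^ P.natDegree ≠ 0 := pow_ne_zero _ (inv_ne_zero ht0)
    exact (mul_eq_zero.mp h1).resolve_right h3
  have h4 := ht _ h2
  exact (reflect_eq_zero_iff).mp h4

end Adjoin

section Main

variable {R F : Type*} [CommRing R] [IsDomain R] [IsIntegrallyClosed R] [Field F] [Algebra R F]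

/-- **`QEP_C ⇒ QEP_B` for `A = R[t]`.**  If `x = l y`, `x` is integral over `R[t]`, and `y` is
a root of a monic polynomial whose coefficients are fractions `a(t)/b(t)`, `b ∉ l R[X]`, then
`y` is integral over `R[t]`. -/
theorem isIntegral_adjoin_of_isLocFrac {t : F} (ht : Function.Injective (aeval (R := R) t))
    {l : R} (hl : Prime l) {x y : F} (hx : IsIntegral ↥(Algebra.adjoin R {t}) x)
    (hxy : x = algebraMap R F l * y) (P : F[X]) (hP : P.Monic) (hPy : P.eval y = 0)
    (hc : ∀ i, IsLocFrac l t (P.coeff i)) :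
    IsIntegral ↥(Algebra.adjoin R {t}) y := by
  classical
  set A := ↥(Algebra.adjoin R {t}) with hA
  haveI : IsIntegrallyClosed A := isIntegrallyClosed_adjoin ht
  set lA : A := algebraMap R A l with hlA
  have hlAp : Prime lA := prime_algebraMap_adjoin ht hl
  letI : Algebra (FractionRing A) F := FractionRing.liftAlgebra A F
  haveI : IsScalarTower A (FractionRing A) F := FractionRing.isScalarTower_liftAlgebra A F
  set E := FractionRing A with hE
  haveI hprime : (Ideal.span {lA}).IsPrime := (Ideal.span_singleton_prime hlAp.ne_zero).mpr hlAp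
  set M : Submonoid A := (Ideal.span {lA}).primeCompl with hM
  have hM0 : M ≤ nonZeroDivisors A := Ideal.primeCompl_le_nonZeroDivisors _
  set O : Subalgebra A E := Localization.subalgebra.ofField E M hM0 with hO
  haveI : IsIntegrallyClosed O := isIntegrallyClosed_of_isLocalization O M hM0
  have hmemM : ∀ s : A, s ∈ M ↔ ¬ lA ∣ s := fun s => by
    rw [hM, Ideal.mem_primeCompl_iff, Ideal.mem_span_singleton]
  have hinjAE : Function.Injective (algebraMap A E) := IsFractionRing.injective A E
  -- the intersection property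
  have hAO : ∀ e : E, e ∈ Set.range (algebraMap O E) →
      (∃ m : ℕ, algebraMap A E lA ^ m * e ∈ Set.range (algebraMap A E)) →
        e ∈ Set.range (algebraMap A E) := by
    rintro e ⟨o, rfl⟩ ⟨m, hm⟩
    obtain ⟨a, s, hs, hos⟩ : ∃ (a s : A) (_ : s ∈ M),
        (o : E) = algebraMap A E a * (algebraMap A E s)⁻¹ := o.2
    have hs0 : algebraMap A E s ≠ 0 := by
      rw [Ne, map_eq_zero_iff _ hinjAE]
      rintro rfl
      exact (hmemM 0).mp hs (dvd_zero _)
    refine mem_range_of_prime_pow_mul_mem hlAp _ ((hmemM s).mp hs) ?_ m hm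
    refine ⟨a, ?_⟩
    show algebraMap A E a = algebraMap A E s * (o : E)
    rw [hos, mul_comm (algebraMap A E a), ← mul_assoc, mul_inv_cancel₀ hs0, one_mul]
  -- `y` is integral over `O`
  have hy : IsIntegral O y := by
    have hcoeff : ∀ i, P.coeff i ∈ Set.range (algebraMap O F) := by
      intro i
      obtain ⟨a, b, hb, hab⟩ := hc i
      set aA : A := adjoinEquivPoly ht a
      set bA : A := adjoinEquivPoly ht b
      have hbM : bA ∈ M := (hmemM bA).mpr fun h => hb ((dvd_adjoinEquivPoly_iff ht l b).mp h)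
      have hbE : algebraMap A E bA ≠ 0 := by
        rw [Ne, map_eq_zero_iff _ hinjAE]
        intro h0
        rw [h0] at hbM
        exact (hmemM 0).mp hbM (dvd_zero _)
      refine ⟨⟨algebraMap A E aA * (algebraMap A E bA)⁻¹, aA, bA, hbM, rfl⟩, ?_⟩
      have h1 : algebraMap O F ⟨algebraMap A E aA * (algebraMap A E bA)⁻¹, aA, bA, hbM, rfl⟩
          = algebraMap E F (algebraMap A E aA * (algebraMap A E bA)⁻¹) := rfl
      rw [h1, map_mul, map_inv₀, ← IsScalarTower.algebraMap_apply,
        ← IsScalarTower.algebraMap_apply]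
      have h2 : algebraMap A F aA = aeval t a := rfl
      have h3 : algebraMap A F bA = aeval t b := rfl
      have hbF : aeval t b ≠ 0 := by
        rw [← h3, IsScalarTower.algebraMap_apply A E F]
        exact (_root_.map_ne_zero _).mpr hbE
      rw [h2, h3, ← hab]
      field_simp
    have hlifts : P ∈ Polynomial.lifts (algebraMap O F) :=
      (Polynomial.lifts_iff_coeff_lifts P).mpr hcoeff
    obtain ⟨P₀, hP₀, -, hP₀monic⟩ := Polynomial.lifts_and_natDegree_eq_and_monic hlifts hP
    refine ⟨P₀, hP₀monic, ?_⟩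
    rw [← eval_map, hP₀, hPy]
  have hxy' : x = algebraMap A F lA * y := by
    rw [hxy]
    rfl
  exact isIntegral_of_mul_of_isIntegral (E := E) lA hlAp.ne_zero hAO hx hxy' hy

end Main

end Fermat.Agent.S28.Alg.H18
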