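import Fermat.Agent.S28.Asm.Defs

/-!
# S28, package ALG: canonical definitions (helper1, ALG coordinator)

`Zl = Z_(ℓ)`, `k = ZMod ℓ`.

* `resZl ℓ : Zl →+* k`            the residue map;
* `Lam ℓ = Zl((q))`, `iota ℓ : Lam →+* ℚ((q))`, `red ℓ : Lam →+* k((q))` (coefficientwise);
* `OW ℓ = {x : ∃ a b ∈ Lam, red b ≠ 0, x * iota b = iota a}` (a subring of `ℚ((q))`),
  `rhoW ℓ : OW →+* k((q))`, `a / b ↦ red a / red b`;
* `KW ℓ` the fraction field of `iota (Lam)` inside `ℚ((q))`;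
* `CW N ℓ = F_N ∩ O_W` as a subring of `F_N`, `rhoC N ℓ : CW →+* k((q))`;
* `K0 = ℚ(j)` inside `ℚ((q))`, `kappa k = k(jb)` inside `k((q))`.
-/

set_option autoImplicit false
open ModularCurve ModularCurve.IgusaScheme

noncomputable section

namespace Fermat.Agent.S28.Alg

open Fermat.Agent.S28.Asm

section Level0

variable (ℓ : ℕ) [Fact ℓ.Prime]

/-- The inclusion `Z_(ℓ) → ℤ_ℓ` (the `ℓ`-adic integers), as a ring homomorphism. -/
def zlToPadicInt : Zl ℓ →+* ℤ_[ℓ] :=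
  RingHom.codRestrict ((Rat.castHom ℚ_[ℓ]).comp (GaloisRep.ratLocalizedAt ℓ).subtype)
    (PadicInt.subring ℓ) (fun x => by
      show ‖((x : ℚ) : ℚ_[ℓ])‖ ≤ 1
      apply Padic.norm_rat_le_one
      intro h
      have hx : (x : ℚ).den.Coprime ℓ := x.2
      have hl : (ℓ : ℕ).Prime := Fact.out
      exact hl.one_lt.ne' (Nat.dvd_one.mp (hx ▸ Nat.dvd_gcd h dvd_rfl)))

/-- The residue map `Z_(ℓ) → ZMod ℓ`. -/
def resZl : Zl ℓ →+* ZMod ℓ := (PadicInt.toZMod (p := ℓ)).comp (zlToPadicInt ℓ)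

/-- `Λ = Z_(ℓ)((q))`. -/
abbrev Lam : Type := LaurentSeries (Zl ℓ)

/-- `Λ → ℚ((q))`. -/
def iota : Lam ℓ →+* LaurentSeries ℚ := coeffMap (algebraMap (Zl ℓ) ℚ)

/-- Coefficientwise reduction `Λ → k((q))`. -/
def red : Lam ℓ →+* LaurentSeries (ZMod ℓ) := coeffMap (resZl ℓ)

omit [Fact ℓ.Prime] in
theorem iota_injective : Function.Injective (iota ℓ) := by
  intro a b h
  ext n
  have := congrArg (fun x : LaurentSeries ℚ => x.coeff n) h
  simpa [iota] using this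

/-- `O_W = {a / b : a, b ∈ Λ, red b ≠ 0}`, a subring of `ℚ((q))`. -/
def OW : Subring (LaurentSeries ℚ) where
  carrier := {x | ∃ a b : Lam ℓ, red ℓ b ≠ 0 ∧ x * iota ℓ b = iota ℓ a}
  one_mem' := ⟨1, 1, by rw [map_one]; exact one_ne_zero, by rw [map_one, mul_one]⟩
  zero_mem' := ⟨0, 1, by rw [map_one]; exact one_ne_zero, by rw [map_zero, zero_mul]⟩
  mul_mem' := by
    rintro x y ⟨a, b, hb, h⟩ ⟨a', b', hb', h'⟩
    refine ⟨a * a', b * b', by rw [map_mul]; exact mul_ne_zero hb hb', ?_⟩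
    rw [map_mul, map_mul, ← h, ← h']; ring
  add_mem' := by
    rintro x y ⟨a, b, hb, h⟩ ⟨a', b', hb', h'⟩
    refine ⟨a * b' + a' * b, b * b', by rw [map_mul]; exact mul_ne_zero hb hb', ?_⟩
    rw [map_add, map_mul, map_mul, map_mul, ← h, ← h']; ring
  neg_mem' := by
    rintro x ⟨a, b, hb, h⟩
    exact ⟨-a, b, hb, by rw [map_neg, ← h]; ring⟩

theorem mem_OW_iff {x : LaurentSeries ℚ} :
    x ∈ OW ℓ ↔ ∃ a b : Lam ℓ, red ℓ b ≠ 0 ∧ x * iota ℓ b = iota ℓ a := Iff.rfl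

/-- A numerator of `x ∈ O_W`. -/
def repA (x : OW ℓ) : Lam ℓ := Classical.choose x.2

/-- A denominator of `x ∈ O_W`. -/
def repB (x : OW ℓ) : Lam ℓ := Classical.choose (Classical.choose_spec x.2)

theorem rep_spec (x : OW ℓ) :
    red ℓ (repB ℓ x) ≠ 0 ∧ (x : LaurentSeries ℚ) * iota ℓ (repB ℓ x) = iota ℓ (repA ℓ x) :=
  Classical.choose_spec (Classical.choose_spec x.2)

/-- The underlying function of `rhoW`. -/
def rhoFun (x : OW ℓ) : LaurentSeries (ZMod ℓ) := red ℓ (repA ℓ x) / red ℓ (repB ℓ x)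

theorem rhoFun_eq (x : OW ℓ) (a b : Lam ℓ) (hb : red ℓ b ≠ 0)
    (h : (x : LaurentSeries ℚ) * iota ℓ b = iota ℓ a) :
    rhoFun ℓ x = red ℓ a / red ℓ b := by
  obtain ⟨hb0, h0⟩ := rep_spec ℓ x
  have key : repA ℓ x * b = a * repB ℓ x := by
    apply iota_injective ℓ
    rw [map_mul, map_mul]
    linear_combination -(iota ℓ b) * h0 + (iota ℓ (repB ℓ x)) * h
  have key' : red ℓ (repA ℓ x) * red ℓ b = red ℓ a * red ℓ (repB ℓ x) := by
    rw [← map_mul, key, map_mul]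
  rw [rhoFun, div_eq_div_iff hb0 hb]
  exact key'

/-- The reduction `ρ_W : O_W → k((q))`, `a / b ↦ red a / red b`. -/
def rhoW : OW ℓ →+* LaurentSeries (ZMod ℓ) where
  toFun := rhoFun ℓ
  map_one' := by
    rw [rhoFun_eq ℓ 1 1 1 (by rw [map_one]; exact one_ne_zero)
      (by rw [map_one, mul_one]; rfl), map_one, div_one]
  map_zero' := by
    rw [rhoFun_eq ℓ 0 0 1 (by rw [map_one]; exact one_ne_zero)
      (by rw [map_one, mul_one, map_zero]; rfl), map_zero, zero_div]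
  map_mul' x y := by
    obtain ⟨a, b, hb, h⟩ := x.2
    obtain ⟨a', b', hb', h'⟩ := y.2
    rw [rhoFun_eq ℓ (x * y) (a * a') (b * b') (by rw [map_mul]; exact mul_ne_zero hb hb')
      (by rw [map_mul, map_mul, ← h, ← h']; push_cast; ring),
      rhoFun_eq ℓ x a b hb h, rhoFun_eq ℓ y a' b' hb' h', map_mul, map_mul]
    field_simp
  map_add' x y := by
    obtain ⟨a, b, hb, h⟩ := x.2
    obtain ⟨a', b', hb', h'⟩ := y.2
    rw [rhoFun_eq ℓ (x + y) (a * b' + a' * b) (b * b') (by rw [map_mul]; exact mul_ne_zero hb hb')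
      (by rw [map_add, map_mul, map_mul, map_mul, ← h, ← h']; push_cast; ring),
      rhoFun_eq ℓ x a b hb h, rhoFun_eq ℓ y a' b' hb' h', map_add, map_mul, map_mul, map_mul]
    field_simp

/-- **The API of `rhoW`**: `rhoW (a / b) = red a / red b`. -/
theorem rhoW_eq (x : OW ℓ) (a b : Lam ℓ) (hb : red ℓ b ≠ 0)
    (h : (x : LaurentSeries ℚ) * iota ℓ b = iota ℓ a) :
    rhoW ℓ x = red ℓ a / red ℓ b := rhoFun_eq ℓ x a b hb h

theorem iota_mem_OW (a : Lam ℓ) : iota ℓ a ∈ OW ℓ :=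
  ⟨a, 1, by rw [map_one]; exact one_ne_zero, by rw [map_one, mul_one]⟩

theorem rhoW_iota (a : Lam ℓ) : rhoW ℓ ⟨iota ℓ a, iota_mem_OW ℓ a⟩ = red ℓ a := by
  rw [rhoW_eq ℓ _ a 1 (by rw [map_one]; exact one_ne_zero) (by rw [map_one, mul_one]), map_one,
    div_one]

/-- The fraction field of `Λ` inside `ℚ((q))`. -/
def KW : Subfield (LaurentSeries ℚ) := Subfield.closure (Set.range (iota ℓ))

/-- `k(jb)` inside `k((q))`. -/
def kappa (k : Type) [Field k] : IntermediateField k (LaurentSeries k) :=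
  IntermediateField.adjoin k {jqModC k}

/-- `ℚ(j)` inside `ℚ((q))`. -/
def K0 : IntermediateField ℚ (LaurentSeries ℚ) := IntermediateField.adjoin ℚ {jqModC ℚ}

end Level0

section LevelN

variable (N : ℕ) [NeZero N] (ℓ : ℕ) [Fact ℓ.Prime]

/-- `C = F_N ∩ O_W`, a subring of the function field `F_N` (it will turn out to be the integral
closure of `O_v = ℚ(j) ∩ O_W` in `F_N`). -/
def CW : Subring (FN N) := (OW ℓ).comap (algebraMap (FN N) (LaurentSeries ℚ))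

omit [NeZero N] in
theorem mem_CW_iff {x : FN N} : x ∈ CW N ℓ ↔ (x : LaurentSeries ℚ) ∈ OW ℓ := Iff.rfl

/-- `C → O_W`. -/
def CWtoOW : CW N ℓ →+* OW ℓ where
  toFun x := ⟨((x : FN N) : LaurentSeries ℚ), x.2⟩
  map_one' := rfl
  map_mul' _ _ := rfl
  map_zero' := rfl
  map_add' _ _ := rfl

/-- The reduction on `C = F_N ∩ O_W`. -/
def rhoC : CW N ℓ →+* LaurentSeries (ZMod ℓ) := (rhoW ℓ).comp (CWtoOW N ℓ)

end LevelN

end Fermat.Agent.S28.Alg
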