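import Mathlib

/-!
# S28 / ALG (helper29): the basis argument in abstract form

`E ⊆ F` fields, `W ⊆ F` a subring with a ring homomorphism `ρ : W → L` into a field, `π ∈ E ∩ W`
with `ρ π = 0`, `κ` a field with `κ → L`.  Hypotheses (`BasisHyp`):

* `val` : every nonzero `c ∈ E` is `π ^ (n - m) * u` with `u ∈ E ∩ W`, `ρ u ≠ 0`;
* `kap` : `ρ (E ∩ W) ⊆ κ`.

Then for every finite family `x_i ∈ W` whose reductions `ρ x_i` are `κ`-linearly independent:

* `linearIndependent_of_rho` : the `x_i` are `E`-linearly independent;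
* `coord_mem` : if `w ∈ W` is an `E`-combination of the `x_i`, its coordinates are in `E ∩ W`;
* `coord_rho_eq_zero` : and if moreover `ρ w = 0` the coordinates reduce to `0`;
* `isIntegral_of_basis` : if the `x_i` span `F` over `E`, every `w ∈ W` is integral over any
  subring `O ⊆ F` containing `E ∩ W`;
* `card_le_finrank` : the family has at most `[F : E]` members.
-/

set_option autoImplicit false

namespace Fermat.Agent.S28.Alg.H29

section Basis

variable {E F L : Type*} [Field E] [Field F] [Algebra E F] [Field L]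

/-- The hypotheses of the basis argument. -/
structure BasisHyp (κ : Type*) [Field κ] [Algebra κ L] (W : Subring F) (ρ : W →+* L) (π : E) :
    Prop where
  π_ne : π ≠ 0
  π_mem : algebraMap E F π ∈ W
  ρ_π : ρ ⟨algebraMap E F π, π_mem⟩ = 0
  val : ∀ c : E, c ≠ 0 → ∃ (m n : ℕ) (u : E) (hu : algebraMap E F u ∈ W),
    ρ ⟨algebraMap E F u, hu⟩ ≠ 0 ∧ π ^ m * c = π ^ n * u
  kap : ∀ (u : E) (hu : algebraMap E F u ∈ W),
    ρ ⟨algebraMap E F u, hu⟩ ∈ Set.range (algebraMap κ L)

namespace BasisHyp

variable {κ : Type*} [Field κ] [Algebra κ L] {W : Subring F} {ρ : W →+* L} {π : E}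

/-- Scaling a nonzero finite family of elements of `E` into `E ∩ W`, with one member of nonzero
reduction. -/
theorem exists_scaling (H : BasisHyp κ W ρ π) {ι : Type*} [Fintype ι] (c : ι → E)
    (hc : c ≠ 0) :
    ∃ (a b : ℕ) (c' : ι → E) (hc' : ∀ i, algebraMap E F (c' i) ∈ W),
      (∃ i₀, ρ ⟨algebraMap E F (c' i₀), hc' i₀⟩ ≠ 0) ∧ ∀ i, π ^ a * c i = π ^ b * c' i := by
  classical
  have h : ∀ i, ∃ (m n : ℕ) (u : E) (hu : algebraMap E F u ∈ W),
      c i ≠ 0 → (ρ ⟨algebraMap E F u, hu⟩ ≠ 0 ∧ π ^ m * c i = π ^ n * u) := by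
    intro i
    by_cases hi : c i = 0
    · exact ⟨0, 0, 0, by rw [map_zero]; exact W.zero_mem, fun h => absurd hi h⟩
    · obtain ⟨m, n, u, hu, h1, h2⟩ := H.val (c i) hi
      exact ⟨m, n, u, hu, fun _ => ⟨h1, h2⟩⟩
  choose m n u hu hspec using h
  set A : ℕ := ∑ i, m i with hA
  set k : ι → ℕ := fun i => A - m i + n i with hk
  have hmA : ∀ i, m i ≤ A := fun i =>
    Finset.single_le_sum (f := m) (fun _ _ => Nat.zero_le _) (Finset.mem_univ i)
  have hkc : ∀ i, c i ≠ 0 → π ^ A * c i = π ^ k i * u i := by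
    intro i hi
    have h2 := (hspec i hi).2
    calc π ^ A * c i = π ^ (A - m i) * (π ^ m i * c i) := by
          rw [← mul_assoc, ← pow_add, Nat.sub_add_cancel (hmA i)]
      _ = π ^ (A - m i) * (π ^ n i * u i) := by rw [h2]
      _ = π ^ k i * u i := by rw [← mul_assoc, ← pow_add]
  obtain ⟨j, hj⟩ : ∃ j, c j ≠ 0 := by
    by_contra hne
    exact hc (funext fun i => by_contra fun hi => hne ⟨i, hi⟩)
  set s : Finset ι := Finset.univ.filter (fun i => c i ≠ 0) with hs
  have hsne : s.Nonempty := ⟨j, by simp [hs, hj]⟩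
  obtain ⟨i₀, hi₀s, hmin⟩ := Finset.exists_min_image s k hsne
  have hi₀ : c i₀ ≠ 0 := by simpa [hs] using hi₀s
  have hmem : ∀ i, algebraMap E F (if c i = 0 then 0 else π ^ (k i - k i₀) * u i) ∈ W := by
    intro i
    by_cases hi : c i = 0
    · rw [if_pos hi, map_zero]; exact W.zero_mem
    · rw [if_neg hi, map_mul, map_pow]
      exact W.mul_mem (W.pow_mem H.π_mem _) (hu i)
  refine ⟨A, k i₀, fun i => if c i = 0 then 0 else π ^ (k i - k i₀) * u i, hmem, ⟨i₀, ?_⟩, ?_⟩
  · have h1 := (hspec i₀ hi₀).1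
    have h2 : (⟨algebraMap E F (if c i₀ = 0 then 0 else π ^ (k i₀ - k i₀) * u i₀), hmem i₀⟩ : W) =
        ⟨algebraMap E F (u i₀), hu i₀⟩ := by
      apply Subtype.ext
      show algebraMap E F (if c i₀ = 0 then 0 else π ^ (k i₀ - k i₀) * u i₀) = algebraMap E F (u i₀)
      rw [if_neg hi₀, Nat.sub_self, pow_zero, one_mul]
    rw [h2]
    exact h1
  · intro i
    by_cases hi : c i = 0
    · simp only [hi, if_true, mul_zero]
    · have hle : k i₀ ≤ k i := hmin i (by simp [hs, hi])
      simp only [if_neg hi]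
      rw [hkc i hi, ← mul_assoc, ← pow_add, Nat.add_sub_cancel' hle]

/-- The core of the argument: a `W`-combination with coefficients in `E ∩ W` whose reduction
vanishes has coefficients of vanishing reduction. -/
theorem rho_coeff_eq_zero (H : BasisHyp κ W ρ π) {ι : Type*} [Fintype ι] (x : ι → W)
    (hx : LinearIndependent κ (fun i => ρ (x i))) (c : ι → E)
    (hc : ∀ i, algebraMap E F (c i) ∈ W)
    (h0 : ρ (∑ i, (⟨algebraMap E F (c i), hc i⟩ : W) * x i) = 0) :
    ∀ i, ρ ⟨algebraMap E F (c i), hc i⟩ = 0 := by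
  have hk : ∀ i, ∃ r : κ, algebraMap κ L r = ρ ⟨algebraMap E F (c i), hc i⟩ :=
    fun i => H.kap (c i) (hc i)
  choose r hr using hk
  rw [map_sum] at h0
  have h1 : ∑ i, r i • ρ (x i) = 0 := by
    rw [← h0]
    refine Finset.sum_congr rfl fun i _ => ?_
    rw [Algebra.smul_def, hr, map_mul]
  have h2 := Fintype.linearIndependent_iff.mp hx r h1
  intro i
  rw [← hr, h2 i, map_zero]

/-- The sum in `W` of a combination with coefficients in `E ∩ W`. -/
theorem coe_sum_mul {ι : Type*} [Fintype ι] (x : ι → W) (c : ι → E)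
    (hc : ∀ i, algebraMap E F (c i) ∈ W) :
    ((∑ i, (⟨algebraMap E F (c i), hc i⟩ : W) * x i : W) : F) = ∑ i, c i • ((x i : W) : F) := by
  rw [← Subring.coe_subtype, map_sum]
  refine Finset.sum_congr rfl fun i _ => ?_
  rw [map_mul, Algebra.smul_def]
  rfl

/-- **(i)** Families with linearly independent reductions are linearly independent. -/
theorem linearIndependent_of_rho (H : BasisHyp κ W ρ π) {ι : Type*} [Fintype ι] (x : ι → W)
    (hx : LinearIndependent κ (fun i => ρ (x i))) :
    LinearIndependent E (fun i => ((x i : W) : F)) := by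
  rw [Fintype.linearIndependent_iff]
  intro c hc
  by_contra hne
  have hc0 : c ≠ 0 := by
    intro h
    apply hne
    intro i
    rw [h]
    rfl
  obtain ⟨a, b, c', hc', ⟨i₀, hi₀⟩, heq⟩ := H.exists_scaling c hc0
  have hπb : algebraMap E F (π ^ b) ≠ 0 := by
    rw [Ne, map_eq_zero]
    exact pow_ne_zero _ H.π_ne
  have h1 : ∑ i, c' i • ((x i : W) : F) = 0 := by
    apply mul_left_cancel₀ hπb
    rw [mul_zero, Finset.mul_sum]
    calc ∑ i, algebraMap E F (π ^ b) * (c' i • ((x i : W) : F))
        = ∑ i, algebraMap E F (π ^ a) * (c i • ((x i : W) : F)) := by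
          refine Finset.sum_congr rfl fun i _ => ?_
          rw [Algebra.smul_def, Algebra.smul_def, ← mul_assoc, ← mul_assoc, ← map_mul, ← map_mul,
            heq i]
      _ = algebraMap E F (π ^ a) * ∑ i, c i • ((x i : W) : F) := by rw [Finset.mul_sum]
      _ = 0 := by rw [hc, mul_zero]
  have h2 : (∑ i, (⟨algebraMap E F (c' i), hc' i⟩ : W) * x i) = 0 := by
    apply Subtype.ext
    rw [coe_sum_mul x c' hc', h1]
    rfl
  exact hi₀ (H.rho_coeff_eq_zero x hx c' hc' (by rw [h2, map_zero]) i₀)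

/-- **(ii)** The coordinates of an element of `W` are in `E ∩ W`. -/
theorem coord_mem (H : BasisHyp κ W ρ π) {ι : Type*} [Fintype ι] (x : ι → W)
    (hx : LinearIndependent κ (fun i => ρ (x i))) (c : ι → E) (w : W)
    (hw : (w : F) = ∑ i, c i • ((x i : W) : F)) : ∀ i, algebraMap E F (c i) ∈ W := by
  by_cases hc0 : c = 0
  · intro i
    rw [hc0, Pi.zero_apply, map_zero]
    exact W.zero_mem
  obtain ⟨a, b, c', hc', ⟨i₀, hi₀⟩, heq⟩ := H.exists_scaling c hc0
  rcases le_or_gt a b with hab | hab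
  · intro i
    have h1 : c i = π ^ (b - a) * c' i := by
      apply mul_left_cancel₀ (pow_ne_zero a H.π_ne)
      rw [heq i, ← mul_assoc, ← pow_add, Nat.add_sub_cancel' hab]
    rw [h1, map_mul, map_pow]
    exact W.mul_mem (W.pow_mem H.π_mem _) (hc' i)
  · exfalso
    have h1 : ∀ i, c' i = π ^ (a - b) * c i := by
      intro i
      apply mul_left_cancel₀ (pow_ne_zero b H.π_ne)
      rw [← heq i, ← mul_assoc, ← pow_add, Nat.add_sub_cancel' hab.le]
    have h2 : (∑ i, (⟨algebraMap E F (c' i), hc' i⟩ : W) * x i) =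
        (⟨algebraMap E F π, H.π_mem⟩ : W) ^ (a - b) * w := by
      apply Subtype.ext
      rw [coe_sum_mul x c' hc']
      show _ = (algebraMap E F π) ^ (a - b) * (w : F)
      rw [hw, Finset.mul_sum]
      refine Finset.sum_congr rfl fun i _ => ?_
      rw [h1 i, Algebra.smul_def, Algebra.smul_def, map_mul, map_pow, mul_assoc]
    have h3 : ρ (∑ i, (⟨algebraMap E F (c' i), hc' i⟩ : W) * x i) = 0 := by
      rw [h2, map_mul, map_pow, H.ρ_π, zero_pow (Nat.sub_ne_zero_of_lt hab), zero_mul]
    exact hi₀ (H.rho_coeff_eq_zero x hx c' hc' h3 i₀)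

/-- **(ii')** If moreover `ρ w = 0`, the coordinates reduce to `0`. -/
theorem coord_rho_eq_zero (H : BasisHyp κ W ρ π) {ι : Type*} [Fintype ι] (x : ι → W)
    (hx : LinearIndependent κ (fun i => ρ (x i))) (c : ι → E) (w : W)
    (hw : (w : F) = ∑ i, c i • ((x i : W) : F)) (hρ : ρ w = 0) (i : ι) :
    ρ ⟨algebraMap E F (c i), H.coord_mem x hx c w hw i⟩ = 0 := by
  have h2 : (∑ i, (⟨algebraMap E F (c i), H.coord_mem x hx c w hw i⟩ : W) * x i) = w := by
    apply Subtype.ext
    rw [coe_sum_mul x c (H.coord_mem x hx c w hw), hw]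
  exact H.rho_coeff_eq_zero x hx c (H.coord_mem x hx c w hw) (by rw [h2, hρ]) i

/-- **(iii)** If the `x_i` span `F` over `E`, every element of `W` is integral over any subring
of `F` containing `E ∩ W`. -/
theorem isIntegral_of_basis (H : BasisHyp κ W ρ π) {ι : Type*} [Fintype ι] (x : ι → W)
    (hx : LinearIndependent κ (fun i => ρ (x i)))
    (hsp : ∀ f : F, ∃ c : ι → E, f = ∑ i, c i • ((x i : W) : F))
    (O : Subring F) (hO : ∀ c : E, algebraMap E F c ∈ W → algebraMap E F c ∈ O) (w : W) :
    IsIntegral O (w : F) := by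
  set N : Submodule O F := Submodule.span O (Set.range fun i => ((x i : W) : F)) with hN
  have hWN : ∀ v : W, (v : F) ∈ N := by
    intro v
    obtain ⟨c, hc⟩ := hsp (v : F)
    have hcW := H.coord_mem x hx c v hc
    rw [hc]
    refine Submodule.sum_mem _ fun i _ => ?_
    have h1 : c i • ((x i : W) : F) = (⟨algebraMap E F (c i), hO _ (hcW i)⟩ : O) • ((x i : W) : F) := by
      rw [Algebra.smul_def]
      rfl
    rw [h1]
    exact Submodule.smul_mem _ _ (Submodule.subset_span ⟨i, rfl⟩)
  have hNbot : N ≠ ⊥ := by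
    intro h
    have h1 : ((1 : W) : F) ∈ N := hWN 1
    rw [h, Submodule.mem_bot] at h1
    exact one_ne_zero h1
  have hNfg : N.FG := Submodule.fg_span (Set.finite_range _)
  refine isIntegral_of_smul_mem_submodule N hNbot hNfg (w : F) ?_
  intro n hn
  induction hn using Submodule.span_induction with
  | mem y hy =>
    obtain ⟨i, rfl⟩ := hy
    exact hWN (w * x i)
  | zero => rw [smul_zero]; exact N.zero_mem
  | add y z _ _ hy hz => rw [smul_add]; exact N.add_mem hy hz
  | smul o y _ hy =>
    rw [smul_comm]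
    exact N.smul_mem o hy

/-- **(iv)** A family in `W` with linearly independent reductions has at most `[F : E]`
members. -/
theorem card_le_finrank (H : BasisHyp κ W ρ π) [FiniteDimensional E F] {ι : Type*} [Fintype ι]
    (x : ι → W) (hx : LinearIndependent κ (fun i => ρ (x i))) :
    Fintype.card ι ≤ Module.finrank E F :=
  (H.linearIndependent_of_rho x hx).fintype_card_le_finrank

end BasisHyp

end Basis

/-- A vector space in which every linearly independent finite family has at most `n` members is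
finite-dimensional of dimension at most `n`. -/
theorem finite_and_finrank_le_of_forall {κ M : Type*} [Field κ] [AddCommGroup M] [Module κ M]
    (n : ℕ) (h : ∀ (m : ℕ) (y : Fin m → M), LinearIndependent κ y → m ≤ n) :
    Module.Finite κ M ∧ Module.finrank κ M ≤ n := by
  have hrank : Module.rank κ M ≤ n := by
    apply rank_le
    intro s hs
    have h1 := h s.card (fun j => ((s.equivFin.symm j : s) : M))
      (hs.comp _ s.equivFin.symm.injective)
    exact h1
  have hfin : Module.Finite κ M :=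
    Module.rank_lt_aleph0_iff.mp (lt_of_le_of_lt hrank (Cardinal.natCast_lt_aleph0))
  exact ⟨hfin, Module.finrank_le_of_rank_le hrank⟩

end Fermat.Agent.S28.Alg.H29
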