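import Fermat.Agent.S28.Alg.H1_Leaves

/-!
# S28, package ALG, leaf RED-F (helper2)

* `stJd : StJd ℓ`                      `j_d = iota (j_d over Z_(ℓ))`, `red (j_d) = jb_d`;
* `stFNleKW : StFNleKW ℓ N`            `F_N ⊆ K_W`;
* `stK0le : StK0le ℓ N`                `ℚ(j) ⊆ K_W`, `ℚ(j) ⊆ F_N`;
* `stImage : StUnit ℓ → StImage N ℓ`   `Fb_N ⊆ ρ(F_N ∩ O_W)`.
-/

set_option autoImplicit false
set_option linter.unusedSectionVars false
open ModularCurve ModularCurve.IgusaScheme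

noncomputable section

namespace Fermat.Agent.S28.Alg

open Fermat.Agent.S28.Asm

section Level0

variable (ℓ : ℕ) [Fact ℓ.Prime]

/-- [RED-F1] -/
theorem stJd : StJd ℓ := by
  intro d _
  constructor
  · rw [iota, coeffMap_qExpand, coeffMap_jqModC]
  · rw [red, coeffMap_qExpand, coeffMap_jqModC]

omit [Fact ℓ.Prime] in
theorem h2_iota_mem_KW (a : Lam ℓ) : iota ℓ a ∈ KW ℓ :=
  Subfield.subset_closure ⟨a, rfl⟩

omit [Fact ℓ.Prime] in
theorem h2_algebraMap_mem_KW (c : ℚ) : algebraMap ℚ (LaurentSeries ℚ) c ∈ KW ℓ := by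
  have h : algebraMap ℚ (LaurentSeries ℚ) c = (c : LaurentSeries ℚ) :=
    (eq_ratCast (algebraMap ℚ (LaurentSeries ℚ)) c)
  rw [h]
  exact SubfieldClass.ratCast_mem (KW ℓ) c

/-- `K_W` as an intermediate field of `ℚ((q)) / ℚ`. -/
def h2_KWI : IntermediateField ℚ (LaurentSeries ℚ) :=
  (KW ℓ).toIntermediateField (h2_algebraMap_mem_KW ℓ)

omit [Fact ℓ.Prime] in
theorem h2_mem_KWI {x : LaurentSeries ℚ} : x ∈ h2_KWI ℓ ↔ x ∈ KW ℓ := Iff.rfl

omit [Fact ℓ.Prime] in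
theorem h2_jd_mem_KW (d : ℕ) [NeZero d] : qExpand ℚ d (jqModC ℚ) ∈ KW ℓ := by
  have : qExpand ℚ d (jqModC ℚ) = iota ℓ (qExpand (Zl ℓ) d (jqModC (Zl ℓ))) := by
    rw [iota, coeffMap_qExpand, coeffMap_jqModC]
  rw [this]
  exact h2_iota_mem_KW ℓ _

omit [Fact ℓ.Prime] in
/-- [RED-F2] -/
theorem stFNleKW (N : ℕ) : StFNleKW ℓ N := by
  intro x hx
  have hle : modularFunctionFieldFull N ≤ h2_KWI ℓ := by
    rw [modularFunctionFieldFull, IntermediateField.adjoin_le_iff]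
    rintro y ⟨d, hne, -, rfl⟩
    have := hne
    exact h2_jd_mem_KW ℓ d
  exact hle hx

omit [Fact ℓ.Prime] in
/-- [RED-F3] -/
theorem stK0le (N : ℕ) : StK0le ℓ N := by
  constructor
  · intro x hx
    have hle : K0 ≤ h2_KWI ℓ := by
      rw [K0, IntermediateField.adjoin_le_iff, Set.singleton_subset_iff]
      have h := h2_jd_mem_KW ℓ 1
      rwa [qExpand_one_apply] at h
    exact hle hx
  · intro x hx
    have hle : K0 ≤ modularFunctionFieldFull N := by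
      rw [K0, IntermediateField.adjoin_le_iff, Set.singleton_subset_iff]
      exact jqModC_mem_full ℚ N
    exact hle hx

end Level0

section LevelN

variable (N : ℕ) [NeZero N] (ℓ : ℕ) [Fact ℓ.Prime]

/-- The element `j_d` of `C = F_N ∩ O_W`. -/
def h2_jdC (d : ℕ) [NeZero d] (hd : d ∣ N) : CW N ℓ :=
  ⟨⟨qExpand ℚ d (jqModC ℚ), jqModCd_mem_full ℚ N hd⟩, by
    rw [mem_CW_iff]
    show qExpand ℚ d (jqModC ℚ) ∈ OW ℓ
    rw [(stJd ℓ d).1]
    exact iota_mem_OW ℓ _⟩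

omit [NeZero N] in
theorem h2_coe_jdC (d : ℕ) [NeZero d] (hd : d ∣ N) :
    (((h2_jdC N ℓ d hd : CW N ℓ) : FN N) : LaurentSeries ℚ) = qExpand ℚ d (jqModC ℚ) := rfl

omit [NeZero N] in
theorem h2_rhoC_jdC (d : ℕ) [NeZero d] (hd : d ∣ N) :
    rhoC N ℓ (h2_jdC N ℓ d hd) = qExpand (ZMod ℓ) d (jqModC (ZMod ℓ)) := by
  show rhoW ℓ (CWtoOW N ℓ (h2_jdC N ℓ d hd)) = _
  rw [rhoW_eq ℓ _ (qExpand (Zl ℓ) d (jqModC (Zl ℓ))) 1 (by rw [map_one]; exact one_ne_zero)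
    (by rw [map_one, mul_one]; exact (stJd ℓ d).1), map_one, div_one, (stJd ℓ d).2]

/-- The range of `ρ` on `C = F_N ∩ O_W` is closed under inverses. -/
theorem h2_inv_mem_range (hU : StUnit ℓ) (y : LaurentSeries (ZMod ℓ))
    (hy : y ∈ (rhoC N ℓ).range) : y⁻¹ ∈ (rhoC N ℓ).range := by
  obtain ⟨x, rfl⟩ := hy
  by_cases h0 : rhoC N ℓ x = 0
  · rw [h0, inv_zero]
    exact zero_mem _
  · obtain ⟨u, hu⟩ := hU (CWtoOW N ℓ x) h0
    have hu' : (((x : CW N ℓ) : FN N) : LaurentSeries ℚ) * (u : LaurentSeries ℚ) = 1 :=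
      congrArg (fun z : OW ℓ => (z : LaurentSeries ℚ)) hu
    have hxinv : ((((x : CW N ℓ) : FN N)⁻¹ : FN N) : LaurentSeries ℚ) = (u : LaurentSeries ℚ) := by
      rw [IntermediateField.coe_inv]
      exact (eq_inv_of_mul_eq_one_right hu').symm
    have hmem : ((x : CW N ℓ) : FN N)⁻¹ ∈ CW N ℓ := by
      rw [mem_CW_iff, hxinv]
      exact u.2
    refine ⟨⟨_, hmem⟩, ?_⟩
    have hx0 : ((x : CW N ℓ) : FN N) ≠ 0 := by
      intro hx
      apply h0
      have : x = 0 := Subtype.ext hx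
      rw [this, map_zero]
    have hmul : (⟨_, hmem⟩ : CW N ℓ) * x = 1 := by
      apply Subtype.ext
      show ((x : CW N ℓ) : FN N)⁻¹ * (x : FN N) = 1
      exact inv_mul_cancel₀ hx0
    have := congrArg (rhoC N ℓ) hmul
    rw [map_mul, map_one] at this
    exact eq_inv_of_mul_eq_one_left this

/-- The range of `ρ` on `C`, as a subfield of `k((q))`. -/
def h2_rangeField (hU : StUnit ℓ) : Subfield (LaurentSeries (ZMod ℓ)) where
  __ := (rhoC N ℓ).range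
  inv_mem' y hy := h2_inv_mem_range N ℓ hU y hy

theorem h2_mem_rangeField (hU : StUnit ℓ) {y : LaurentSeries (ZMod ℓ)} :
    y ∈ h2_rangeField N ℓ hU ↔ ∃ x : CW N ℓ, rhoC N ℓ x = y := Iff.rfl

theorem h2_algebraMap_mem_rangeField (hU : StUnit ℓ) (c : ZMod ℓ) :
    algebraMap (ZMod ℓ) (LaurentSeries (ZMod ℓ)) c ∈ h2_rangeField N ℓ hU := by
  have hc : c = ((c.val : ℕ) : ZMod ℓ) := (ZMod.natCast_zmod_val c).symm
  rw [hc, map_natCast]
  exact natCast_mem _ _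

/-- The range of `ρ` on `C`, as an intermediate field of `k((q)) / k`. -/
def h2_rangeI (hU : StUnit ℓ) : IntermediateField (ZMod ℓ) (LaurentSeries (ZMod ℓ)) :=
  (h2_rangeField N ℓ hU).toIntermediateField (h2_algebraMap_mem_rangeField N ℓ hU)

/-- [RED-F4] -/
theorem stImage (hU : StUnit ℓ) : StImage N ℓ := by
  intro y hy
  have hle : modularFunctionFieldFullC (ZMod ℓ) N ≤ h2_rangeI N ℓ hU := by
    rw [modularFunctionFieldFullC, IntermediateField.adjoin_le_iff]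
    rintro z ⟨d, hne, hd, rfl⟩
    have := hne
    exact ⟨h2_jdC N ℓ d hd, h2_rhoC_jdC N ℓ d hd⟩
  exact hle hy

end LevelN

end Fermat.Agent.S28.Alg
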