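import Fermat.Agent.S28.Alg.H5_Leaves
import Fermat.Agent.S28.Alg.H2_RedF
import Fermat.Agent.S28.Alg.H29_Basis
import Fermat.Agent.S28.Mod.H23_Deg0

/-!
# S28 / ALG (helper29): leaves [QC-DIM] `StIndep`, [QC-BASIS] `StBasis` and the deliverable
`Asm.StQEPC_DEGU`, for helper1's definitions (`OW`, `rhoW`, `CW`, `rhoC`, `K0`, `kappa`)

Only open input: `StK0 ℓ` (`ρ_W (O_W ∩ ℚ(j)) ⊆ k(jb)`, the Gauss leaf).

* `h29_basisHyp : StK0 ℓ → BasisHyp (kappa (ZMod ℓ)) (OW ℓ) (rhoW ℓ) ℓ`;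
* `stIndep : StK0 ℓ → StIndep N ℓ`;
* `stDEGU_of : StK0 ℓ → StDEG0 M → StDEGU M ℓ`, `stQEPC_DEGU_of : (∀ ℓ, StK0 ℓ) → StQEPC_DEGU`;
* `stBasis : StK0 ℓ → StBasis N ℓ`.
-/

set_option autoImplicit false
set_option linter.unusedSectionVars false
open ModularCurve ModularCurve.IgusaScheme IntermediateField

noncomputable section

namespace Fermat.Agent.S28.Alg.H29

open Fermat.Agent.S28.Asm Fermat.Agent.S28.Alg

/-! ### Transfer of linear independence between `L / k(x)` and `Ω / k(x)` -/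

section Transfer

variable {k Ω : Type*} [Field k] [Field Ω] [Algebra k Ω] (L : IntermediateField k Ω) (x : L)

/-- The image of `k(x) ⊆ L` in `Ω` is `k(x) ⊆ Ω`. -/
theorem h29_adjoin_map :
    (IntermediateField.adjoin k {x}).map L.val = IntermediateField.adjoin k {(x : Ω)} := by
  rw [IntermediateField.adjoin_map, Set.image_singleton]
  rfl

/-- An element of `k(x) ⊆ L`, seen in `k(x) ⊆ Ω`. -/
def h29_toAdj (r : IntermediateField.adjoin k {x}) : IntermediateField.adjoin k {(x : Ω)} :=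
  ⟨((r : L) : Ω), by
    rw [← h29_adjoin_map L x]
    exact ⟨(r : L), r.2, rfl⟩⟩

theorem h29_toAdj_surjective : Function.Surjective (h29_toAdj L x) := by
  rintro ⟨s, hs⟩
  rw [← h29_adjoin_map L x] at hs
  obtain ⟨r, hr, rfl⟩ := hs
  exact ⟨⟨r, hr⟩, rfl⟩

theorem h29_toAdj_eq_zero (r : IntermediateField.adjoin k {x}) (h : h29_toAdj L x r = 0) :
    r = 0 := by
  have h1 : ((r : L) : Ω) = 0 := congrArg Subtype.val h
  have h2 : (r : L) = 0 := Subtype.ext h1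
  exact Subtype.ext h2

theorem h29_linearIndependent_val_iff {ι : Type*} (y : ι → L) :
    LinearIndependent (IntermediateField.adjoin k {x}) y ↔
      LinearIndependent (IntermediateField.adjoin k {(x : Ω)}) (fun i => ((y i : L) : Ω)) := by
  constructor
  · intro hy
    exact hy.map_of_surjective_injective (h29_toAdj L x) (L.val : L →+ Ω)
      (h29_toAdj_surjective L x) (fun m hm => Subtype.ext hm) (fun r m => rfl)
  · intro hy
    rw [linearIndependent_iff'] at hy ⊢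
    intro s g hg i hi
    have h1 : ∑ j ∈ s, h29_toAdj L x (g j) • ((y j : L) : Ω) = 0 := by
      have h2 := congrArg (L.val : L → Ω) hg
      rw [map_sum, map_zero] at h2
      rw [← h2]
      rfl
    exact h29_toAdj_eq_zero L x _ (hy s (fun j => h29_toAdj L x (g j)) h1 i hi)

end Transfer

/-! ### The hypotheses of the basis argument for `O_W` -/

section Level0

variable (ℓ : ℕ) [Fact ℓ.Prime]

theorem h29_natCast_ne_zero : ((ℓ : ℕ) : LaurentSeries ℚ) ≠ 0 := H5.natCast_ne_zero_L ℓ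

theorem h29_rhoW_natCast : rhoW ℓ ((ℓ : ℕ) : OW ℓ) = 0 :=
  (H5.stRhoWKer ℓ _).mpr ⟨1, (mul_one _).symm⟩

/-- The hypotheses of the abstract basis argument hold for `E = ℚ(j)`, `F = ℚ((q))`,
`W = O_W`, `κ = k(jb)`. -/
theorem h29_basisHyp (hK0 : StK0 ℓ) :
    BasisHyp (kappa (ZMod ℓ)) (OW ℓ) (rhoW ℓ) (((ℓ : ℕ) : K0)) where
  π_ne := by
    intro h
    apply h29_natCast_ne_zero ℓ
    have := congrArg (algebraMap K0 (LaurentSeries ℚ)) h
    rwa [map_natCast, map_zero] at this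
  π_mem := by
    rw [map_natCast]
    exact _root_.natCast_mem _ _
  ρ_π := by
    have h1 : ∀ h : algebraMap K0 (LaurentSeries ℚ) ((ℓ : ℕ) : K0) ∈ OW ℓ,
        (⟨algebraMap K0 (LaurentSeries ℚ) ((ℓ : ℕ) : K0), h⟩ : OW ℓ) = ((ℓ : ℕ) : OW ℓ) :=
      fun h => Subtype.ext
        ((map_natCast (algebraMap K0 (LaurentSeries ℚ)) ℓ).trans (Subring.coe_natCast _ _).symm)
    rw [h1]
    exact h29_rhoW_natCast ℓ
  val := by
    intro c hc
    have hcL : ((c : K0) : LaurentSeries ℚ) ≠ 0 := fun h => hc (Subtype.ext h)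
    obtain ⟨e, u, hu, hρu⟩ := H5.stVal ℓ (c : LaurentSeries ℚ) ((stK0le ℓ 1).1 _ c.2) hcL
    have hℓ0 := h29_natCast_ne_zero ℓ
    have hℓK : ((ℓ : ℕ) : LaurentSeries ℚ) ∈ K0 := _root_.natCast_mem _ _
    have huK : (u : LaurentSeries ℚ) ∈ K0 := by
      have h1 : (u : LaurentSeries ℚ) = ((ℓ : ℕ) : LaurentSeries ℚ) ^ (-e) * c := by
        rw [hu, ← mul_assoc, ← zpow_add₀ hℓ0, neg_add_cancel, zpow_zero, one_mul]
      rw [h1]
      exact mul_mem (zpow_mem hℓK _) c.2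
    have hmem : algebraMap K0 (LaurentSeries ℚ) ⟨(u : LaurentSeries ℚ), huK⟩ ∈ OW ℓ := u.2
    have hρ' : rhoW ℓ ⟨algebraMap K0 (LaurentSeries ℚ) ⟨(u : LaurentSeries ℚ), huK⟩, hmem⟩ ≠ 0 :=
      hρu
    refine ⟨(-e).toNat, e.toNat, ⟨(u : LaurentSeries ℚ), huK⟩, hmem, hρ', ?_⟩
    apply Subtype.ext
    show ((ℓ : ℕ) : LaurentSeries ℚ) ^ (-e).toNat * (c : LaurentSeries ℚ) =
      ((ℓ : ℕ) : LaurentSeries ℚ) ^ e.toNat * (u : LaurentSeries ℚ)
    rw [hu]
    rcases le_or_gt 0 e with he | he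
    · have h1 : (-e).toNat = 0 := Int.toNat_eq_zero.mpr (by omega)
      have h2 : ((e.toNat : ℕ) : ℤ) = e := Int.toNat_of_nonneg he
      rw [h1, pow_zero, one_mul, ← zpow_natCast, h2]
    · have h1 : e.toNat = 0 := Int.toNat_eq_zero.mpr he.le
      have h2 : (((-e).toNat : ℕ) : ℤ) = -e := Int.toNat_of_nonneg (by omega)
      rw [h1, pow_zero, one_mul, ← mul_assoc, ← zpow_natCast, h2, ← zpow_add₀ hℓ0,
        neg_add_cancel, zpow_zero, one_mul]
  kap := by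
    intro u hu
    exact ⟨⟨_, hK0 ⟨(u : LaurentSeries ℚ), hu⟩ u.2⟩, rfl⟩

end Level0

/-- `k(jb)` inside `Fb_N` (with the generic instances, as in `degC`). -/
abbrev h29_kjF (k : Type) [Field k] (N : ℕ) [NeZero N] :
    IntermediateField k ↥(modularFunctionFieldFullC k N) :=
  IntermediateField.adjoin k {jbFull k N}

theorem h29_degC_eq (k : Type) [Field k] (N : ℕ) [NeZero N] :
    degC k N = Module.finrank (h29_kjF k N) ↥(modularFunctionFieldFullC k N) := rfl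

section LevelN

variable (N : ℕ) [NeZero N] (ℓ : ℕ) [Fact ℓ.Prime]

/-- **[QC-DIM]** `StIndep`, for any finite index type. -/
theorem h29_indep (hK0 : StK0 ℓ) {ι : Type*} [Fintype ι] (c : ι → CW N ℓ)
    (h : LinearIndependent (kappa (ZMod ℓ)) (fun i => rhoC N ℓ (c i))) :
    LinearIndependent K0 (fun i => (((c i : CW N ℓ) : FN N) : LaurentSeries ℚ)) :=
  (h29_basisHyp ℓ hK0).linearIndependent_of_rho (fun i => CWtoOW N ℓ (c i)) h

/-- **[QC-DIM]** `StIndep` verbatim. -/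
theorem stIndep (hK0 : StK0 ℓ) : StIndep N ℓ := fun _ c h => h29_indep N ℓ hK0 c h

/-- Lifting a family of `Fb_N`, linearly independent over `k(jb)`, to `C = F_N ∩ O_W`: the lift
is linearly independent over `ℚ(j)` inside `F_N`. -/
theorem h29_exists_lift (hK0 : StK0 ℓ) {ι : Type*} [Fintype ι]
    (y : ι → ↥(modularFunctionFieldFullC (ZMod ℓ) N))
    (hy : LinearIndependent (h29_kjF (ZMod ℓ) N) y) :
    ∃ c : ι → CW N ℓ, (∀ i, rhoC N ℓ (c i) = (y i : LaurentSeries (ZMod ℓ))) ∧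
      LinearIndependent (kappa (ZMod ℓ)) (fun i => rhoC N ℓ (c i)) ∧
      LinearIndependent K0 (fun i => (((c i : CW N ℓ) : FN N) : LaurentSeries ℚ)) ∧
      LinearIndependent (R := h29_kjF ℚ N) (M := ↥(modularFunctionFieldFullC ℚ N))
        (fun i => ((c i : CW N ℓ) : FN N)) := by
  have hlift : ∀ i, ∃ c : CW N ℓ, rhoC N ℓ c = (y i : LaurentSeries (ZMod ℓ)) :=
    fun i => stImage N ℓ (H5.stUnit ℓ) _ (y i).2
  choose c hc using hlift
  have h1 : LinearIndependent (kappa (ZMod ℓ)) (fun i => rhoC N ℓ (c i)) := by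
    have h0 := (h29_linearIndependent_val_iff (modularFunctionFieldFullC (ZMod ℓ) N)
      (jbFull (ZMod ℓ) N) y).mp hy
    have h2 : (fun i => rhoC N ℓ (c i)) = fun i => ((y i : ↥(modularFunctionFieldFullC (ZMod ℓ) N)) :
        LaurentSeries (ZMod ℓ)) := funext hc
    rw [h2]
    exact h0
  have h2 := h29_indep N ℓ hK0 c h1
  refine ⟨c, hc, h1, h2, ?_⟩
  exact (h29_linearIndependent_val_iff (modularFunctionFieldFullC ℚ N) (jbFull ℚ N)
    (fun i => ((c i : CW N ℓ) : FN N))).mpr h2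

/-- **[DEGU]** for one level. -/
theorem stDEGU_of (hK0 : StK0 ℓ) (h0 : StDEG0 N) : StDEGU N ℓ := by
  obtain ⟨hfin, hle⟩ := (Mod.H23.stDEG0_iff N).mp h0
  have key : ∀ (m : ℕ) (y : Fin m → ↥(modularFunctionFieldFullC (ZMod ℓ) N)),
      LinearIndependent (h29_kjF (ZMod ℓ) N) y → m ≤ degC ℚ N := by
    intro m y hy
    obtain ⟨c, -, -, -, h3⟩ := h29_exists_lift N ℓ hK0 y hy
    have hfin' : FiniteDimensional (h29_kjF ℚ N) ↥(modularFunctionFieldFullC ℚ N) := hfin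
    have h4 := h3.fintype_card_le_finrank
    rw [Fintype.card_fin] at h4
    exact h4
  obtain ⟨hF, hr⟩ := finite_and_finrank_le_of_forall (degC ℚ N) key
  exact ⟨hF, hr.trans hle⟩

/-- **[QC-BASIS]** a basis of `C = F_N ∩ O_W` over `O_v = ℚ(j) ∩ O_W`, with the independence of
the reductions. -/
theorem h29_exists_basis (hK0 : StK0 ℓ) (h0 : StDEG0 N) (hdeg : StDEG N ℓ) :
    ∃ (c : Fin (degC ℚ N) → CW N ℓ),
      LinearIndependent (kappa (ZMod ℓ)) (fun i => rhoC N ℓ (c i)) ∧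
      ∀ x : CW N ℓ, ∃ a : Fin (degC ℚ N) → OW ℓ,
        (∀ i, (a i : LaurentSeries ℚ) ∈ K0) ∧
        ((x : FN N) : LaurentSeries ℚ) =
          ∑ i, (a i : LaurentSeries ℚ) * (((c i : CW N ℓ) : FN N) : LaurentSeries ℚ) := by
  obtain ⟨hfin, hle⟩ := (Mod.H23.stDEG0_iff N).mp h0
  have hfin' : FiniteDimensional (h29_kjF ℚ N) ↥(modularFunctionFieldFullC ℚ N) := hfin
  have hn : degC ℚ N ≤
      Module.finrank (h29_kjF (ZMod ℓ) N) ↥(modularFunctionFieldFullC (ZMod ℓ) N) :=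
    hle.trans hdeg
  obtain ⟨y, hy⟩ := exists_linearIndependent_of_le_finrank hn
  obtain ⟨c, -, h1, -, h3⟩ := h29_exists_lift N ℓ hK0 y hy
  have hspan := h3.span_eq_top_of_card_eq_finrank' (by rw [Fintype.card_fin]; rfl)
  refine ⟨c, h1, fun x => ?_⟩
  have hx : ∀ z : ↥(modularFunctionFieldFullC ℚ N), ∀ cF : Fin (degC ℚ N) →
      ↥(modularFunctionFieldFullC ℚ N), Submodule.span (h29_kjF ℚ N) (Set.range cF) = ⊤ →
      ∃ g : Fin (degC ℚ N) → h29_kjF ℚ N, ∑ i, g i • cF i = z := by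
    intro z cF hsp
    have hz : z ∈ Submodule.span (h29_kjF ℚ N) (Set.range cF) := by
      rw [hsp]
      exact Submodule.mem_top
    exact (Submodule.mem_span_range_iff_exists_fun _).mp hz
  obtain ⟨g, hg⟩ := hx ((x : CW N ℓ) : FN N) (fun i => ((c i : CW N ℓ) : FN N)) hspan
  set gE : Fin (degC ℚ N) → K0 :=
    fun i => h29_toAdj (modularFunctionFieldFullC ℚ N) (jbFull ℚ N) (g i) with hgE
  have hw : ((CWtoOW N ℓ x : OW ℓ) : LaurentSeries ℚ) =
      ∑ i, gE i • ((CWtoOW N ℓ (c i) : OW ℓ) : LaurentSeries ℚ) := by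
    have h4 := congrArg ((modularFunctionFieldFullC ℚ N).val :
      ↥(modularFunctionFieldFullC ℚ N) → LaurentSeries ℚ) hg
    rw [map_sum] at h4
    exact h4.symm
  have hmem := (h29_basisHyp ℓ hK0).coord_mem (fun i => CWtoOW N ℓ (c i)) h1 gE (CWtoOW N ℓ x) hw
  refine ⟨fun i => ⟨algebraMap K0 (LaurentSeries ℚ) (gE i), hmem i⟩, fun i => (gE i).2, ?_⟩
  exact hw

/-- **[QC-BASIS]** `StBasis` verbatim. -/
theorem stBasis (hK0 : StK0 ℓ) : StBasis N ℓ := by
  intro h0 hdeg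
  obtain ⟨c, -, hc⟩ := h29_exists_basis N ℓ hK0 h0 hdeg
  exact ⟨degC ℚ N, c, hc⟩

end LevelN

/-- **Deliverable DEGU** from the Gauss leaf `StK0`. -/
theorem stQEPC_DEGU_of (hK0 : ∀ (ℓ : ℕ) [Fact ℓ.Prime], StK0 ℓ) : StQEPC_DEGU :=
  fun M _ ℓ _ h0 => stDEGU_of M ℓ (hK0 ℓ) h0

end Fermat.Agent.S28.Alg.H29
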