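import Fermat.Agent.S28.Alg.H5_Leaves
import Fermat.Agent.S28.Mod.H14_PolyJ

/-!
# S28, package ALG (helper5): the Gauss leaves `StPolyOW` and `StK0`

* content normal form of a polynomial `P ∈ ℚ[X]`: `P = ℓ ^ e * P'`, `P' ∈ ℤ_(ℓ)[X]` with nonzero
  reduction;
* `ℚ[j] ∩ O_W = ℤ_(ℓ)[j]`, the same for `1/j`  (`StPolyOW`);
* `ρ_W (O_W ∩ ℚ(j)) ⊆ k(jb)`  (`StK0`).
-/

set_option autoImplicit false
set_option linter.unusedSectionVars false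
set_option linter.style.haveILetI false

open ModularCurve Polynomial

namespace Fermat.Agent.S28.Alg.H5

open Fermat.Agent.S28.Alg Fermat.Agent.S28.Asm Fermat.Agent.S28.Mod.PolyJ

variable (ℓ : ℕ) [hℓ : Fact ℓ.Prime]

/-- a rational number of nonnegative `ℓ`-adic valuation lies in `ℤ_(ℓ)`. -/
lemma mem_ratLocalizedAt_of_padicValRat_nonneg {x : ℚ} (hx : 0 ≤ padicValRat ℓ x) :
    x ∈ GaloisRep.ratLocalizedAt ℓ := by
  show x.den.Coprime ℓ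
  rw [Nat.coprime_comm, Nat.Prime.coprime_iff_not_dvd hℓ.out]
  intro hdvd
  rw [padicValRat_def] at hx
  have h1 : 1 ≤ padicValNat ℓ x.den := one_le_padicValNat_of_dvd x.den_ne_zero hdvd
  have h2 : padicValInt ℓ x.num = 0 := by
    apply padicValInt.eq_zero_of_not_dvd
    intro h
    have h3 : ℓ ∣ x.num.natAbs := Int.natCast_dvd.mp h
    have h4 : ℓ ∣ Nat.gcd x.num.natAbs x.den := Nat.dvd_gcd h3 hdvd
    rw [x.reduced] at h4
    exact hℓ.out.one_lt.ne' (Nat.dvd_one.mp h4)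
  rw [h2] at hx
  omega

/-- an element of `ℤ_(ℓ)` of valuation `0` has nonzero residue. -/
lemma resZl_ne_zero_of_padicValRat_eq_zero {x : Zl ℓ} (hx0 : x ≠ 0)
    (hx : padicValRat ℓ (x : ℚ) = 0) : resZl ℓ x ≠ 0 := by
  intro h
  obtain ⟨y, rfl⟩ := (H5.resZl_eq_zero_iff ℓ).mp h
  have hy : y ≠ 0 := fun h0 => hx0 (by rw [h0, mul_zero])
  have hy' : ((y : Zl ℓ) : ℚ) ≠ 0 := fun h0 => hy (Subtype.ext h0)
  have hℓ0 : ((ℓ : ℕ) : ℚ) ≠ 0 := Nat.cast_ne_zero.mpr hℓ.out.ne_zero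
  rw [Subring.coe_mul, Subring.coe_natCast, padicValRat.mul hℓ0 hy',
    padicValRat.self hℓ.out.one_lt] at hx
  have := padicValRat_nonneg_of_mem ℓ y hℓ.out
  omega

/-- **Content normal form**: a nonzero `P ∈ ℚ[X]` is `ℓ ^ e * P'` with `P' ∈ ℤ_(ℓ)[X]` of nonzero
reduction modulo `ℓ`. -/
theorem exists_content_normal_form {P : ℚ[X]} (hP : P ≠ 0) :
    ∃ (e : ℤ) (P' : (Zl ℓ)[X]), P'.map (resZl ℓ) ≠ 0 ∧
      P = C (((ℓ : ℕ) : ℚ) ^ e) * P'.map (algebraMap (Zl ℓ) ℚ) := by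
  have hne : P.support.Nonempty := by
    rw [Finset.nonempty_iff_ne_empty, ne_eq, Polynomial.support_eq_empty]
    exact hP
  obtain ⟨i₀, hi₀, hmin⟩ := Finset.exists_min_image P.support
    (fun i => padicValRat ℓ (P.coeff i)) hne
  set e : ℤ := padicValRat ℓ (P.coeff i₀) with he
  have hℓ0 : ((ℓ : ℕ) : ℚ) ≠ 0 := Nat.cast_ne_zero.mpr hℓ.out.ne_zero
  have hpow0 : (((ℓ : ℕ) : ℚ) ^ (-e)) ≠ 0 := zpow_ne_zero _ hℓ0
  have hval : ∀ i, P.coeff i ≠ 0 →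
      padicValRat ℓ (((ℓ : ℕ) : ℚ) ^ (-e) * P.coeff i) = padicValRat ℓ (P.coeff i) - e := by
    intro i hi
    rw [padicValRat.mul hpow0 hi, padicValRat.zpow, padicValRat.self hℓ.out.one_lt]
    ring
  have hmem : ∀ i, ((ℓ : ℕ) : ℚ) ^ (-e) * P.coeff i ∈ GaloisRep.ratLocalizedAt ℓ := by
    intro i
    by_cases hi : P.coeff i = 0
    · rw [hi, mul_zero]; exact zero_mem _
    · apply mem_ratLocalizedAt_of_padicValRat_nonneg
      rw [hval i hi]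
      have := hmin i (Polynomial.mem_support_iff.mpr hi)
      omega
  have hlift : C (((ℓ : ℕ) : ℚ) ^ (-e)) * P ∈ Polynomial.lifts (algebraMap (Zl ℓ) ℚ) := by
    rw [Polynomial.lifts_iff_coeff_lifts]
    intro i
    rw [Polynomial.coeff_C_mul]
    exact ⟨⟨_, hmem i⟩, rfl⟩
  obtain ⟨P', hP'⟩ := (Polynomial.mem_lifts _).mp hlift
  refine ⟨e, P', ?_, ?_⟩
  · intro h0
    have h1 : (P'.map (resZl ℓ)).coeff i₀ = 0 := by rw [h0, Polynomial.coeff_zero]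
    rw [Polynomial.coeff_map] at h1
    have hc : ((P'.coeff i₀ : Zl ℓ) : ℚ) = ((ℓ : ℕ) : ℚ) ^ (-e) * P.coeff i₀ := by
      have := congrArg (fun p => p.coeff i₀) hP'
      simp only [Polynomial.coeff_map, Polynomial.coeff_C_mul] at this
      exact this
    have hi₀' : P.coeff i₀ ≠ 0 := Polynomial.mem_support_iff.mp hi₀
    have hc0 : (P'.coeff i₀ : Zl ℓ) ≠ 0 := by
      intro h
      rw [h] at hc
      exact (mul_ne_zero hpow0 hi₀') hc.symm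
    refine resZl_ne_zero_of_padicValRat_eq_zero ℓ hc0 ?_ h1
    rw [hc, hval i₀ hi₀', he, sub_self]
  · rw [hP', ← mul_assoc, ← C_mul, ← zpow_add₀ hℓ0, add_neg_cancel, zpow_zero, C_1, one_mul]

/-- `iota (P'(j)) = (P' over ℚ)(j)`. -/
lemma iota_aeval_jqModC (P' : (Zl ℓ)[X]) :
    iota ℓ (aeval (jqModC (Zl ℓ)) P') = aeval (jqModC ℚ) (P'.map (algebraMap (Zl ℓ) ℚ)) :=
  coeffMap_aeval_jqModC _ P'

/-- `red (P'(j)) = (P' mod ℓ)(jb)`. -/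
lemma red_aeval_jqModC (P' : (Zl ℓ)[X]) :
    Alg.red ℓ (aeval (jqModC (Zl ℓ)) P') = aeval (jqModC (ZMod ℓ)) (P'.map (resZl ℓ)) :=
  coeffMap_aeval_jqModC _ P'

lemma red_aeval_jqModC_ne_zero {P' : (Zl ℓ)[X]} (h : P'.map (resZl ℓ) ≠ 0) :
    Alg.red ℓ (aeval (jqModC (Zl ℓ)) P') ≠ 0 := by
  rw [red_aeval_jqModC]
  exact fun h0 => h (eq_zero_of_aeval_jqModC_eq_zero _ h0)

lemma algebraMap_zpow_L (e : ℤ) :
    algebraMap ℚ (LaurentSeries ℚ) (((ℓ : ℕ) : ℚ) ^ e) = ((ℓ : ℕ) : LaurentSeries ℚ) ^ e := by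
  rw [map_zpow₀, map_natCast]

/-- `ρ_W` kills `ℓ ^ (m+1) * x`. -/
lemma rhoW_pow_succ_mul (m : ℕ) (x : Alg.OW ℓ) :
    Alg.rhoW ℓ (((ℓ : ℕ) : Alg.OW ℓ) ^ (m + 1) * x) = 0 := by
  rw [map_mul, map_pow]
  have : Alg.rhoW ℓ ((ℓ : ℕ) : Alg.OW ℓ) = 0 := H5.rhoW_natCast_self ℓ
  rw [this, zero_pow (Nat.succ_ne_zero m), zero_mul]

/-- the key step: if `x ∈ O_W` and `x = ℓ ^ e * iota a` with `red a ≠ 0`, then `e ≥ 0`. -/
lemma nonneg_of_mem_OW {x : LaurentSeries ℚ} (hx : x ∈ Alg.OW ℓ) {e : ℤ} {a : Lam ℓ}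
    (ha : Alg.red ℓ a ≠ 0) (h : x = ((ℓ : ℕ) : LaurentSeries ℚ) ^ e * iota ℓ a) : 0 ≤ e := by
  by_contra hneg
  push Not at hneg
  obtain ⟨m, hm⟩ : ∃ m : ℕ, e = -((m : ℤ) + 1) := ⟨(-e - 1).toNat, by omega⟩
  have hℓ0 := H5.natCast_ne_zero_L ℓ
  have h1 : ((ℓ : ℕ) : LaurentSeries ℚ) ^ (m + 1) * x = iota ℓ a := by
    rw [h, hm, zpow_neg, ← Nat.cast_add_one, zpow_natCast, ← mul_assoc,
      mul_inv_cancel₀ (pow_ne_zero _ hℓ0), one_mul]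
  have h2 : ((ℓ : ℕ) : Alg.OW ℓ) ^ (m + 1) * ⟨x, hx⟩ = ⟨iota ℓ a, iota_mem_OW ℓ a⟩ :=
    Subtype.ext (by simpa using h1)
  have h3 := congrArg (Alg.rhoW ℓ) h2
  rw [rhoW_pow_succ_mul, Alg.rhoW_iota] at h3
  exact ha h3.symm

/-- `ℚ[j] ∩ O_W = ℤ_(ℓ)[j]`. -/
theorem poly_of_aeval_mem_OW (P : ℚ[X]) (h : aeval (jqModC ℚ) P ∈ Alg.OW ℓ) :
    ∃ P' : (Zl ℓ)[X], P = P'.map (algebraMap (Zl ℓ) ℚ) := by
  by_cases hP : P = 0
  · exact ⟨0, by rw [hP, Polynomial.map_zero]⟩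
  obtain ⟨e, P', hP', hPe⟩ := exists_content_normal_form ℓ hP
  have hx : aeval (jqModC ℚ) P =
      ((ℓ : ℕ) : LaurentSeries ℚ) ^ e * iota ℓ (aeval (jqModC (Zl ℓ)) P') := by
    conv_lhs => rw [hPe]
    rw [map_mul, aeval_C, algebraMap_zpow_L, iota_aeval_jqModC]
  have he : 0 ≤ e := nonneg_of_mem_OW ℓ h (red_aeval_jqModC_ne_zero ℓ hP') hx
  obtain ⟨m, rfl⟩ := Int.eq_ofNat_of_zero_le he
  refine ⟨C (((ℓ : ℕ) : Zl ℓ) ^ m) * P', ?_⟩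
  rw [Polynomial.map_mul, Polynomial.map_C, map_pow, map_natCast]
  conv_lhs => rw [hPe]
  rw [zpow_natCast]

/-- [QB-A] -/
theorem stPolyOW : StPolyOW ℓ := by
  intro P
  refine ⟨poly_of_aeval_mem_OW ℓ P, ?_⟩
  intro h
  -- reflect
  have hj0 : jqModC ℚ ≠ 0 := jqModC_ne_zero_of_nontrivial ℚ
  letI : Invertible (jqModC ℚ) := invertibleOfNonzero hj0
  have h1 := eval₂_reflect_mul_pow (algebraMap ℚ (LaurentSeries ℚ)) (jqModC ℚ) P.natDegree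
    (reflect P.natDegree P) (natDegree_reflect_le.trans (by rw [max_self]))
  rw [reflect_reflect, invOf_eq_inv] at h1
  have hjmem : jqModC ℚ ∈ Alg.OW ℓ := by
    have : jqModC ℚ = iota ℓ (jqModC (Zl ℓ)) := (coeffMap_jqModC _).symm
    rw [this]
    exact iota_mem_OW ℓ _
  have h2 : aeval (jqModC ℚ) (reflect P.natDegree P) ∈ Alg.OW ℓ := by
    rw [aeval_def, ← h1]
    exact mul_mem h (pow_mem hjmem _)
  obtain ⟨Q', hQ'⟩ := poly_of_aeval_mem_OW ℓ _ h2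
  refine ⟨reflect P.natDegree Q', ?_⟩
  rw [← reflect_map, ← hQ', reflect_reflect]

/-- **Normal form on `ℚ(j)`**: every nonzero `x ∈ ℚ(j)` satisfies `x * iota b = ℓ ^ e * iota a`
with `a, b` polynomials in `j` over `ℤ_(ℓ)` of nonzero reduction. -/
theorem exists_normal_form_K0 {x : LaurentSeries ℚ} (hx : x ∈ K0) (hx0 : x ≠ 0) :
    ∃ (e : ℤ) (r s : (Zl ℓ)[X]), r.map (resZl ℓ) ≠ 0 ∧ s.map (resZl ℓ) ≠ 0 ∧
      x * iota ℓ (aeval (jqModC (Zl ℓ)) s) =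
        ((ℓ : ℕ) : LaurentSeries ℚ) ^ e * iota ℓ (aeval (jqModC (Zl ℓ)) r) := by
  obtain ⟨r, s, hrs⟩ := (IntermediateField.mem_adjoin_simple_iff ℚ x).mp hx
  have hs0 : aeval (jqModC ℚ) s ≠ 0 := by
    intro h0
    rw [h0, div_zero] at hrs
    exact hx0 hrs
  have hr0 : aeval (jqModC ℚ) r ≠ 0 := by
    intro h0
    rw [h0, zero_div] at hrs
    exact hx0 hrs
  have hs : s ≠ 0 := fun h => hs0 (by rw [h, map_zero])
  have hr : r ≠ 0 := fun h => hr0 (by rw [h, map_zero])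
  obtain ⟨e₁, r', hr', hre⟩ := exists_content_normal_form ℓ hr
  obtain ⟨e₂, s', hs', hse⟩ := exists_content_normal_form ℓ hs
  have hℓ0 := H5.natCast_ne_zero_L ℓ
  refine ⟨e₁ - e₂, r', s', hr', hs', ?_⟩
  have hR : aeval (jqModC ℚ) r =
      ((ℓ : ℕ) : LaurentSeries ℚ) ^ e₁ * iota ℓ (aeval (jqModC (Zl ℓ)) r') := by
    conv_lhs => rw [hre]
    rw [map_mul, aeval_C, algebraMap_zpow_L, iota_aeval_jqModC]
  have hS : aeval (jqModC ℚ) s =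
      ((ℓ : ℕ) : LaurentSeries ℚ) ^ e₂ * iota ℓ (aeval (jqModC (Zl ℓ)) s') := by
    conv_lhs => rw [hse]
    rw [map_mul, aeval_C, algebraMap_zpow_L, iota_aeval_jqModC]
  have hx' : x * aeval (jqModC ℚ) s = aeval (jqModC ℚ) r := by
    rw [hrs, div_mul_cancel₀ _ hs0]
  rw [hR, hS] at hx'
  have hz : ((ℓ : ℕ) : LaurentSeries ℚ) ^ e₂ ≠ 0 := zpow_ne_zero _ hℓ0
  rw [zpow_sub₀ hℓ0]
  field_simp
  rw [← hx']
  ring

lemma aeval_jqModC_mem_kappa (k : Type) [Field k] (p : k[X]) :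
    aeval (jqModC k) p ∈ kappa k := by
  have h1 : aeval (jqModC k) p ∈ Algebra.adjoin k {jqModC k} :=
    Polynomial.aeval_mem_adjoin_singleton k (jqModC k)
  exact IntermediateField.algebra_adjoin_le_adjoin k _ h1

/-- [QC-K] -/
theorem stK0 : StK0 ℓ := by
  intro x hx
  by_cases hx0 : (x : LaurentSeries ℚ) = 0
  · have : x = 0 := Subtype.ext hx0
    rw [this, map_zero]
    exact zero_mem _
  obtain ⟨e, r, s, hr, hs, h⟩ := exists_normal_form_K0 ℓ hx hx0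
  set a := aeval (jqModC (Zl ℓ)) r with ha
  set b := aeval (jqModC (Zl ℓ)) s with hb
  have hra : Alg.red ℓ a ≠ 0 := red_aeval_jqModC_ne_zero ℓ hr
  have hrb : Alg.red ℓ b ≠ 0 := red_aeval_jqModC_ne_zero ℓ hs
  have hb0 : iota ℓ b ≠ 0 := H5.iotaQ_ne_zero ℓ (H5.red_ne_zero_imp_ne_zero ℓ hrb)
  -- `u = iota a / iota b ∈ O_W`, `x = ℓ^e * u`
  have hxe : (x : LaurentSeries ℚ) * iota ℓ b ∈ Alg.OW ℓ := mul_mem x.2 (iota_mem_OW ℓ b)
  -- x * iota b = ℓ^e * iota a, apply `nonneg_of_mem_OW`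
  have he : 0 ≤ e := nonneg_of_mem_OW ℓ hxe hra h
  obtain ⟨m, rfl⟩ := Int.eq_ofNat_of_zero_le he
  rw [zpow_natCast] at h
  have h' : (x : LaurentSeries ℚ) * iota ℓ b = iota ℓ (((ℓ : ℕ) : Lam ℓ) ^ m * a) := by
    rw [h, map_mul, map_pow, map_natCast]
  rw [Alg.rhoW_eq ℓ x _ b hrb h', map_mul, map_pow, map_natCast]
  refine div_mem (mul_mem (pow_mem (natCast_mem _ ℓ) m) ?_) ?_
  · rw [ha, red_aeval_jqModC]
    exact aeval_jqModC_mem_kappa _ _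
  · rw [hb, red_aeval_jqModC]
    exact aeval_jqModC_mem_kappa _ _

end Fermat.Agent.S28.Alg.H5
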