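import Fermat.Agent.S28.Alg.H29_Indep
import Fermat.Agent.S28.Alg.H5_Gauss

/-!
# S28 / ALG (helper29): the deliverable `Asm.StQEPC_DEGU` and the leaves `StIndep`, `StBasis`,
hypothesis-free

Inputs on main: `H5.stK0` (Gauss), `H5.stVal`, `H5.stRhoWKer`, `H5.stUnit` (RED-W), `Alg.stK0le`,
`Alg.stImage` (RED-F), `Mod.H23.stDEG0_iff`.
-/

set_option autoImplicit false
open ModularCurve ModularCurve.IgusaScheme

noncomputable section

namespace Fermat.Agent.S28.Alg.H29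

open Fermat.Agent.S28.Asm Fermat.Agent.S28.Alg

/-- **Deliverable `StQEPC_DEGU`** (ALG-2): `D_M ≤ [F_M : ℚ(j)] ≤ ψ(M)`, finite, for every `M`
and every prime `ℓ`. -/
theorem stQEPC_DEGU : Asm.StQEPC_DEGU := stQEPC_DEGU_of fun ℓ _ => H5.stK0 ℓ

variable (N : ℕ) [NeZero N] (ℓ : ℕ) [Fact ℓ.Prime]

/-- The hypotheses of the basis argument for `O_W`, hypothesis-free. -/
theorem h29_basisHyp' : BasisHyp (kappa (ZMod ℓ)) (OW ℓ) (rhoW ℓ) (((ℓ : ℕ) : K0)) :=
  h29_basisHyp ℓ (H5.stK0 ℓ)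

/-- **[QC-DIM]** `StIndep`, hypothesis-free. -/
theorem stIndep' : StIndep N ℓ := stIndep N ℓ (H5.stK0 ℓ)

/-- **[QC-BASIS]** `StBasis`, hypothesis-free. -/
theorem stBasis' : StBasis N ℓ := stBasis N ℓ (H5.stK0 ℓ)

/-- `O_v = ℚ(j) ∩ O_W`, as a subring of `ℚ((q))`. -/
def Ov : Subring (LaurentSeries ℚ) := K0.toSubring ⊓ OW ℓ

/-- **Integrality over `O_v`**: under the two degree bounds every element of `C = F_N ∩ O_W`
is integral over any subring of `ℚ((q))` containing `O_v = ℚ(j) ∩ O_W`. -/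
theorem h29_isIntegral_CW (h0 : StDEG0 N) (hdeg : StDEG N ℓ) (O : Subring (LaurentSeries ℚ))
    (hO : ∀ z : LaurentSeries ℚ, z ∈ K0 → z ∈ OW ℓ → z ∈ O) (x : CW N ℓ) :
    IsIntegral O (((x : CW N ℓ) : FN N) : LaurentSeries ℚ) := by
  obtain ⟨c, h1, hc⟩ := h29_exists_basis N ℓ (H5.stK0 ℓ) h0 hdeg
  -- the submodule spanned by the basis
  set M : Submodule O (LaurentSeries ℚ) :=
    Submodule.span O (Set.range fun i => (((c i : CW N ℓ) : FN N) : LaurentSeries ℚ)) with hM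
  have hCM : ∀ v : CW N ℓ, (((v : CW N ℓ) : FN N) : LaurentSeries ℚ) ∈ M := by
    intro v
    obtain ⟨a, haK, hav⟩ := hc v
    rw [hav]
    refine Submodule.sum_mem _ fun i _ => ?_
    have h2 : (a i : LaurentSeries ℚ) * (((c i : CW N ℓ) : FN N) : LaurentSeries ℚ) =
        (⟨(a i : LaurentSeries ℚ), hO _ (haK i) (a i).2⟩ : O) •
          (((c i : CW N ℓ) : FN N) : LaurentSeries ℚ) := rfl
    rw [h2]
    exact Submodule.smul_mem _ _ (Submodule.subset_span ⟨i, rfl⟩)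
  have hMbot : M ≠ ⊥ := by
    intro h
    have h2 := hCM 1
    rw [h, Submodule.mem_bot] at h2
    exact one_ne_zero h2
  have hMfg : M.FG := Submodule.fg_span (Set.finite_range _)
  refine isIntegral_of_smul_mem_submodule M hMbot hMfg _ ?_
  intro n hn
  induction hn using Submodule.span_induction with
  | mem y hy =>
    obtain ⟨i, rfl⟩ := hy
    exact hCM (x * c i)
  | zero => rw [smul_zero]; exact M.zero_mem
  | add y z _ _ hy hz => rw [smul_add]; exact M.add_mem hy hz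
  | smul o y _ hy =>
    rw [smul_comm]
    exact M.smul_mem o hy

/-- Integrality of `C = F_N ∩ O_W` over `O_v = ℚ(j) ∩ O_W`. -/
theorem h29_isIntegral_Ov (h0 : StDEG0 N) (hdeg : StDEG N ℓ) (x : CW N ℓ) :
    IsIntegral (Ov ℓ) (((x : CW N ℓ) : FN N) : LaurentSeries ℚ) :=
  h29_isIntegral_CW N ℓ h0 hdeg (Ov ℓ) (fun _ hK hW => ⟨hK, hW⟩) x

end Fermat.Agent.S28.Alg.H29
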