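import Fermat.Agent.S28.Alg.H5_Gauss

/-!
# S28, package ALG (helper5): saturation of the chart rings (`StSat`) from `StBasis`

If `C = F_N ∩ O_W` is a finitely generated module over `O_W ∩ ℚ(j)` (conclusion of `StBasis`),
then for `t = j` or `t = 1/j`: `x ∈ C`, `ℓ x` integral over `ℤ_(ℓ)[t]` ⇒ `x` integral over
`ℤ_(ℓ)[t]`.  Proof: the minimal polynomial of `x` over `ℚ(j)` has coefficients in `O_W`
(integrally closed) and in `ℚ[t]` (integrally closed), and `ℚ[t] ∩ O_W = ℤ_(ℓ)[t]`.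
-/

set_option autoImplicit false
set_option linter.unusedSectionVars false
set_option linter.style.haveILetI false

open ModularCurve ModularCurve.IgusaScheme Polynomial

namespace Fermat.Agent.S28.Alg.H5

open Fermat.Agent.S28.Alg Fermat.Agent.S28.Asm Fermat.Agent.S28.Mod.PolyJ

variable (ℓ : ℕ) [hℓ : Fact ℓ.Prime]

/-- `O_v = O_W ∩ ℚ(j)`, as a subring of `ℚ((q))`. -/
noncomputable def Ov : Subring (LaurentSeries ℚ) := Alg.OW ℓ ⊓ K0.toSubring

lemma mem_Ov_iff {x : LaurentSeries ℚ} : x ∈ Ov ℓ ↔ x ∈ Alg.OW ℓ ∧ x ∈ K0 := Iff.rfl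

lemma K0_le_fracLam : ∀ x : LaurentSeries ℚ, x ∈ K0 → x ∈ fracLam ℓ := by
  intro x hx
  have h : K0 ≤ IntermediateField.mk
      ({ toSubsemiring := (fracLam ℓ).toSubsemiring
         algebraMap_mem' := fun r => by
          show algebraMap ℚ (LaurentSeries ℚ) r ∈ fracLam ℓ
          have h1 : algebraMap ℚ (LaurentSeries ℚ) r =
              algebraMap ℚ (LaurentSeries ℚ) (r.num : ℚ) /
                algebraMap ℚ (LaurentSeries ℚ) (r.den : ℚ) := by
            rw [← map_div₀, Rat.num_div_den]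
          rw [h1, map_intCast, map_natCast]
          exact div_mem (_root_.intCast_mem (fracLam ℓ) _) (natCast_mem (fracLam ℓ) _) } :
        Subalgebra ℚ (LaurentSeries ℚ)) (fun x hx => (fracLam ℓ).inv_mem hx) := by
    rw [K0, IntermediateField.adjoin_le_iff]
    rintro _ rfl
    show jqModC ℚ ∈ fracLam ℓ
    have : jqModC ℚ = iotaQ ℓ (jqModC (Zl ℓ)) := (coeffMap_jqModC _).symm
    rw [this]
    exact iotaQ_mem_fracLam ℓ _
  exact h hx

/-- An element of `ℚ((q))` that is integral over `O_v` and lies in `ℚ(j)` lies in `O_W`. -/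
lemma mem_OW_of_isIntegral_Ov {c : LaurentSeries ℚ} (hc : c ∈ K0) (h : IsIntegral (Ov ℓ) c) :
    c ∈ Alg.OW ℓ := by
  obtain ⟨p, hp, hpx⟩ := h
  rw [Polynomial.eval₂_eq_sum_range, Finset.sum_range_succ, hp.coeff_natDegree, map_one,
    one_mul, add_comm] at hpx
  exact mem_OW_of_monic_relation ℓ (K0_le_fracLam ℓ c hc) p.natDegree
    (fun i => ((p.coeff i : Ov ℓ) : LaurentSeries ℚ)) (fun i => (p.coeff i).2.1) hpx

section Basis

variable (N : ℕ) [NeZero N]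

/-- The conclusion of `StBasis`. -/
def HasBasis : Prop :=
  ∃ (n : ℕ) (c : Fin n → CW N ℓ), ∀ x : CW N ℓ, ∃ a : Fin n → Alg.OW ℓ,
    (∀ i, (a i : LaurentSeries ℚ) ∈ K0) ∧
    ((x : FN N) : LaurentSeries ℚ) =
      ∑ i, (a i : LaurentSeries ℚ) * (((c i : CW N ℓ) : FN N) : LaurentSeries ℚ)

/-- (I1) every element of `C = F_N ∩ O_W` is integral over `O_v`. -/
theorem isIntegral_Ov_of_mem_CW (hB : HasBasis ℓ N) (x : FN N) (hx : x ∈ CW N ℓ) :
    IsIntegral (Ov ℓ) ((x : FN N) : LaurentSeries ℚ) := by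
  obtain ⟨n, c, hc⟩ := hB
  let M : Submodule (Ov ℓ) (LaurentSeries ℚ) :=
    Submodule.span (Ov ℓ) (Set.range fun i => (((c i : CW N ℓ) : FN N) : LaurentSeries ℚ))
  have hCM : ∀ y : FN N, y ∈ CW N ℓ → ((y : FN N) : LaurentSeries ℚ) ∈ M := by
    intro y hy
    obtain ⟨a, ha, hy'⟩ := hc ⟨y, hy⟩
    rw [show ((y : FN N) : LaurentSeries ℚ) = _ from hy']
    refine Submodule.sum_mem _ fun i _ => ?_
    have h1 : (a i : LaurentSeries ℚ) * (((c i : CW N ℓ) : FN N) : LaurentSeries ℚ) =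
        (⟨(a i : LaurentSeries ℚ), (a i).2, ha i⟩ : Ov ℓ) •
          (((c i : CW N ℓ) : FN N) : LaurentSeries ℚ) := rfl
    rw [h1]
    exact Submodule.smul_mem _ _ (Submodule.subset_span ⟨i, rfl⟩)
  refine isIntegral_of_smul_mem_submodule M ?_ (Submodule.fg_span (Set.finite_range _))
    ((x : FN N) : LaurentSeries ℚ) ?_
  · intro h
    have h1 := hCM 1 (one_mem _)
    rw [h, Submodule.mem_bot] at h1
    simp at h1
  · intro y hy
    induction hy using Submodule.span_induction with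
    | mem z hz =>
      obtain ⟨i, rfl⟩ := hz
      have := hCM (x * (c i : FN N)) (mul_mem hx (c i).2)
      simpa using this
    | zero => rw [smul_zero]; exact zero_mem _
    | add y z _ _ hy hz => rw [smul_add]; exact add_mem hy hz
    | smul r y _ hy =>
      rw [smul_comm]
      exact Submodule.smul_mem _ _ hy

/-- the inclusion `O_v → ℚ(j)`. -/
noncomputable def OvToK0 : Ov ℓ →+* K0 where
  toFun r := ⟨r.1, r.2.2⟩
  map_one' := rfl
  map_mul' _ _ := rfl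
  map_zero' := rfl
  map_add' _ _ := rfl

/-- (I2) the coefficients of the minimal polynomial over `ℚ(j)` of an element of `C` lie in
`O_W`. -/
theorem coeff_minpoly_mem_OW (hB : HasBasis ℓ N) (x : FN N) (hx : x ∈ CW N ℓ) (i : ℕ) :
    (((minpoly K0 ((x : FN N) : LaurentSeries ℚ)).coeff i : K0) : LaurentSeries ℚ) ∈
      Alg.OW ℓ := by
  have hint := isIntegral_Ov_of_mem_CW ℓ N hB x hx
  letI : Algebra (Ov ℓ) K0 := (OvToK0 ℓ).toAlgebra
  haveI : IsScalarTower (Ov ℓ) K0 (LaurentSeries ℚ) :=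
    IsScalarTower.of_algebraMap_eq (fun _ => rfl)
  have hxK : IsIntegral K0 ((x : FN N) : LaurentSeries ℚ) := hint.tower_top
  obtain ⟨p, hp, hpx⟩ := hint
  have H : minpoly K0 ((x : FN N) : LaurentSeries ℚ) ∣ p.map (algebraMap (Ov ℓ) K0) := by
    apply minpoly.dvd
    rw [Polynomial.aeval_map_algebraMap]
    exact hpx
  have hcoef := Polynomial.isIntegral_coeff_of_dvd p _ hp (minpoly.monic hxK) H i
  have hcoef' : IsIntegral (Ov ℓ)
      (algebraMap K0 (LaurentSeries ℚ) ((minpoly K0 ((x : FN N) : LaurentSeries ℚ)).coeff i)) :=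
    hcoef.algebraMap
  exact mem_OW_of_isIntegral_Ov ℓ (SetLike.coe_mem _) hcoef'

end Basis

section Param

/-! ### The parameter `t` (`= j` or `1/j`) -/

/-- (I3) if `x` is a root of a monic polynomial over `ℚ[t]`, the coefficients of its minimal
polynomial over `ℚ(j) = ℚ(t)` are polynomials in `t`. -/
theorem coeff_minpoly_mem_range (t₀ : K0)
    (htr : Function.Injective (aeval t₀ : ℚ[X] →ₐ[ℚ] K0))
    (hsurj : ∀ z : K0, ∃ r s : ℚ[X], z = aeval t₀ r / aeval t₀ s)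
    (x : LaurentSeries ℚ) (p : ℚ[X][X]) (hp : p.Monic)
    (hpx : aeval x (p.map (aeval t₀ : ℚ[X] →ₐ[ℚ] K0).toRingHom) = 0) (i : ℕ) :
    ∃ P : ℚ[X], aeval t₀ P = (minpoly K0 x).coeff i := by
  letI : Algebra ℚ[X] K0 := (aeval t₀ : ℚ[X] →ₐ[ℚ] K0).toRingHom.toAlgebra
  haveI : FaithfulSMul ℚ[X] K0 := (faithfulSMul_iff_algebraMap_injective _ _).mpr htr
  haveI : IsFractionRing ℚ[X] K0 := IsFractionRing.of_field _ _ hsurj
  have hxK : IsIntegral K0 x := ⟨_, hp.map _, hpx⟩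
  have H : minpoly K0 x ∣ p.map (algebraMap ℚ[X] K0) := minpoly.dvd K0 x hpx
  have hcoef := Polynomial.isIntegral_coeff_of_dvd p _ hp (minpoly.monic hxK) H i
  obtain ⟨P, hP⟩ := IsIntegrallyClosed.isIntegral_iff.mp hcoef
  exact ⟨P, hP⟩

variable (N : ℕ) [NeZero N]

omit hℓ in
lemma coe_aeval_FN (tN : FN N) (Q : ℚ[X]) :
    ((aeval tN Q : FN N) : LaurentSeries ℚ) = aeval ((tN : FN N) : LaurentSeries ℚ) Q := by
  have h : (algebraMap (FN N) (LaurentSeries ℚ)).comp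
      (aeval tN : ℚ[X] →ₐ[ℚ] FN N).toRingHom =
      (aeval ((tN : FN N) : LaurentSeries ℚ) : ℚ[X] →ₐ[ℚ] LaurentSeries ℚ).toRingHom := by
    refine Polynomial.ringHom_ext' (RingHom.ext_rat _ _) ?_
    simp only [RingHom.comp_apply, AlgHom.toRingHom_eq_coe, RingHom.coe_coe, aeval_X]
    rfl
  exact congrArg (fun f : ℚ[X] →+* LaurentSeries ℚ => f Q) h

omit hℓ in
lemma coe_aeval_K0 (t₀ : K0) (Q : ℚ[X]) :
    ((aeval t₀ Q : K0) : LaurentSeries ℚ) = aeval (t₀ : LaurentSeries ℚ) Q := by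
  have h : (algebraMap K0 (LaurentSeries ℚ)).comp
      (aeval t₀ : ℚ[X] →ₐ[ℚ] K0).toRingHom =
      (aeval (t₀ : LaurentSeries ℚ) : ℚ[X] →ₐ[ℚ] LaurentSeries ℚ).toRingHom := by
    refine Polynomial.ringHom_ext' (RingHom.ext_rat _ _) ?_
    simp only [RingHom.comp_apply, AlgHom.toRingHom_eq_coe, RingHom.coe_coe, aeval_X]
    rfl
  exact congrArg (fun f : ℚ[X] →+* LaurentSeries ℚ => f Q) h

/-- **Saturation for the chart `{t}`**, for a parameter `t` with `ℚ(t) = ℚ(j)`, transcendental,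
such that `ℚ[t] ∩ O_W = ℤ_(ℓ)[t]`. -/
theorem sat_of_param (hB : HasBasis ℓ N) (tN : FN N) (t₀ : K0)
    (ht : ((tN : FN N) : LaurentSeries ℚ) = (t₀ : LaurentSeries ℚ))
    (htr : Function.Injective (aeval t₀ : ℚ[X] →ₐ[ℚ] K0))
    (hsurj : ∀ z : K0, ∃ r s : ℚ[X], z = aeval t₀ r / aeval t₀ s)
    (hpoly : ∀ P : ℚ[X], aeval (t₀ : LaurentSeries ℚ) P ∈ Alg.OW ℓ →
      ∃ P' : (Zl ℓ)[X], P = P'.map (algebraMap (Zl ℓ) ℚ)) :
    StSat N ℓ {tN} := by
  intro x hx hℓx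
  -- notation
  set A₁ : Subalgebra (Zl ℓ) (FN N) := Algebra.adjoin (Zl ℓ) {tN} with hA₁
  set ψ : ℚ[X] →+* FN N := (aeval tN : ℚ[X] →ₐ[ℚ] FN N).toRingHom with hψ
  set φ : ℚ[X] →+* K0 := (aeval t₀ : ℚ[X] →ₐ[ℚ] K0).toRingHom with hφ
  have hcomp : (algebraMap (FN N) (LaurentSeries ℚ)).comp ψ =
      (algebraMap K0 (LaurentSeries ℚ)).comp φ := by
    refine RingHom.ext fun Q => ?_
    show ((aeval tN Q : FN N) : LaurentSeries ℚ) = ((aeval t₀ Q : K0) : LaurentSeries ℚ)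
    rw [coe_aeval_FN, coe_aeval_K0, ht]
  have hℓ0 : ((ℓ : ℕ) : ℚ) ≠ 0 := Nat.cast_ne_zero.mpr hℓ.out.ne_zero
  -- Step a/b : a monic polynomial over `ℚ[X]` with root `x`
  obtain ⟨g, hg, hgx⟩ := (mem_chartAlg_iff N ℓ).mp hℓx
  have hlift : g.map (algebraMap A₁ (FN N)) ∈ Polynomial.lifts ψ := by
    rw [Polynomial.lifts_iff_coeff_lifts]
    intro k
    rw [Polynomial.coeff_map]
    have hmem : ((g.coeff k : A₁) : FN N) ∈
        (aeval tN : (Zl ℓ)[X] →ₐ[Zl ℓ] FN N).range := by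
      rw [← Algebra.adjoin_singleton_eq_range_aeval]
      exact (g.coeff k).2
    obtain ⟨Q, hQ⟩ := hmem
    refine ⟨Q.map (algebraMap (Zl ℓ) ℚ), ?_⟩
    show aeval tN (Q.map (algebraMap (Zl ℓ) ℚ)) = _
    rw [Polynomial.aeval_map_algebraMap]
    exact hQ
  obtain ⟨p₀, hp₀, -, hp₀m⟩ :=
    Polynomial.lifts_and_natDegree_eq_and_monic hlift (hg.map _)
  have hp₀x : eval₂ ψ (((ℓ : ℕ) : FN N) * x) p₀ = 0 := by
    rw [← Polynomial.eval_map, hp₀, Polynomial.eval_map]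
    exact hgx
  set p : ℚ[X][X] := scaleRoots p₀ (C ((ℓ : ℚ)⁻¹)) with hpdef
  have hpm : p.Monic := (Polynomial.monic_scaleRoots_iff _).mpr hp₀m
  have hpx : eval₂ ψ x p = 0 := by
    have h1 := Polynomial.scaleRoots_eval₂_mul (p := p₀) ψ (((ℓ : ℕ) : FN N) * x)
      (C ((ℓ : ℚ)⁻¹))
    have h2 : ψ (C ((ℓ : ℚ)⁻¹)) * (((ℓ : ℕ) : FN N) * x) = x := by
      have : ψ (C ((ℓ : ℚ)⁻¹)) = algebraMap ℚ (FN N) ((ℓ : ℚ)⁻¹) := by
        simp [hψ]
      rw [this, ← mul_assoc, ← map_natCast (algebraMap ℚ (FN N)) ℓ, ← map_mul,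
        inv_mul_cancel₀ hℓ0, map_one, one_mul]
    rw [h2, hp₀x, mul_zero] at h1
    exact h1
  have hpxL : aeval ((x : FN N) : LaurentSeries ℚ) (p.map φ) = 0 := by
    rw [Polynomial.aeval_def, Polynomial.eval₂_map, ← hcomp]
    have h1 := Polynomial.hom_eval₂ p ψ (algebraMap (FN N) (LaurentSeries ℚ)) x
    rw [hpx, map_zero] at h1
    exact h1.symm
  -- coefficients of the minimal polynomial
  set μ := minpoly K0 ((x : FN N) : LaurentSeries ℚ) with hμ
  have hxK : IsIntegral K0 ((x : FN N) : LaurentSeries ℚ) := ⟨_, hpm.map _, hpxL⟩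
  have hcoeff : ∀ i, ∃ a : A₁,
      algebraMap (FN N) (LaurentSeries ℚ) (a : FN N) = ((μ.coeff i : K0) : LaurentSeries ℚ) := by
    intro i
    obtain ⟨P, hP⟩ := coeff_minpoly_mem_range t₀ htr hsurj _ p hpm hpxL i
    have hmemOW := coeff_minpoly_mem_OW ℓ N hB x hx i
    rw [← hμ, ← hP, coe_aeval_K0] at hmemOW
    obtain ⟨P', hP'⟩ := hpoly P hmemOW
    refine ⟨⟨aeval tN P', ?_⟩, ?_⟩
    · rw [hA₁, Algebra.adjoin_singleton_eq_range_aeval]
      exact ⟨P', rfl⟩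
    · show ((aeval tN P' : FN N) : LaurentSeries ℚ) = _
      rw [← hP, coe_aeval_K0, ← ht, ← coe_aeval_FN, hP', Polynomial.aeval_map_algebraMap]
  -- lift `μ` to `A₁`
  set γ : A₁ →+* LaurentSeries ℚ :=
    (algebraMap (FN N) (LaurentSeries ℚ)).comp (algebraMap A₁ (FN N)) with hγ
  have hlift2 : μ.map (algebraMap K0 (LaurentSeries ℚ)) ∈ Polynomial.lifts γ := by
    rw [Polynomial.lifts_iff_coeff_lifts]
    intro i
    rw [Polynomial.coeff_map]
    obtain ⟨a, ha⟩ := hcoeff i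
    exact ⟨a, ha⟩
  obtain ⟨q, hq, -, hqm⟩ :=
    Polynomial.lifts_and_natDegree_eq_and_monic hlift2 ((minpoly.monic hxK).map _)
  refine (mem_chartAlg_iff N ℓ).mpr ⟨q, hqm, ?_⟩
  apply (algebraMap (FN N) (LaurentSeries ℚ)).injective
  rw [map_zero, Polynomial.hom_eval₂]
  show eval₂ γ _ q = 0
  rw [← Polynomial.eval_map, hq, Polynomial.eval_map, ← Polynomial.aeval_def]
  exact minpoly.aeval K0 _

end Param

end Fermat.Agent.S28.Alg.H5

namespace Fermat.Agent.S28.Alg.H5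

open Fermat.Agent.S28.Alg Fermat.Agent.S28.Asm Fermat.Agent.S28.Mod.PolyJ

variable (ℓ : ℕ) [hℓ : Fact ℓ.Prime] (N : ℕ) [NeZero N]

/-- `j` as an element of `ℚ(j)`. -/
noncomputable def jK0 : K0 := ⟨jqModC ℚ, IntermediateField.mem_adjoin_simple_self ℚ _⟩

/-- `1/j` as an element of `ℚ(j)`. -/
noncomputable def jInvK0 : K0 := ⟨(jqModC ℚ)⁻¹, K0.inv_mem (IntermediateField.mem_adjoin_simple_self ℚ _)⟩

omit hℓ in
lemma aeval_jqModC_rat_eq_zero (P : ℚ[X]) (h : aeval (jqModC ℚ) P = 0) : P = 0 := by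
  have h1 : (aeval (jqModC ℚ) : ℚ[X] →ₐ[ℚ] LaurentSeries ℚ).toRingHom =
      (Polynomial.eval₂RingHom (algebraMap ℚ (LaurentSeries ℚ)) (jqModC ℚ)) := by
    refine Polynomial.ringHom_ext' (RingHom.ext_rat _ _) ?_
    simp
  have h2 : Polynomial.eval₂ (algebraMap ℚ (LaurentSeries ℚ)) (jqModC ℚ) P = 0 := by
    have := congrArg (fun f : ℚ[X] →+* LaurentSeries ℚ => f P) h1
    simp only [AlgHom.toRingHom_eq_coe, RingHom.coe_coe, Polynomial.coe_eval₂RingHom] at this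
    rw [← this]
    exact h
  exact eq_zero_of_aeval_jqModC_eq_zero P h2

omit hℓ in
lemma aeval_jK0_injective : Function.Injective (aeval jK0 : ℚ[X] →ₐ[ℚ] K0) := by
  rw [injective_iff_map_eq_zero]
  intro P hP
  apply aeval_jqModC_rat_eq_zero
  have := congrArg (fun z : K0 => (z : LaurentSeries ℚ)) hP
  simp only [coe_aeval_K0] at this
  exact this

omit hℓ in
lemma aeval_jInv_eq_zero (P : ℚ[X]) (h : aeval (jqModC ℚ)⁻¹ P = 0) : P = 0 := by
  have hj0 : jqModC ℚ ≠ 0 := jqModC_ne_zero_of_nontrivial ℚ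
  letI : Invertible (jqModC ℚ) := invertibleOfNonzero hj0
  have h1 := eval₂_reflect_mul_pow (algebraMap ℚ (LaurentSeries ℚ)) (jqModC ℚ) P.natDegree
    (reflect P.natDegree P) (natDegree_reflect_le.trans (by rw [max_self]))
  rw [reflect_reflect, invOf_eq_inv, ← aeval_def, h, zero_mul, ← aeval_def] at h1
  have h2 := aeval_jqModC_rat_eq_zero _ h1.symm
  exact reflect_eq_zero_iff.mp h2

omit hℓ in
lemma aeval_jInvK0_injective : Function.Injective (aeval jInvK0 : ℚ[X] →ₐ[ℚ] K0) := by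
  rw [injective_iff_map_eq_zero]
  intro P hP
  apply aeval_jInv_eq_zero
  have := congrArg (fun z : K0 => (z : LaurentSeries ℚ)) hP
  simp only [coe_aeval_K0] at this
  exact this

omit hℓ in
lemma surj_jK0 : ∀ z : K0, ∃ r s : ℚ[X], z = aeval jK0 r / aeval jK0 s := by
  intro z
  obtain ⟨r, s, hrs⟩ := (IntermediateField.mem_adjoin_simple_iff ℚ (z : LaurentSeries ℚ)).mp z.2
  refine ⟨r, s, Subtype.ext ?_⟩
  rw [IntermediateField.coe_div, coe_aeval_K0, coe_aeval_K0]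
  exact hrs

omit hℓ in
lemma surj_jInvK0 : ∀ z : K0, ∃ r s : ℚ[X], z = aeval jInvK0 r / aeval jInvK0 s := by
  intro z
  have hle : K0 ≤ IntermediateField.adjoin ℚ {(jqModC ℚ)⁻¹} := by
    rw [K0, IntermediateField.adjoin_le_iff]
    rintro _ rfl
    have := (IntermediateField.adjoin ℚ {(jqModC ℚ)⁻¹}).inv_mem
      (IntermediateField.mem_adjoin_simple_self ℚ (jqModC ℚ)⁻¹)
    rwa [inv_inv] at this
  obtain ⟨r, s, hrs⟩ :=
    (IntermediateField.mem_adjoin_simple_iff ℚ (z : LaurentSeries ℚ)).mp (hle z.2)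
  refine ⟨r, s, Subtype.ext ?_⟩
  rw [IntermediateField.coe_div, coe_aeval_K0, coe_aeval_K0]
  exact hrs

/-- [QB-CORE] saturation of the finite chart, from the conclusion of `StBasis`. -/
theorem stSat_fin_of_hasBasis (hB : HasBasis ℓ N) : StSat N ℓ {jFull N} :=
  sat_of_param ℓ N hB (jFull N) jK0 rfl aeval_jK0_injective surj_jK0
    (fun P h => (stPolyOW ℓ P).1 h)

/-- [QB-CORE] saturation of the chart at infinity, from the conclusion of `StBasis`. -/
theorem stSat_inf_of_hasBasis (hB : HasBasis ℓ N) : StSat N ℓ {(jFull N)⁻¹} :=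
  sat_of_param ℓ N hB (jFull N)⁻¹ jInvK0 rfl aeval_jInvK0_injective surj_jInvK0
    (fun P h => (stPolyOW ℓ P).2 h)

/-- [QB-CORE] verbatim, with `StBasis` as a hypothesis. -/
theorem stSat_fin (hB : StBasis N ℓ) (h0 : StDEG0 N) (h1 : StDEG N ℓ) : StSat N ℓ {jFull N} :=
  stSat_fin_of_hasBasis ℓ N (hB h0 h1)

/-- [QB-CORE] verbatim, with `StBasis` as a hypothesis. -/
theorem stSat_inf (hB : StBasis N ℓ) (h0 : StDEG0 N) (h1 : StDEG N ℓ) :
    StSat N ℓ {(jFull N)⁻¹} :=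
  stSat_inf_of_hasBasis ℓ N (hB h0 h1)

end Fermat.Agent.S28.Alg.H5
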