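import Fermat.Agent.S28.Alg.H1_Defs

/-!
# S28, package ALG: the leaf statements as exact Lean propositions (helper1, ALG coordinator)

Every leaf proves ONE of the `St...` below VERBATIM (possibly from other `St...` as hypotheses).
All statements live inside `ℚ((q))` / `k((q))`, `k = ZMod ℓ`, to avoid algebra-instance plumbing.
-/

set_option autoImplicit false
open ModularCurve ModularCurve.IgusaScheme

noncomputable section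

namespace Fermat.Agent.S28.Alg

open Fermat.Agent.S28.Asm

section Level0

variable (ℓ : ℕ) [Fact ℓ.Prime]

/-! ### RED-Z, RED-L : the residue map and the reduction of series -/

/-- [RED-Z] the residue map is onto with kernel `ℓ Z_(ℓ)`. -/
def StResZl : Prop :=
  Function.Surjective (resZl ℓ) ∧
    ∀ x : Zl ℓ, resZl ℓ x = 0 ↔ ∃ y : Zl ℓ, x = (ℓ : Zl ℓ) * y

/-- [RED-L1] `ker red = ℓ Λ`. -/
def StRedKer : Prop :=
  ∀ a : Lam ℓ, red ℓ a = 0 ↔ ∃ a' : Lam ℓ, a = (ℓ : Lam ℓ) * a'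

/-- [RED-L2] every nonzero `a ∈ Λ` is `ℓ^m a'` with `red a' ≠ 0`. -/
def StRedVal : Prop :=
  ∀ a : Lam ℓ, a ≠ 0 → ∃ (m : ℕ) (a' : Lam ℓ), a = (ℓ : Lam ℓ) ^ m * a' ∧ red ℓ a' ≠ 0

/-! ### RED-W : the valuation ring `O_W` -/

/-- [RED-W1] `ker ρ_W = ℓ O_W`. -/
def StRhoWKer : Prop :=
  ∀ x : OW ℓ, rhoW ℓ x = 0 ↔ ∃ y : OW ℓ, x = (ℓ : OW ℓ) * y

/-- [RED-W2] an element of `O_W` with nonzero reduction is a unit of `O_W`. -/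
def StUnit : Prop :=
  ∀ x : OW ℓ, rhoW ℓ x ≠ 0 → ∃ y : OW ℓ, x * y = 1

/-- [RED-W3] every nonzero element of the fraction field `K_W` of `Λ` is `ℓ^e u`, `e ∈ ℤ`,
`u ∈ O_W` with `ρ_W u ≠ 0`. -/
def StVal : Prop :=
  ∀ x : LaurentSeries ℚ, x ∈ KW ℓ → x ≠ 0 →
    ∃ (e : ℤ) (u : OW ℓ), x = (ℓ : LaurentSeries ℚ) ^ e * (u : LaurentSeries ℚ) ∧ rhoW ℓ u ≠ 0

/-- [RED-W4] `O_W` is integrally closed in `K_W`. -/
def StIntClosed : Prop :=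
  ∀ x : LaurentSeries ℚ, x ∈ KW ℓ → IsIntegral (OW ℓ) x → x ∈ OW ℓ

/-! ### RED-F : the function fields -/

/-- [RED-F1] `j_d = iota (j_d over Z_(ℓ))` and `red (j_d) = jb_d`. -/
def StJd : Prop :=
  ∀ (d : ℕ) [NeZero d],
    qExpand ℚ d (jqModC ℚ) = iota ℓ (qExpand (Zl ℓ) d (jqModC (Zl ℓ))) ∧
    red ℓ (qExpand (Zl ℓ) d (jqModC (Zl ℓ))) = qExpand (ZMod ℓ) d (jqModC (ZMod ℓ))

/-- [RED-F2] `F_N ⊆ K_W`. -/
def StFNleKW (N : ℕ) : Prop :=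
  ∀ x : LaurentSeries ℚ, x ∈ modularFunctionFieldFull N → x ∈ KW ℓ

/-- [RED-F3] `ℚ(j) ⊆ K_W` and `ℚ(j) ⊆ F_N`. -/
def StK0le (N : ℕ) : Prop :=
  (∀ x : LaurentSeries ℚ, x ∈ K0 → x ∈ KW ℓ) ∧
    ∀ x : LaurentSeries ℚ, x ∈ K0 → x ∈ modularFunctionFieldFull N

/-- [QC-K] `ρ_W (O_W ∩ ℚ(j)) ⊆ k(jb)`. -/
def StK0 : Prop :=
  ∀ x : OW ℓ, (x : LaurentSeries ℚ) ∈ K0 → rhoW ℓ x ∈ kappa (ZMod ℓ)

/-- [QB-A] `ℚ[j] ∩ O_W = Z_(ℓ)[j]`, and the same for `1/j`: a polynomial `P ∈ ℚ[X]` whose value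
at `j` (resp. `1/j`) lies in `O_W` has coefficients in `Z_(ℓ)`. -/
def StPolyOW : Prop :=
  ∀ P : Polynomial ℚ,
    (Polynomial.aeval (jqModC ℚ) P ∈ OW ℓ →
      ∃ P' : Polynomial (Zl ℓ), P = P'.map (algebraMap (Zl ℓ) ℚ)) ∧
    (Polynomial.aeval (jqModC ℚ)⁻¹ P ∈ OW ℓ →
      ∃ P' : Polynomial (Zl ℓ), P = P'.map (algebraMap (Zl ℓ) ℚ))

end Level0

section LevelN

variable (N : ℕ) [NeZero N] (ℓ : ℕ) [Fact ℓ.Prime]

/-- [RED-F4] the image of `ρ` on `C = F_N ∩ O_W` contains `Fb_N = k(jb_d : d ∣ N)`. -/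
def StImage : Prop :=
  ∀ y : LaurentSeries (ZMod ℓ), y ∈ modularFunctionFieldFullC (ZMod ℓ) N →
    ∃ x : CW N ℓ, rhoC N ℓ x = y

/-- [QC-DIM] a finite family in `C = F_N ∩ O_W` whose reductions are linearly independent over
`k(jb)` is linearly independent over `ℚ(j)`. -/
def StIndep : Prop :=
  ∀ (n : ℕ) (c : Fin n → CW N ℓ),
    LinearIndependent (kappa (ZMod ℓ)) (fun i => rhoC N ℓ (c i)) →
    LinearIndependent (K0) (fun i => (((c i : CW N ℓ) : FN N) : LaurentSeries ℚ))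

/-- [QC-BASIS] if `[F_N : ℚ(j)] ≤ ψ(N) ≤ D_N` then `C = F_N ∩ O_W` is a finitely generated
module over `O_v = ℚ(j) ∩ O_W`: there are `c_1, .., c_n ∈ C` such that every `x ∈ C` is
`∑ a_i c_i` with `a_i ∈ ℚ(j) ∩ O_W`. -/
def StBasis : Prop :=
  StDEG0 N → StDEG N ℓ →
    ∃ (n : ℕ) (c : Fin n → CW N ℓ), ∀ x : CW N ℓ, ∃ a : Fin n → OW ℓ,
      (∀ i, (a i : LaurentSeries ℚ) ∈ K0) ∧
      ((x : FN N) : LaurentSeries ℚ) =
        ∑ i, (a i : LaurentSeries ℚ) * (((c i : CW N ℓ) : FN N) : LaurentSeries ℚ)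

/-- [QB-IN] the three chart rings lie in `C = F_N ∩ O_W`. -/
def StChartLe (S : Set (FN N)) : Prop :=
  ∀ x : FN N, x ∈ chartAlg N ℓ S → x ∈ CW N ℓ

/-- [QB-CORE] saturation: if `x ∈ C = F_N ∩ O_W` and `ℓ x ∈ B_S`, then `x ∈ B_S`. -/
def StSat (S : Set (FN N)) : Prop :=
  ∀ x : FN N, x ∈ CW N ℓ → ((ℓ : ℕ) : FN N) * x ∈ chartAlg N ℓ S → x ∈ chartAlg N ℓ S

/-- [QB-FIN] `QEP_B` for `S` from `B_S ⊆ C` and saturation (+ `ker ρ_W = ℓ O_W`). -/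
def StQEPBofSat (S : Set (FN N)) : Prop :=
  StRhoWKer ℓ → StChartLe N ℓ S → StSat N ℓ S → StQEPB N ℓ S

end LevelN

end Fermat.Agent.S28.Alg
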