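import Mathlib

/-!
# S28, package ALG, leaf [RED] in abstract form (helper6)

`L` a field, `Λ ⊆ L` a subring, `π ∈ Λ`, `red : Λ → k'` a ring homomorphism to a field with
`ker red = π Λ`, and `Λ` is `π`-adically separated (every nonzero `a` is `π ^ m * a'` with
`red a' ≠ 0`).  Then

* `OW = {a / b : a, b ∈ Λ, red b ≠ 0}` is a subring of `L`, with a ring homomorphism
  `rhoW : OW → k'`, `a / b ↦ red a / red b`, whose kernel is `π OW`;
* `OW` is a valuation ring of `Frac Λ` (`mem_or_inv`), hence integrally closed in it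
  (`mem_of_isIntegral`).
-/

set_option autoImplicit false
set_option linter.style.haveILetI false

open Polynomial

namespace Fermat.Agent.S28.Alg.RedAbs

/-- The data of a Gauss reduction. -/
structure RedData (L : Type*) [Field L] (k' : Type*) [Field k'] where
  /-- the subring of integral elements -/
  Lam : Subring L
  /-- the uniformiser -/
  π : L
  π_mem : π ∈ Lam
  /-- the reduction map -/
  red : Lam →+* k'
  red_π : red ⟨π, π_mem⟩ = 0
  ker : ∀ a : Lam, red a = 0 → ∃ a' : Lam, (a : L) = π * a'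
  sep : ∀ a : Lam, a ≠ 0 → ∃ (m : ℕ) (a' : Lam), (a : L) = π ^ m * a' ∧ red a' ≠ 0

namespace RedData

variable {L : Type*} [Field L] {k' : Type*} [Field k'] (D : RedData L k')

lemma ne_zero_of_red {b : D.Lam} (hb : D.red b ≠ 0) : (b : L) ≠ 0 := by
  intro h
  apply hb
  have : b = 0 := Subtype.ext h
  rw [this, map_zero]

/-- `OW = {a / b : a, b ∈ Λ, red b ≠ 0}`. -/
def OW : Subring L where
  carrier := {x | ∃ a b : D.Lam, D.red b ≠ 0 ∧ x * b = a}
  zero_mem' := ⟨0, 1, by rw [map_one]; exact one_ne_zero, by simp⟩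
  one_mem' := ⟨1, 1, by rw [map_one]; exact one_ne_zero, by simp⟩
  add_mem' := by
    rintro x y ⟨a, b, hb, hx⟩ ⟨c, d, hd, hy⟩
    refine ⟨a * d + c * b, b * d, by rw [map_mul]; exact mul_ne_zero hb hd, ?_⟩
    push_cast
    linear_combination (d : L) * hx + (b : L) * hy
  mul_mem' := by
    rintro x y ⟨a, b, hb, hx⟩ ⟨c, d, hd, hy⟩
    refine ⟨a * c, b * d, by rw [map_mul]; exact mul_ne_zero hb hd, ?_⟩
    push_cast
    linear_combination (y * (d : L)) * hx + (a : L) * hy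
  neg_mem' := by
    rintro x ⟨a, b, hb, hx⟩
    refine ⟨-a, b, hb, ?_⟩
    push_cast
    linear_combination -hx

lemma mem_OW_iff {x : L} : x ∈ D.OW ↔ ∃ a b : D.Lam, D.red b ≠ 0 ∧ x * b = a := Iff.rfl

lemma Lam_le_OW : D.Lam ≤ D.OW := fun x hx =>
  ⟨⟨x, hx⟩, 1, by rw [map_one]; exact one_ne_zero, by simp⟩

lemma div_mem_OW (a b : D.Lam) (hb : D.red b ≠ 0) : (a : L) / b ∈ D.OW :=
  ⟨a, b, hb, div_mul_cancel₀ _ (D.ne_zero_of_red hb)⟩

lemma π_mem_OW : D.π ∈ D.OW := D.Lam_le_OW D.π_mem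

/-- The reduction of `x ∈ OW`, as a function. -/
noncomputable def rhoFun (x : D.OW) : k' :=
  D.red (Classical.choose x.2) / D.red (Classical.choose (Classical.choose_spec x.2))

lemma rhoFun_eq (x : D.OW) (a b : D.Lam) (hb : D.red b ≠ 0) (h : (x : L) * b = a) :
    D.rhoFun x = D.red a / D.red b := by
  obtain ⟨hb₀, h₀⟩ := Classical.choose_spec (Classical.choose_spec x.2)
  set a₀ := Classical.choose x.2
  set b₀ := Classical.choose (Classical.choose_spec x.2)
  have hL : ((a₀ * b : D.Lam) : L) = ((a * b₀ : D.Lam) : L) := by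
    push_cast
    rw [← h₀, ← h]
    ring
  have hLam : a₀ * b = a * b₀ := Subtype.ext hL
  have hred : D.red a₀ * D.red b = D.red a * D.red b₀ := by
    rw [← map_mul, ← map_mul, hLam]
  show D.red a₀ / D.red b₀ = D.red a / D.red b
  rw [div_eq_div_iff hb₀ hb, hred]

/-- The reduction map `OW → k'`. -/
noncomputable def rhoW : D.OW →+* k' where
  toFun := D.rhoFun
  map_one' := by
    rw [D.rhoFun_eq 1 1 1 (by rw [map_one]; exact one_ne_zero) (by simp), map_one, div_one]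
  map_zero' := by
    rw [D.rhoFun_eq 0 0 1 (by rw [map_one]; exact one_ne_zero) (by simp), map_zero, zero_div]
  map_mul' := by
    rintro ⟨x, a, b, hb, hx⟩ ⟨y, c, d, hd, hy⟩
    rw [D.rhoFun_eq ⟨x, a, b, hb, hx⟩ a b hb hx, D.rhoFun_eq ⟨y, c, d, hd, hy⟩ c d hd hy,
      D.rhoFun_eq (⟨x, a, b, hb, hx⟩ * ⟨y, c, d, hd, hy⟩) (a * c) (b * d)
        (by rw [map_mul]; exact mul_ne_zero hb hd)
        (by push_cast; linear_combination (y * (d : L)) * hx + (a : L) * hy),
      map_mul, map_mul, div_mul_div_comm]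
  map_add' := by
    rintro ⟨x, a, b, hb, hx⟩ ⟨y, c, d, hd, hy⟩
    rw [D.rhoFun_eq ⟨x, a, b, hb, hx⟩ a b hb hx, D.rhoFun_eq ⟨y, c, d, hd, hy⟩ c d hd hy,
      D.rhoFun_eq (⟨x, a, b, hb, hx⟩ + ⟨y, c, d, hd, hy⟩) (a * d + c * b) (b * d)
        (by rw [map_mul]; exact mul_ne_zero hb hd)
        (by push_cast; linear_combination (d : L) * hx + (b : L) * hy),
      map_add, map_mul, map_mul, map_mul, div_add_div _ _ hb hd]
    congr 1
    ring

lemma rhoW_eq (x : D.OW) (a b : D.Lam) (hb : D.red b ≠ 0) (h : (x : L) * b = a) :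
    D.rhoW x = D.red a / D.red b := D.rhoFun_eq x a b hb h

lemma rhoW_spec (x : D.OW) (a b : D.Lam) (hb : D.red b ≠ 0) (h : (x : L) * b = a) :
    D.rhoW x * D.red b = D.red a := by
  rw [D.rhoW_eq x a b hb h, div_mul_cancel₀ _ hb]

/-- On `Λ` the reduction is `red`. -/
lemma rhoW_coe (a : D.Lam) : D.rhoW ⟨a, D.Lam_le_OW a.2⟩ = D.red a := by
  rw [D.rhoW_eq ⟨a, D.Lam_le_OW a.2⟩ a 1 (by rw [map_one]; exact one_ne_zero) (by simp),
    map_one, div_one]

lemma rhoW_π : D.rhoW ⟨D.π, D.π_mem_OW⟩ = 0 := by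
  have := D.rhoW_coe ⟨D.π, D.π_mem⟩
  rw [D.red_π] at this
  exact this

/-- The kernel of the reduction is `π OW`. -/
theorem ker_rhoW (x : D.OW) (hx : D.rhoW x = 0) : ∃ y : D.OW, (x : L) = D.π * y := by
  obtain ⟨a, b, hb, h⟩ := x.2
  have h1 : D.red a = 0 := by
    have := D.rhoW_spec x a b hb h
    rw [hx, zero_mul] at this
    exact this.symm
  obtain ⟨a', ha'⟩ := D.ker a h1
  refine ⟨⟨(a' : L) / b, D.div_mem_OW a' b hb⟩, ?_⟩
  have hb0 := D.ne_zero_of_red hb
  show (x : L) = D.π * ((a' : L) / b)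
  rw [mul_div_assoc', ← ha', eq_div_iff hb0, h]

/-- `ker rhoW = π OW`, as an equality of ideals. -/
theorem ker_rhoW_eq : RingHom.ker D.rhoW = Ideal.span {(⟨D.π, D.π_mem_OW⟩ : D.OW)} := by
  apply le_antisymm
  · intro x hx
    obtain ⟨y, hy⟩ := D.ker_rhoW x (RingHom.mem_ker.mp hx)
    rw [Ideal.mem_span_singleton']
    exact ⟨y, Subtype.ext (by rw [hy]; push_cast; ring)⟩
  · rw [Ideal.span_le]
    intro x hx
    rw [Set.mem_singleton_iff] at hx
    rw [hx]
    exact RingHom.mem_ker.mpr D.rhoW_π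

/-- `OW` is local: elements with nonzero reduction are invertible. -/
theorem inv_mem_OW (x : D.OW) (hx : D.rhoW x ≠ 0) : (x : L)⁻¹ ∈ D.OW := by
  obtain ⟨a, b, hb, h⟩ := x.2
  have ha : D.red a ≠ 0 := by
    intro h0
    apply hx
    have := D.rhoW_spec x a b hb h
    rw [h0] at this
    exact (mul_eq_zero.mp this).resolve_right hb
  have ha0 := D.ne_zero_of_red ha
  have hb0 := D.ne_zero_of_red hb
  refine ⟨b, a, ha, ?_⟩
  have hx0 : (x : L) ≠ 0 := by
    intro h0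
    rw [h0, zero_mul] at h
    exact ha0 h.symm
  rw [← h]
  field_simp

theorem rhoW_inv (x : D.OW) (hx : D.rhoW x ≠ 0) :
    D.rhoW ⟨(x : L)⁻¹, D.inv_mem_OW x hx⟩ = (D.rhoW x)⁻¹ := by
  have hx0 : (x : L) ≠ 0 := by
    intro h0
    apply hx
    have : x = 0 := Subtype.ext h0
    rw [this, map_zero]
  have h1 : x * ⟨(x : L)⁻¹, D.inv_mem_OW x hx⟩ = 1 := Subtype.ext (mul_inv_cancel₀ hx0)
  have h2 := congrArg D.rhoW h1
  rw [map_mul, map_one] at h2
  exact eq_inv_of_mul_eq_one_right h2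

/-- `1 ∉ π OW`. -/
lemma one_ne_π_mul (z : D.OW) : (1 : L) ≠ D.π * z := by
  intro h
  have h1 : (1 : D.OW) = ⟨D.π, D.π_mem_OW⟩ * z := Subtype.ext h
  have h2 := congrArg D.rhoW h1
  rw [map_one, map_mul, D.rhoW_π, zero_mul] at h2
  exact one_ne_zero h2

/-- `OW` is a valuation ring of `Frac Λ`. -/
theorem mem_or_inv (a b : D.Lam) (hb : (b : L) ≠ 0) :
    (a : L) / b ∈ D.OW ∨ ∃ y : D.OW, ((a : L) / b)⁻¹ = D.π * y := by
  by_cases ha : a = 0
  · left
    rw [ha]
    simp only [ZeroMemClass.coe_zero, zero_div]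
    exact D.OW.zero_mem
  have hb' : b ≠ 0 := fun h => hb (by rw [h]; rfl)
  obtain ⟨m, a', ha', hra⟩ := D.sep a ha
  obtain ⟨n, b', hb'', hrb⟩ := D.sep b hb'
  have ha'0 := D.ne_zero_of_red hra
  have hb'0 := D.ne_zero_of_red hrb
  have hπn : D.π ^ n ≠ 0 := by
    intro h0
    rw [hb'', h0, zero_mul] at hb
    exact hb rfl
  rcases le_or_gt n m with hnm | hnm
  · left
    obtain ⟨d, rfl⟩ := Nat.exists_eq_add_of_le hnm
    have h1 : (a : L) / b = D.π ^ d * ((a' : L) / b') := by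
      rw [ha', hb'', pow_add]
      field_simp
    rw [h1]
    exact D.OW.mul_mem (D.OW.pow_mem D.π_mem_OW d) (D.div_mem_OW a' b' hrb)
  · right
    obtain ⟨d, rfl⟩ := Nat.exists_eq_add_of_lt hnm
    have hπm : D.π ^ m ≠ 0 := by
      intro h0
      apply hπn
      rw [show m + d + 1 = m + (d + 1) by ring, pow_add, h0, zero_mul]
    refine ⟨⟨D.π ^ d * ((b' : L) / a'),
      D.OW.mul_mem (D.OW.pow_mem D.π_mem_OW d) (D.div_mem_OW b' a' hra)⟩, ?_⟩
    show ((a : L) / b)⁻¹ = D.π * (D.π ^ d * ((b' : L) / a'))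
    rw [ha', hb'', inv_div, show m + d + 1 = m + (d + 1) by ring, pow_add, pow_succ]
    field_simp

/-- `OW` is integrally closed in `Frac Λ`. -/
theorem mem_of_isIntegral (a b : D.Lam) (hb : (b : L) ≠ 0)
    (hint : IsIntegral D.OW ((a : L) / b)) : (a : L) / b ∈ D.OW := by
  rcases D.mem_or_inv a b hb with h | ⟨y, hy⟩
  · exact h
  by_cases hx0 : (a : L) / b = 0
  · rw [hx0]; exact D.OW.zero_mem
  exfalso
  set x : L := (a : L) / b with hx
  obtain ⟨p, hp, hpx⟩ := hint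
  haveI hinv : Invertible x := invertibleOfNonzero hx0
  have h1 := Polynomial.eval₂_reverse_mul_pow (algebraMap D.OW L) x p
  rw [hpx] at h1
  have h2 : eval₂ (algebraMap D.OW L) (⅟x) (reverse p) = 0 :=
    (mul_eq_zero.mp h1).resolve_right (pow_ne_zero _ hx0)
  have h3 : (reverse p).coeff 0 = 1 := by rw [coeff_zero_reverse, hp.leadingCoeff]
  have h4 := Polynomial.divX_mul_X_add (reverse p)
  rw [← h4, h3, eval₂_add, eval₂_mul, eval₂_X, eval₂_C, map_one] at h2
  -- `⅟x = π y`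
  have hxinv : ⅟x = D.π * y := by rw [invOf_eq_inv, hy]
  set w : D.OW := ⟨D.π, D.π_mem_OW⟩ * y with hw
  have hwL : (algebraMap D.OW L) w = ⅟x := by
    rw [hxinv]; rfl
  rw [← hwL, Polynomial.eval₂_at_apply] at h2
  set e : D.OW := (divX (reverse p)).eval w with he
  have h5 : (1 : L) = D.π * ((-(e * y) : D.OW) : L) := by
    have h6 : ((e : D.OW) : L) * (D.π * y) + 1 = 0 := h2
    push_cast
    linear_combination h6
  exact D.one_ne_π_mul _ h5

/-- Integral over a subring of `OW`. -/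
theorem mem_of_isIntegral_of_le (A : Subring L) (hA : A ≤ D.OW) (a b : D.Lam) (hb : (b : L) ≠ 0)
    (hint : IsIntegral A ((a : L) / b)) : (a : L) / b ∈ D.OW := by
  apply D.mem_of_isIntegral a b hb
  obtain ⟨p, hp, hpx⟩ := hint
  refine ⟨p.map (Subring.inclusion hA), hp.map _, ?_⟩
  rw [eval₂_map]
  exact hpx

end RedData

end Fermat.Agent.S28.Alg.RedAbs
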