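import Mathlib
import Fermat.Prelude.Def_ModularCurve_IgusaScheme
import Fermat.Prelude.Def_ModularCurve_X0ModL
import Fermat.Agent.S28.Asm.Defs
import Fermat.Agent.S28.Alg.H6_RedAbs

/-!
# S28, package ALG, leaf [RED]: the concrete Gauss reduction on `ℚ((q))` (helper6)

`L = ℚ((q))`, `Λ = Lam ℓ = {f | all coefficients of f lie in ℤ_(ℓ)}`, `π = ℓ`,
`red : Λ → 𝔽_ℓ((q))` the coefficientwise reduction.  We check the axioms of
`RedAbs.RedData` and obtain `redQ ℓ : RedData ℚ((q)) 𝔽_ℓ((q))`.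
-/

set_option autoImplicit false
set_option linter.unusedSectionVars false
set_option linter.unusedVariables false

open ModularCurve

noncomputable section

namespace Fermat.Agent.S28.Alg.RedQ

open Fermat.Agent.S28.Asm Fermat.Agent.S28.Alg.RedAbs

variable (ℓ : ℕ) [Fact ℓ.Prime]

/-! ### The residue map `ℤ_(ℓ) → 𝔽_ℓ` -/

lemma den_ne_zero (x : Zl ℓ) : (((x : ℚ).den : ℕ) : ZMod ℓ) ≠ 0 := by
  intro h
  rw [ZMod.natCast_eq_zero_iff] at h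
  have hx : (x : ℚ).den.Coprime ℓ := x.2
  have h1 : ℓ ∣ Nat.gcd (x : ℚ).den ℓ := Nat.dvd_gcd h dvd_rfl
  rw [hx] at h1
  exact (Fact.out : ℓ.Prime).one_lt.ne' (Nat.dvd_one.mp h1)

/-- The residue map `ℤ_(ℓ) → 𝔽_ℓ`. -/
def resZl : Zl ℓ →+* ZMod ℓ where
  toFun x := (((x : ℚ) : ℚ) : ZMod ℓ)
  map_one' := by
    show (((1 : ℚ) : ℚ) : ZMod ℓ) = 1
    exact Rat.cast_one
  map_zero' := by
    show (((0 : ℚ) : ℚ) : ZMod ℓ) = 0
    exact Rat.cast_zero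
  map_add' x y := by
    show (((x + y : ℚ) : ℚ) : ZMod ℓ) = _
    exact Rat.cast_add_of_ne_zero (den_ne_zero ℓ x) (den_ne_zero ℓ y)
  map_mul' x y := by
    show (((x * y : ℚ) : ℚ) : ZMod ℓ) = _
    exact Rat.cast_mul_of_ne_zero (den_ne_zero ℓ x) (den_ne_zero ℓ y)

lemma resZl_apply (x : Zl ℓ) : resZl ℓ x = (((x : ℚ) : ℚ) : ZMod ℓ) := rfl

lemma natCast_mem_Zl (n : ℕ) : (n : ℚ) ∈ GaloisRep.ratLocalizedAt ℓ := by
  show ((n : ℚ).den).Coprime ℓ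
  rw [Rat.den_natCast]
  exact Nat.coprime_one_left ℓ

lemma intCast_mem_Zl (n : ℤ) : (n : ℚ) ∈ GaloisRep.ratLocalizedAt ℓ := by
  show ((n : ℚ).den).Coprime ℓ
  rw [Rat.den_intCast]
  exact Nat.coprime_one_left ℓ

/-- The kernel of the residue map is `ℓ ℤ_(ℓ)`. -/
lemma div_mem_of_resZl_eq_zero (x : Zl ℓ) (hx : resZl ℓ x = 0) :
    (x : ℚ) / (ℓ : ℚ) ∈ GaloisRep.ratLocalizedAt ℓ := by
  have hℓ : (ℓ : ℚ) ≠ 0 := by exact_mod_cast (Fact.out : ℓ.Prime).ne_zero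
  rw [resZl_apply, Rat.cast_def, div_eq_zero_iff] at hx
  have hnum : (((x : ℚ).num : ℤ) : ZMod ℓ) = 0 := hx.resolve_right (den_ne_zero ℓ x)
  rw [ZMod.intCast_zmod_eq_zero_iff_dvd] at hnum
  obtain ⟨c, hc⟩ := hnum
  have hden : ((x : ℚ).den : ℚ) ≠ 0 := by exact_mod_cast (x : ℚ).den_pos.ne'
  have h1 : (x : ℚ) / (ℓ : ℚ) = Rat.divInt c ((x : ℚ).den : ℤ) := by
    rw [Rat.divInt_eq_div]
    conv_lhs => rw [← Rat.num_div_den (x : ℚ), hc]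
    push_cast
    field_simp
  show (((x : ℚ) / (ℓ : ℚ)).den).Coprime ℓ
  rw [h1]
  have h2 := Rat.den_dvd c ((x : ℚ).den : ℤ)
  have h3 : (Rat.divInt c ((x : ℚ).den : ℤ)).den ∣ (x : ℚ).den := by exact_mod_cast h2
  exact Nat.Coprime.coprime_dvd_left h3 x.2

lemma resZl_natCast_self : resZl ℓ ⟨(ℓ : ℚ), natCast_mem_Zl ℓ ℓ⟩ = 0 := by
  rw [resZl_apply]
  show (((ℓ : ℚ) : ℚ) : ZMod ℓ) = 0
  rw [Rat.cast_natCast]
  exact ZMod.natCast_self ℓ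

/-! ### The subring `Λ` of `ℚ((q))` -/

/-- The inclusion `ℤ_(ℓ)((q)) → ℚ((q))`. -/
def iotaQ : LaurentSeries (Zl ℓ) →+* LaurentSeries ℚ :=
  coeffMap (GaloisRep.ratLocalizedAt ℓ).subtype

lemma iotaQ_coeff (f : LaurentSeries (Zl ℓ)) (n : ℤ) : (iotaQ ℓ f).coeff n = (f.coeff n : ℚ) := rfl

lemma iotaQ_injective : Function.Injective (iotaQ ℓ) := by
  intro f g h
  ext n
  have := congrArg (fun x => HahnSeries.coeff x n) h
  exact this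

/-- `Λ`: the Laurent series all of whose coefficients lie in `ℤ_(ℓ)`. -/
def Lam : Subring (LaurentSeries ℚ) := (iotaQ ℓ).range

/-- The lift of a series with `ℓ`-integral coefficients. -/
def liftQ (f : LaurentSeries ℚ) (hf : ∀ n, f.coeff n ∈ GaloisRep.ratLocalizedAt ℓ) :
    LaurentSeries (Zl ℓ) where
  coeff n := ⟨f.coeff n, hf n⟩
  isPWO_support' := by
    refine f.isPWO_support.mono ?_
    intro n hn
    simp only [Function.mem_support, ne_eq] at hn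
    simp only [HahnSeries.mem_support, ne_eq]
    intro h0
    apply hn
    exact Subtype.ext h0

lemma iotaQ_liftQ (f : LaurentSeries ℚ) (hf : ∀ n, f.coeff n ∈ GaloisRep.ratLocalizedAt ℓ) :
    iotaQ ℓ (liftQ ℓ f hf) = f := by
  ext n
  rfl

lemma mem_Lam_iff {f : LaurentSeries ℚ} :
    f ∈ Lam ℓ ↔ ∀ n, f.coeff n ∈ GaloisRep.ratLocalizedAt ℓ := by
  constructor
  · rintro ⟨g, rfl⟩ n
    exact (g.coeff n).2
  · intro hf
    exact ⟨liftQ ℓ f hf, iotaQ_liftQ ℓ f hf⟩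

/-- `ℤ_(ℓ)((q)) ≃ Λ`. -/
def lamEquiv : LaurentSeries (Zl ℓ) ≃+* Lam ℓ :=
  RingEquiv.ofBijective (iotaQ ℓ).rangeRestrict
    ⟨fun f g h => iotaQ_injective ℓ (congrArg Subtype.val h), (iotaQ ℓ).rangeRestrict_surjective⟩

lemma lamEquiv_apply (f : LaurentSeries (Zl ℓ)) : ((lamEquiv ℓ f : Lam ℓ) : LaurentSeries ℚ)
    = iotaQ ℓ f := rfl

lemma iotaQ_lamEquiv_symm (a : Lam ℓ) : iotaQ ℓ ((lamEquiv ℓ).symm a) = a := by
  rw [← lamEquiv_apply, RingEquiv.apply_symm_apply]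

/-- The coefficientwise reduction `Λ → 𝔽_ℓ((q))`. -/
def redQfun : Lam ℓ →+* LaurentSeries (ZMod ℓ) :=
  (coeffMap (resZl ℓ)).comp (lamEquiv ℓ).symm.toRingHom

lemma redQfun_iotaQ (f : LaurentSeries (Zl ℓ)) (h : iotaQ ℓ f ∈ Lam ℓ) :
    redQfun ℓ ⟨iotaQ ℓ f, h⟩ = coeffMap (resZl ℓ) f := by
  have : (lamEquiv ℓ).symm ⟨iotaQ ℓ f, h⟩ = f := by
    rw [RingEquiv.symm_apply_eq]
    rfl
  show coeffMap (resZl ℓ) ((lamEquiv ℓ).symm ⟨iotaQ ℓ f, h⟩) = _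
  rw [this]

lemma redQfun_coeff (a : Lam ℓ) (n : ℤ) :
    (redQfun ℓ a).coeff n =
      resZl ℓ ⟨(a : LaurentSeries ℚ).coeff n, (mem_Lam_iff ℓ).mp a.2 n⟩ := by
  show resZl ℓ (((lamEquiv ℓ).symm a).coeff n) = _
  congr 1
  apply Subtype.ext
  show ((((lamEquiv ℓ).symm a).coeff n : Zl ℓ) : ℚ) = (a : LaurentSeries ℚ).coeff n
  rw [← iotaQ_coeff, iotaQ_lamEquiv_symm]

lemma natCast_mem_Lam (m : ℕ) : (m : LaurentSeries ℚ) ∈ Lam ℓ := natCast_mem (Lam ℓ) m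

lemma natCast_mul_coeff (m : ℕ) (f : LaurentSeries ℚ) (n : ℤ) :
    ((m : LaurentSeries ℚ) * f).coeff n = (m : ℚ) * f.coeff n := by
  have : (m : LaurentSeries ℚ) = HahnSeries.C (m : ℚ) := (map_natCast HahnSeries.C m).symm
  rw [this, HahnSeries.C_mul_eq_smul, HahnSeries.coeff_smul, smul_eq_mul]

lemma redQfun_natCast_self : redQfun ℓ ⟨(ℓ : LaurentSeries ℚ), natCast_mem_Lam ℓ ℓ⟩ = 0 := by
  have h : (⟨(ℓ : LaurentSeries ℚ), natCast_mem_Lam ℓ ℓ⟩ : Lam ℓ) = ((ℓ : ℕ) : Lam ℓ) :=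
    Subtype.ext (by push_cast; rfl)
  rw [h, map_natCast]
  have h2 : ((ℓ : ℕ) : LaurentSeries (ZMod ℓ)) = HahnSeries.C ((ℓ : ℕ) : ZMod ℓ) :=
    (map_natCast HahnSeries.C ℓ).symm
  rw [h2, ZMod.natCast_self, map_zero]

lemma natCast_ne_zero_L : (ℓ : LaurentSeries ℚ) ≠ 0 := by
  have h1 : (ℓ : LaurentSeries ℚ) = HahnSeries.C (ℓ : ℚ) := (map_natCast HahnSeries.C ℓ).symm
  rw [h1]
  intro h0
  have h2 := congrArg (fun x => HahnSeries.coeff x 0) h0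
  simp only [HahnSeries.C_apply, HahnSeries.coeff_single_same, HahnSeries.coeff_zero] at h2
  exact (Fact.out : ℓ.Prime).ne_zero (by exact_mod_cast h2)

/-- `ker red = ℓ Λ`. -/
lemma redQfun_ker (a : Lam ℓ) (ha : redQfun ℓ a = 0) :
    ∃ a' : Lam ℓ, (a : LaurentSeries ℚ) = (ℓ : LaurentSeries ℚ) * a' := by
  have hℓ : (ℓ : ℚ) ≠ 0 := by exact_mod_cast (Fact.out : ℓ.Prime).ne_zero
  have hcoef : ∀ n, (a : LaurentSeries ℚ).coeff n / (ℓ : ℚ) ∈ GaloisRep.ratLocalizedAt ℓ := by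
    intro n
    have h1 := congrArg (fun x => HahnSeries.coeff x n) ha
    simp only [HahnSeries.coeff_zero] at h1
    rw [redQfun_coeff] at h1
    exact div_mem_of_resZl_eq_zero ℓ _ h1
  set b : LaurentSeries ℚ := HahnSeries.C ((ℓ : ℚ)⁻¹) * (a : LaurentSeries ℚ) with hb
  have hbcoef : ∀ n, b.coeff n = (a : LaurentSeries ℚ).coeff n / (ℓ : ℚ) := by
    intro n
    rw [hb, HahnSeries.C_mul_eq_smul, HahnSeries.coeff_smul, smul_eq_mul, div_eq_inv_mul]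
  have hbmem : b ∈ Lam ℓ := by
    rw [mem_Lam_iff]
    intro n
    rw [hbcoef]
    exact hcoef n
  refine ⟨⟨b, hbmem⟩, ?_⟩
  ext n
  show (a : LaurentSeries ℚ).coeff n = ((ℓ : LaurentSeries ℚ) * b).coeff n
  rw [natCast_mul_coeff, hbcoef]
  field_simp

lemma padicValRat_nonneg_of_mem {x : ℚ} (hx : x ∈ GaloisRep.ratLocalizedAt ℓ) :
    0 ≤ padicValRat ℓ x := by
  rw [padicValRat_def]
  have hden : padicValNat ℓ x.den = 0 := by
    apply padicValNat.eq_zero_of_not_dvd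
    intro h
    have hc : x.den.Coprime ℓ := hx
    have h1 : ℓ ∣ Nat.gcd x.den ℓ := Nat.dvd_gcd h dvd_rfl
    rw [hc] at h1
    exact (Fact.out : ℓ.Prime).one_lt.ne' (Nat.dvd_one.mp h1)
  rw [hden]
  simp

/-- `Λ` is `ℓ`-adically separated. -/
lemma redQfun_sep_aux (v : ℕ) : ∀ (a : Lam ℓ) (n : ℤ), (a : LaurentSeries ℚ).coeff n ≠ 0 →
    padicValRat ℓ ((a : LaurentSeries ℚ).coeff n) = v →
    ∃ (m : ℕ) (a' : Lam ℓ), (a : LaurentSeries ℚ) = (ℓ : LaurentSeries ℚ) ^ m * a' ∧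
      redQfun ℓ a' ≠ 0 := by
  induction v with
  | zero =>
    intro a n hn hv
    refine ⟨0, a, by rw [pow_zero, one_mul], ?_⟩
    intro h0
    obtain ⟨a', ha'⟩ := redQfun_ker ℓ a h0
    have h1 : (a : LaurentSeries ℚ).coeff n = (ℓ : ℚ) * (a' : LaurentSeries ℚ).coeff n := by
      rw [ha', natCast_mul_coeff]
    have ha'n : (a' : LaurentSeries ℚ).coeff n ≠ 0 := by
      intro h
      rw [h, mul_zero] at h1
      exact hn h1
    have hℓ : (ℓ : ℚ) ≠ 0 := by exact_mod_cast (Fact.out : ℓ.Prime).ne_zero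
    rw [h1, padicValRat.mul hℓ ha'n, padicValRat.self (Fact.out : ℓ.Prime).one_lt] at hv
    have := padicValRat_nonneg_of_mem ℓ ((mem_Lam_iff ℓ).mp a'.2 n)
    push_cast at hv
    omega
  | succ v ih =>
    intro a n hn hv
    by_cases h0 : redQfun ℓ a = 0
    · obtain ⟨a', ha'⟩ := redQfun_ker ℓ a h0
      have h1 : (a : LaurentSeries ℚ).coeff n = (ℓ : ℚ) * (a' : LaurentSeries ℚ).coeff n := by
        rw [ha', natCast_mul_coeff]
      have ha'n : (a' : LaurentSeries ℚ).coeff n ≠ 0 := by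
        intro h
        rw [h, mul_zero] at h1
        exact hn h1
      have hℓ : (ℓ : ℚ) ≠ 0 := by exact_mod_cast (Fact.out : ℓ.Prime).ne_zero
      rw [h1, padicValRat.mul hℓ ha'n, padicValRat.self (Fact.out : ℓ.Prime).one_lt] at hv
      have hv' : padicValRat ℓ ((a' : LaurentSeries ℚ).coeff n) = v := by
        push_cast at hv
        omega
      obtain ⟨m, a'', ha'', hr⟩ := ih a' n ha'n hv'
      refine ⟨m + 1, a'', ?_, hr⟩
      rw [ha', ha'', pow_succ]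
      ring
    · exact ⟨0, a, by rw [pow_zero, one_mul], h0⟩

lemma redQfun_sep (a : Lam ℓ) (ha : a ≠ 0) :
    ∃ (m : ℕ) (a' : Lam ℓ), (a : LaurentSeries ℚ) = (ℓ : LaurentSeries ℚ) ^ m * a' ∧
      redQfun ℓ a' ≠ 0 := by
  have h1 : (a : LaurentSeries ℚ) ≠ 0 := fun h => ha (Subtype.ext h)
  obtain ⟨n, hn⟩ : ∃ n, (a : LaurentSeries ℚ).coeff n ≠ 0 := by
    by_contra hcon
    apply h1
    ext n
    by_contra hne
    exact hcon ⟨n, hne⟩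
  have hnn := padicValRat_nonneg_of_mem ℓ ((mem_Lam_iff ℓ).mp a.2 n)
  obtain ⟨v, hv⟩ := Int.eq_ofNat_of_zero_le hnn
  exact redQfun_sep_aux ℓ v a n hn hv

/-- **The Gauss reduction datum on `ℚ((q))`.** -/
def redQ : RedData (LaurentSeries ℚ) (LaurentSeries (ZMod ℓ)) where
  Lam := Lam ℓ
  π := (ℓ : LaurentSeries ℚ)
  π_mem := natCast_mem_Lam ℓ ℓ
  red := redQfun ℓ
  red_π := redQfun_natCast_self ℓ
  ker := redQfun_ker ℓ
  sep := redQfun_sep ℓ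

/-! ### Abstract complements: the fraction field of `Λ` inside `L` -/

section Abstract

open Polynomial

variable {L : Type*} [Field L] {k' : Type*} [Field k'] (D : RedData L k')

/-- `Frac Λ ⊆ L`. -/
def fracLam : Subfield L where
  carrier := {x | ∃ a b : D.Lam, (b : L) ≠ 0 ∧ x * b = a}
  zero_mem' := ⟨0, 1, by simp, by simp⟩
  one_mem' := ⟨1, 1, by simp, by simp⟩
  add_mem' := by
    rintro x y ⟨a, b, hb, hx⟩ ⟨c, d, hd, hy⟩
    refine ⟨a * d + c * b, b * d, by push_cast; exact mul_ne_zero hb hd, ?_⟩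
    push_cast
    linear_combination (d : L) * hx + (b : L) * hy
  mul_mem' := by
    rintro x y ⟨a, b, hb, hx⟩ ⟨c, d, hd, hy⟩
    refine ⟨a * c, b * d, by push_cast; exact mul_ne_zero hb hd, ?_⟩
    push_cast
    linear_combination (y * (d : L)) * hx + (a : L) * hy
  neg_mem' := by
    rintro x ⟨a, b, hb, hx⟩
    refine ⟨-a, b, hb, ?_⟩
    push_cast
    linear_combination -hx
  inv_mem' := by
    rintro x ⟨a, b, hb, hx⟩
    by_cases hx0 : x = 0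
    · rw [hx0, inv_zero]
      exact ⟨0, 1, by simp, by simp⟩
    · have ha : (a : L) ≠ 0 := by rw [← hx]; exact mul_ne_zero hx0 hb
      refine ⟨b, a, ha, ?_⟩
      rw [← hx]
      field_simp

lemma mem_fracLam_iff {x : L} :
    x ∈ fracLam D ↔ ∃ a b : D.Lam, (b : L) ≠ 0 ∧ x * b = a := Iff.rfl

lemma exists_div_of_mem_fracLam {x : L} (hx : x ∈ fracLam D) :
    ∃ a b : D.Lam, (b : L) ≠ 0 ∧ x = (a : L) / b := by
  obtain ⟨a, b, hb, h⟩ := hx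
  exact ⟨a, b, hb, by rw [← h]; field_simp⟩

lemma Lam_le_fracLam {x : L} (hx : x ∈ D.Lam) : x ∈ fracLam D :=
  ⟨⟨x, hx⟩, 1, by simp, by simp⟩

lemma OW_le_fracLam {x : L} (hx : x ∈ D.OW) : x ∈ fracLam D := by
  obtain ⟨a, b, hb, h⟩ := hx
  exact ⟨a, b, D.ne_zero_of_red hb, h⟩

/-- `OW` is a valuation ring of `Frac Λ`. -/
theorem mem_OW_or_inv {x : L} (hx : x ∈ fracLam D) :
    x ∈ D.OW ∨ ∃ y : D.OW, x⁻¹ = D.π * y := by
  obtain ⟨a, b, hb, rfl⟩ := exists_div_of_mem_fracLam D hx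
  exact D.mem_or_inv a b hb

/-- `OW` is integrally closed in `Frac Λ`. -/
theorem mem_OW_of_isIntegral {x : L} (hx : x ∈ fracLam D) (hint : IsIntegral D.OW x) :
    x ∈ D.OW := by
  obtain ⟨a, b, hb, rfl⟩ := exists_div_of_mem_fracLam D hx
  exact D.mem_of_isIntegral a b hb hint

/-- `OW` is integrally closed in `Frac Λ`, polynomial form. -/
theorem mem_OW_of_monic {x : L} (hx : x ∈ fracLam D) (p : L[X]) (hp : p.Monic)
    (hc : ∀ i, p.coeff i ∈ D.OW) (hpx : p.eval x = 0) : x ∈ D.OW := by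
  apply mem_OW_of_isIntegral D hx
  have hl : p ∈ Polynomial.lifts (D.OW.subtype) := by
    rw [Polynomial.lifts_iff_coeff_lifts]
    intro i
    exact ⟨⟨p.coeff i, hc i⟩, rfl⟩
  obtain ⟨q, hq, -, hqm⟩ := Polynomial.lifts_and_natDegree_eq_and_monic hl hp
  refine ⟨q, hqm, ?_⟩
  have : eval₂ (algebraMap D.OW L) x q = (q.map D.OW.subtype).eval x := by
    rw [eval_map]
    rfl
  rw [this, hq, hpx]

/-- Every nonzero element of `Frac Λ` is `π ^ (m - n) * u` with `u` a unit of `OW`. -/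
theorem exists_pow_mul_eq {x : L} (hx : x ∈ fracLam D) (hx0 : x ≠ 0) :
    ∃ (m n : ℕ) (u : D.OW), D.rhoW u ≠ 0 ∧ x * D.π ^ n = D.π ^ m * u := by
  obtain ⟨a, b, hb, h⟩ := hx
  have ha0 : (a : L) ≠ 0 := by rw [← h]; exact mul_ne_zero hx0 hb
  have ha : a ≠ 0 := fun h0 => ha0 (by rw [h0]; rfl)
  have hb' : b ≠ 0 := fun h0 => hb (by rw [h0]; rfl)
  obtain ⟨m, a', ha', hra⟩ := D.sep a ha
  obtain ⟨n, b', hb'', hrb⟩ := D.sep b hb'
  have hb'0 := D.ne_zero_of_red hrb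
  refine ⟨m, n, ⟨(a' : L) / b', D.div_mem_OW a' b' hrb⟩, ?_, ?_⟩
  · rw [D.rhoW_eq ⟨(a' : L) / b', D.div_mem_OW a' b' hrb⟩ a' b' hrb
      (div_mul_cancel₀ _ hb'0)]
    exact div_ne_zero hra hrb
  · show x * D.π ^ n = D.π ^ m * ((a' : L) / b')
    have hπn : D.π ^ n ≠ 0 := by
      intro h0
      rw [hb'', h0, zero_mul] at hb
      exact hb rfl
    have h2 : x * (D.π ^ n * b') = D.π ^ m * a' := by rw [← hb'', ← ha', h]
    field_simp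
    linear_combination h2

end Abstract

/-! ### The modular functions `j_d` -/

section Modular

open ModularCurve.IgusaScheme

/-- `Λ ⊆ O_W ⊆ ℚ((q))`: the Gauss valuation ring. -/
abbrev OWQ : Subring (LaurentSeries ℚ) := (redQ ℓ).OW

/-- The reduction `O_W → 𝔽_ℓ((q))`. -/
abbrev rhoQ : OWQ ℓ →+* LaurentSeries (ZMod ℓ) := (redQ ℓ).rhoW

lemma iotaQ_mem_Lam (f : LaurentSeries (Zl ℓ)) : iotaQ ℓ f ∈ Lam ℓ := ⟨f, rfl⟩

lemma iotaQ_mem_OWQ (f : LaurentSeries (Zl ℓ)) : iotaQ ℓ f ∈ OWQ ℓ :=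
  (redQ ℓ).Lam_le_OW (iotaQ_mem_Lam ℓ f)

lemma rhoQ_iotaQ (f : LaurentSeries (Zl ℓ)) :
    rhoQ ℓ ⟨iotaQ ℓ f, iotaQ_mem_OWQ ℓ f⟩ = coeffMap (resZl ℓ) f := by
  have h := (redQ ℓ).rhoW_coe ⟨iotaQ ℓ f, iotaQ_mem_Lam ℓ f⟩
  exact h.trans (redQfun_iotaQ ℓ f _)

lemma jd_eq_iotaQ (d : ℕ) [NeZero d] :
    qExpand ℚ d jq = iotaQ ℓ (qExpand (Zl ℓ) d (jqModC (Zl ℓ))) := by
  rw [iotaQ, coeffMap_qExpand, coeffMap_jqModC, jqModC_rat]

lemma jd_mem_Lam (d : ℕ) [NeZero d] : qExpand ℚ d jq ∈ Lam ℓ := by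
  rw [jd_eq_iotaQ ℓ d]
  exact iotaQ_mem_Lam ℓ _

lemma jd_mem_OWQ (d : ℕ) [NeZero d] : qExpand ℚ d jq ∈ OWQ ℓ :=
  (redQ ℓ).Lam_le_OW (jd_mem_Lam ℓ d)

/-- `ρ(j_d) = j̄_d`. -/
lemma rhoQ_jd (d : ℕ) [NeZero d] :
    rhoQ ℓ ⟨qExpand ℚ d jq, jd_mem_OWQ ℓ d⟩ = qExpand (ZMod ℓ) d (jqModC (ZMod ℓ)) := by
  have h := rhoQ_iotaQ ℓ (qExpand (Zl ℓ) d (jqModC (Zl ℓ)))
  rw [coeffMap_qExpand, coeffMap_jqModC] at h
  rw [← h]
  congr 1
  exact Subtype.ext (jd_eq_iotaQ ℓ d)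

lemma jq_mem_Lam : jq ∈ Lam ℓ := by
  have h := jd_mem_Lam ℓ 1
  rwa [qExpand_one_apply] at h

lemma jq_mem_OWQ : jq ∈ OWQ ℓ := (redQ ℓ).Lam_le_OW (jq_mem_Lam ℓ)

/-- `ρ(j) = j̄`. -/
lemma rhoQ_jq : rhoQ ℓ ⟨jq, jq_mem_OWQ ℓ⟩ = jqModC (ZMod ℓ) := by
  have h := rhoQ_jd ℓ 1
  rw [qExpand_one_apply (jqModC (ZMod ℓ))] at h
  rw [← h]
  congr 1
  exact Subtype.ext (qExpand_one_apply _).symm

lemma jq_inv_mem_OWQ : jq⁻¹ ∈ OWQ ℓ := by
  apply (redQ ℓ).inv_mem_OW ⟨jq, jq_mem_OWQ ℓ⟩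
  rw [show (redQ ℓ).rhoW = rhoQ ℓ from rfl, rhoQ_jq]
  exact jqModC_ne_zero_of_nontrivial (ZMod ℓ)

/-- `ρ(j⁻¹) = j̄⁻¹`. -/
lemma rhoQ_jq_inv : rhoQ ℓ ⟨jq⁻¹, jq_inv_mem_OWQ ℓ⟩ = (jqModC (ZMod ℓ))⁻¹ := by
  have h0 : (redQ ℓ).rhoW ⟨jq, jq_mem_OWQ ℓ⟩ ≠ 0 := by
    rw [show (redQ ℓ).rhoW = rhoQ ℓ from rfl, rhoQ_jq]
    exact jqModC_ne_zero_of_nontrivial (ZMod ℓ)
  have h := (redQ ℓ).rhoW_inv ⟨jq, jq_mem_OWQ ℓ⟩ h0
  rw [show (redQ ℓ).rhoW = rhoQ ℓ from rfl, rhoQ_jq] at h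
  exact h

/-- Constants: `ℤ_(ℓ) ⊆ Λ`. -/
lemma algebraMap_mem_Lam (c : ℚ) (hc : c ∈ GaloisRep.ratLocalizedAt ℓ) :
    algebraMap ℚ (LaurentSeries ℚ) c ∈ Lam ℓ := by
  rw [mem_Lam_iff, algebraMap_laurentSeries_eq_single]
  intro n
  rw [HahnSeries.coeff_single]
  split_ifs
  · exact hc
  · exact (GaloisRep.ratLocalizedAt ℓ).zero_mem

/-- `Frac Λ` as an intermediate field of `ℚ((q)) / ℚ`. -/
def fracQ : IntermediateField ℚ (LaurentSeries ℚ) :=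
  (fracLam (redQ ℓ)).toIntermediateField (fun c => by
    rw [eq_ratCast]
    exact SubfieldClass.ratCast_mem _ c)

lemma mem_fracQ_iff {x : LaurentSeries ℚ} : x ∈ fracQ ℓ ↔ x ∈ fracLam (redQ ℓ) := Iff.rfl

/-- `F_N ⊆ Frac Λ`. -/
theorem full_le_fracQ (N : ℕ) [NeZero N] : modularFunctionFieldFull N ≤ fracQ ℓ := by
  rw [modularFunctionFieldFull, IntermediateField.adjoin_le_iff]
  rintro x ⟨d, hd, -, rfl⟩
  exact Lam_le_fracLam (redQ ℓ) (jd_mem_Lam ℓ d)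

lemma mem_fracLam_of_mem_full (N : ℕ) [NeZero N] {x : LaurentSeries ℚ}
    (hx : x ∈ modularFunctionFieldFull N) : x ∈ fracLam (redQ ℓ) :=
  full_le_fracQ ℓ N hx

/-! ### The charts -/

variable (N : ℕ) [NeZero N]

/-- Elements of `ℤ_(ℓ)[S]` lie in `O_W` as soon as `S ⊆ O_W`. -/
lemma adjoin_le_OWQ (S : Set (FN N)) (hS : ∀ s ∈ S, (s : LaurentSeries ℚ) ∈ OWQ ℓ)
    {x : FN N} (hx : x ∈ Algebra.adjoin (Zl ℓ) S) : (x : LaurentSeries ℚ) ∈ OWQ ℓ := by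
  induction hx using Algebra.adjoin_induction with
  | mem y hy => exact hS y hy
  | algebraMap a =>
    have h1 : ((algebraMap (Zl ℓ) (FN N) a : FN N) : LaurentSeries ℚ) =
        algebraMap ℚ (LaurentSeries ℚ) (a : ℚ) := by
      have h2 : algebraMap (Zl ℓ) (FN N) a = algebraMap ℚ (FN N) (a : ℚ) := rfl
      rw [h2, eq_ratCast, eq_ratCast]
      push_cast
      rfl
    rw [h1]
    exact (redQ ℓ).Lam_le_OW (algebraMap_mem_Lam ℓ (a : ℚ) a.2)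
  | add y z _ _ hy hz => exact (OWQ ℓ).add_mem hy hz
  | mul y z _ _ hy hz => exact (OWQ ℓ).mul_mem hy hz

/-- The charts lie in `O_W`. -/
theorem chartAlg_le_OWQ (S : Set (FN N)) (hS : ∀ s ∈ S, (s : LaurentSeries ℚ) ∈ OWQ ℓ)
    {x : FN N} (hx : x ∈ chartAlg N ℓ S) : (x : LaurentSeries ℚ) ∈ OWQ ℓ := by
  obtain ⟨p, hp, hpx⟩ := (mem_chartAlg_iff N ℓ).mp hx
  set φ : ↥(Algebra.adjoin (Zl ℓ) S) →+* LaurentSeries ℚ :=
    ((modularFunctionFieldFull N).val : FN N →+* LaurentSeries ℚ).comp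
      (algebraMap ↥(Algebra.adjoin (Zl ℓ) S) (FN N)) with hφ
  apply mem_OW_of_monic (redQ ℓ) (mem_fracLam_of_mem_full ℓ N x.2) (p.map φ) (hp.map φ)
  · intro i
    rw [Polynomial.coeff_map]
    exact adjoin_le_OWQ ℓ N S hS (p.coeff i).2
  · rw [Polynomial.eval_map, hφ]
    have h1 := Polynomial.hom_eval₂ p (algebraMap ↥(Algebra.adjoin (Zl ℓ) S) (FN N))
      ((modularFunctionFieldFull N).val : FN N →+* LaurentSeries ℚ) x
    rw [hpx, map_zero] at h1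
    exact h1.symm

/-- The reduction map on a chart. -/
def rhoChart (S : Set (FN N)) (hS : ∀ s ∈ S, (s : LaurentSeries ℚ) ∈ OWQ ℓ) :
    ↥(chartAlg N ℓ S) →+* LaurentSeries (ZMod ℓ) :=
  (rhoQ ℓ).comp
    (RingHom.codRestrict
      ((((modularFunctionFieldFull N).val : FN N →+* LaurentSeries ℚ)).comp
        ((chartAlg N ℓ S).val : ↥(chartAlg N ℓ S) →+* FN N))
      (OWQ ℓ) (fun x => chartAlg_le_OWQ ℓ N S hS x.2))

lemma rhoChart_apply (S : Set (FN N)) (hS : ∀ s ∈ S, (s : LaurentSeries ℚ) ∈ OWQ ℓ)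
    (x : ↥(chartAlg N ℓ S)) :
    rhoChart ℓ N S hS x =
      rhoQ ℓ ⟨((x : FN N) : LaurentSeries ℚ), chartAlg_le_OWQ ℓ N S hS x.2⟩ := rfl

/-- **Reduction of `QEP_B` to a divisibility statement**: if `x ∈ B_S` and `x / ℓ ∈ O_W`
imply `x / ℓ ∈ B_S`, then `ker (ρ : B_S → 𝔽_ℓ((q))) = ℓ B_S`. -/
theorem stQEPB_of_div (S : Set (FN N)) (hS : ∀ s ∈ S, (s : LaurentSeries ℚ) ∈ OWQ ℓ)
    (hdiv : ∀ y : FN N, ((ℓ : ℕ) : FN N) * y ∈ chartAlg N ℓ S →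
      (y : LaurentSeries ℚ) ∈ OWQ ℓ → y ∈ chartAlg N ℓ S) :
    StQEPB N ℓ S := by
  refine ⟨rhoChart ℓ N S hS, ?_⟩
  apply le_antisymm
  · intro x hx
    rw [RingHom.mem_ker, rhoChart_apply] at hx
    obtain ⟨y, hy⟩ := (redQ ℓ).ker_rhoW _ hx
    have hℓ : (ℓ : LaurentSeries ℚ) ≠ 0 := natCast_ne_zero_L ℓ
    have hℓF : ((ℓ : ℕ) : FN N) ≠ 0 := by
      intro h0
      apply hℓ
      have := congrArg (fun z : FN N => (z : LaurentSeries ℚ)) h0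
      simpa using this
    -- `y = x / ℓ ∈ F_N`
    set y' : FN N := (x : FN N) / ((ℓ : ℕ) : FN N) with hy'
    have hy'L : (y' : LaurentSeries ℚ) = y := by
      have h1 : ((x : FN N) : LaurentSeries ℚ) = (ℓ : LaurentSeries ℚ) * y := hy
      have h2 : (y' : LaurentSeries ℚ) = ((x : FN N) : LaurentSeries ℚ) / (ℓ : LaurentSeries ℚ) := by
        rw [hy']
        push_cast
        rfl
      rw [h2, h1]
      field_simp
    have hxy : ((ℓ : ℕ) : FN N) * y' = x := by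
      rw [hy']
      field_simp
    have hmem : y' ∈ chartAlg N ℓ S := by
      apply hdiv y'
      · rw [hxy]; exact x.2
      · rw [hy'L]; exact y.2
    rw [Ideal.mem_span_singleton']
    refine ⟨⟨y', hmem⟩, Subtype.ext ?_⟩
    show (y' : FN N) * (((ℓ : ℕ) : ↥(chartAlg N ℓ S)) : FN N) = x
    rw [mul_comm]
    push_cast
    exact hxy
  · rw [Ideal.span_le]
    intro x hx
    rw [Set.mem_singleton_iff] at hx
    rw [hx]
    show rhoChart ℓ N S hS ((ℓ : ℕ) : ↥(chartAlg N ℓ S)) = 0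
    rw [map_natCast]
    have h2 : ((ℓ : ℕ) : LaurentSeries (ZMod ℓ)) = HahnSeries.C ((ℓ : ℕ) : ZMod ℓ) :=
      (map_natCast HahnSeries.C ℓ).symm
    rw [h2, ZMod.natCast_self, map_zero]

/-- The three charts lie in `O_W`. -/
lemma sFin_le_OWQ : ∀ s ∈ ({jFull N} : Set (FN N)), (s : LaurentSeries ℚ) ∈ OWQ ℓ := by
  intro s hs
  rw [Set.mem_singleton_iff] at hs
  rw [hs]
  exact jq_mem_OWQ ℓ

lemma sInf_le_OWQ : ∀ s ∈ ({(jFull N)⁻¹} : Set (FN N)), (s : LaurentSeries ℚ) ∈ OWQ ℓ := by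
  intro s hs
  rw [Set.mem_singleton_iff] at hs
  rw [hs]
  exact jq_inv_mem_OWQ ℓ

lemma sMid_le_OWQ :
    ∀ s ∈ ({jFull N, (jFull N)⁻¹} : Set (FN N)), (s : LaurentSeries ℚ) ∈ OWQ ℓ := by
  intro s hs
  rcases hs with hs | hs
  · rw [hs]
    exact jq_mem_OWQ ℓ
  · rw [Set.mem_singleton_iff] at hs
    rw [hs]
    exact jq_inv_mem_OWQ ℓ

end Modular

end Fermat.Agent.S28.Alg.RedQ
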