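import Mathlib
import Fermat.Prelude.Def_GaloisRep_Flat
import Fermat.Prelude.Def_ModularCurve_LaurentCoeff

/-!
# S28, package ALG, leaf [TENS] (helper6)

If `B` is a `ℤ_(ℓ)`-algebra with a ring homomorphism `ρ : B → k((q))`, `k = ZMod ℓ`, whose kernel
is contained in `ℓ B`, then `B ⊗[ℤ_(ℓ)] K` is a domain for every field `K` of characteristic `ℓ`
(with ANY `ℤ_(ℓ)`-algebra structure).

Proof: the ring homomorphism `B ⊗ K → K((q))`, `b ⊗ c ↦ c • ρ(b)^K`, is injective (use a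
`k`-basis of `K` and compare coefficients).
-/

set_option autoImplicit false
set_option linter.unusedSectionVars false
set_option linter.style.haveILetI false

open TensorProduct ModularCurve

namespace Fermat.Agent.S28.Alg

section Uniq

variable (ℓ : ℕ)

/-- A natural number, as an element of `ℤ_(ℓ)`. -/
lemma h6_natCast_mem (n : ℕ) : (n : ℚ) ∈ GaloisRep.ratLocalizedAt ℓ := by
  show ((n : ℚ)).den.Coprime ℓ
  simp

/-- Ring homomorphisms out of `ℤ_(ℓ)` are unique. -/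
theorem h6_ratLocalizedAt_hom_ext {R : Type*} [Ring R]
    (f g : ↥(GaloisRep.ratLocalizedAt ℓ) →+* R) : f = g := by
  ext x
  -- `x * d = n`, `d * u = 1`
  set d : ↥(GaloisRep.ratLocalizedAt ℓ) := ((x : ℚ).den : ↥(GaloisRep.ratLocalizedAt ℓ)) with hd
  set n : ↥(GaloisRep.ratLocalizedAt ℓ) := ((x : ℚ).num : ↥(GaloisRep.ratLocalizedAt ℓ)) with hn
  have hden0 : ((x : ℚ).den : ℚ) ≠ 0 := Nat.cast_ne_zero.mpr (x : ℚ).den_ne_zero
  have hu_mem : (((x : ℚ).den : ℚ))⁻¹ ∈ GaloisRep.ratLocalizedAt ℓ := by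
    show ((((x : ℚ).den : ℚ))⁻¹).den.Coprime ℓ
    have h1 : ((((x : ℚ).den : ℚ))⁻¹).den = (x : ℚ).den := by
      rw [Rat.inv_natCast_den]
      simp [(x : ℚ).den_ne_zero]
    rw [h1]
    exact x.2
  set u : ↥(GaloisRep.ratLocalizedAt ℓ) := ⟨_, hu_mem⟩ with hu
  have hxd : x * d = n := by
    apply Subtype.ext
    simp only [hd, hn, Subring.coe_mul, Subring.coe_natCast, Subring.coe_intCast]
    exact Rat.mul_den_eq_num _
  have hdu : d * u = 1 := by
    apply Subtype.ext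
    simp only [hd, hu, Subring.coe_mul, Subring.coe_natCast, Subring.coe_one]
    exact mul_inv_cancel₀ hden0
  have hfd : f d = g d := by rw [hd, map_natCast, map_natCast]
  have hfn : f n = g n := by rw [hn, map_intCast, map_intCast]
  have hfu : f u = g u := by
    have h1 : f d * f u = 1 := by rw [← map_mul, hdu, map_one]
    have h2 : g d * g u = 1 := by rw [← map_mul, hdu, map_one]
    have h3 : f u * f d = 1 := by rw [← map_mul, mul_comm, hdu, map_one]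
    calc f u = f u * (g d * g u) := by rw [h2, mul_one]
      _ = (f u * f d) * g u := by rw [hfd, mul_assoc]
      _ = g u := by rw [h3, one_mul]
  have hx : x = n * u := by
    calc x = x * (d * u) := by rw [hdu, mul_one]
      _ = (x * d) * u := by rw [mul_assoc]
      _ = n * u := by rw [hxd]
  rw [hx, map_mul, map_mul, hfn, hfu]

end Uniq

section Tens

variable (ℓ : ℕ) [Fact ℓ.Prime]
variable (B : Type*) [CommRing B] [Algebra ↥(GaloisRep.ratLocalizedAt ℓ) B]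
variable (K : Type*) [Field K] [CharP K ℓ] [Algebra ↥(GaloisRep.ratLocalizedAt ℓ) K]

/-- `ZMod ℓ → K`. -/
noncomputable def h6_iota : ZMod ℓ →+* K := ZMod.castHom (dvd_refl ℓ) K

/-- `b ↦ ρ(b)^K`, as a `ℤ_(ℓ)`-algebra homomorphism. -/
noncomputable def h6_left (ρ : B →+* LaurentSeries (ZMod ℓ)) :
    B →ₐ[↥(GaloisRep.ratLocalizedAt ℓ)] LaurentSeries K :=
  { (coeffMap (h6_iota ℓ K)).comp ρ with
    commutes' := fun a => by
      have h := h6_ratLocalizedAt_hom_ext ℓ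
        (((coeffMap (h6_iota ℓ K)).comp ρ).comp (algebraMap ↥(GaloisRep.ratLocalizedAt ℓ) B))
        (algebraMap ↥(GaloisRep.ratLocalizedAt ℓ) (LaurentSeries K))
      exact congrArg (fun φ => φ a) h }

lemma h6_left_apply (ρ : B →+* LaurentSeries (ZMod ℓ)) (b : B) :
    h6_left ℓ B K ρ b = coeffMap (h6_iota ℓ K) (ρ b) := rfl

/-- constants, as a `ℤ_(ℓ)`-algebra homomorphism. -/
noncomputable def h6_right : K →ₐ[↥(GaloisRep.ratLocalizedAt ℓ)] LaurentSeries K :=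
  { (HahnSeries.C : K →+* LaurentSeries K) with
    commutes' := fun a => by
      have h := h6_ratLocalizedAt_hom_ext ℓ
        ((HahnSeries.C : K →+* LaurentSeries K).comp (algebraMap ↥(GaloisRep.ratLocalizedAt ℓ) K))
        (algebraMap ↥(GaloisRep.ratLocalizedAt ℓ) (LaurentSeries K))
      exact congrArg (fun φ => φ a) h }

lemma h6_right_apply (c : K) : h6_right ℓ K c = HahnSeries.C c := rfl

/-- The comparison map `B ⊗ K → K((q))`. -/
noncomputable def h6_Phi (ρ : B →+* LaurentSeries (ZMod ℓ)) :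
    B ⊗[↥(GaloisRep.ratLocalizedAt ℓ)] K →ₐ[↥(GaloisRep.ratLocalizedAt ℓ)] LaurentSeries K :=
  Algebra.TensorProduct.productMap (h6_left ℓ B K ρ) (h6_right ℓ K)

lemma h6_Phi_tmul (ρ : B →+* LaurentSeries (ZMod ℓ)) (b : B) (c : K) :
    h6_Phi ℓ B K ρ (b ⊗ₜ c) = coeffMap (h6_iota ℓ K) (ρ b) * HahnSeries.C c := by
  rw [h6_Phi, Algebra.TensorProduct.productMap_apply_tmul, h6_left_apply, h6_right_apply]

lemma h6_Phi_tmul_coeff (ρ : B →+* LaurentSeries (ZMod ℓ)) (b : B) (c : K) (n : ℤ) :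
    (h6_Phi ℓ B K ρ (b ⊗ₜ c)).coeff n = h6_iota ℓ K ((ρ b).coeff n) * c := by
  rw [h6_Phi_tmul]
  show (coeffMap (h6_iota ℓ K) (ρ b) * HahnSeries.single 0 c).coeff n = _
  rw [HahnSeries.coeff_mul_single_zero, coeffMap_coeff]

/-- `ℓ` acts as zero on `K`. -/
lemma h6_tmul_ell_mul (y : B) (c : K) :
    (((ℓ : B) * y) ⊗ₜ[↥(GaloisRep.ratLocalizedAt ℓ)] c) = 0 := by
  have h1 : ((ℓ : B) * y) = ((ℓ : ↥(GaloisRep.ratLocalizedAt ℓ))) • y := by
    rw [Algebra.smul_def, map_natCast]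
  have h2 : ((ℓ : ↥(GaloisRep.ratLocalizedAt ℓ))) • c = 0 := by
    rw [Algebra.smul_def, map_natCast, CharP.cast_eq_zero, zero_mul]
  rw [h1, TensorProduct.smul_tmul, h2, TensorProduct.tmul_zero]

lemma h6_tmul_natCast (b : B) (c : K) (m : ℕ) :
    (b ⊗ₜ[↥(GaloisRep.ratLocalizedAt ℓ)] ((m : K) * c)) = ((m : B) * b) ⊗ₜ c := by
  have h1 : ((m : B) * b) = ((m : ↥(GaloisRep.ratLocalizedAt ℓ))) • b := by
    rw [Algebra.smul_def, map_natCast]
  have h2 : ((m : K) * c) = ((m : ↥(GaloisRep.ratLocalizedAt ℓ))) • c := by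
    rw [Algebra.smul_def, map_natCast]
  rw [h1, h2, TensorProduct.smul_tmul]

lemma h6_iota_eq (r : ZMod ℓ) : h6_iota ℓ K r = ((r.val : ℕ) : K) := by
  rw [h6_iota, ZMod.castHom_apply, ZMod.natCast_val]

variable {ι : Type*} (e : ι → K)

/-- `c ↦ Σ c_i ⊗ e_i`. -/
noncomputable def h6_Psi : (ι →₀ B) →+ B ⊗[↥(GaloisRep.ratLocalizedAt ℓ)] K :=
  Finsupp.liftAddHom
    (fun i => ((TensorProduct.mk ↥(GaloisRep.ratLocalizedAt ℓ) B K).flip (e i)).toAddMonoidHom)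

lemma h6_Psi_single (i : ι) (b : B) :
    h6_Psi ℓ B K e (Finsupp.single i b) = b ⊗ₜ e i := by
  rw [h6_Psi, Finsupp.liftAddHom_apply_single]
  rfl

lemma h6_Psi_apply (c : ι →₀ B) :
    h6_Psi ℓ B K e c = ∑ i ∈ c.support, (c i) ⊗ₜ[↥(GaloisRep.ratLocalizedAt ℓ)] e i := by
  rw [h6_Psi, Finsupp.liftAddHom_apply, Finsupp.sum]
  rfl

lemma h6_Psi_surjective
    (hspan : ∀ c : K, ∃ (s : Finset ι) (r : ι → ZMod ℓ), c = ∑ i ∈ s, h6_iota ℓ K (r i) * e i) :
    Function.Surjective (h6_Psi ℓ B K e) := by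
  intro x
  induction x using TensorProduct.induction_on with
  | zero => exact ⟨0, map_zero _⟩
  | tmul b c =>
    obtain ⟨s, r, hc⟩ := hspan c
    refine ⟨∑ i ∈ s, Finsupp.single i ((((r i).val : ℕ) : B) * b), ?_⟩
    rw [map_sum, hc, TensorProduct.tmul_sum]
    refine Finset.sum_congr rfl fun i _ => ?_
    rw [h6_Psi_single, h6_iota_eq, h6_tmul_natCast]
  | add x y hx hy =>
    obtain ⟨cx, hcx⟩ := hx
    obtain ⟨cy, hcy⟩ := hy
    exact ⟨cx + cy, by rw [map_add, hcx, hcy]⟩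

lemma h6_Phi_Psi_coeff (ρ : B →+* LaurentSeries (ZMod ℓ)) (c : ι →₀ B) (n : ℤ) :
    (h6_Phi ℓ B K ρ (h6_Psi ℓ B K e c)).coeff n =
      ∑ i ∈ c.support, h6_iota ℓ K ((ρ (c i)).coeff n) * e i := by
  rw [h6_Psi_apply, map_sum, HahnSeries.coeff_sum]
  refine Finset.sum_congr rfl fun i _ => ?_
  rw [h6_Phi_tmul_coeff]

/-- The comparison map is injective. -/
theorem h6_Phi_injective (ρ : B →+* LaurentSeries (ZMod ℓ))
    (hρ : ∀ x : B, ρ x = 0 → ∃ y : B, x = (ℓ : B) * y)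
    (hspan : ∀ c : K, ∃ (s : Finset ι) (r : ι → ZMod ℓ), c = ∑ i ∈ s, h6_iota ℓ K (r i) * e i)
    (hindep : ∀ (s : Finset ι) (r : ι → ZMod ℓ),
      ∑ i ∈ s, h6_iota ℓ K (r i) * e i = 0 → ∀ i ∈ s, r i = 0) :
    Function.Injective (h6_Phi ℓ B K ρ) := by
  rw [injective_iff_map_eq_zero]
  intro x hx
  obtain ⟨c, rfl⟩ := h6_Psi_surjective ℓ B K e hspan x
  rw [h6_Psi_apply]
  refine Finset.sum_eq_zero fun i hi => ?_
  have hρi : ρ (c i) = 0 := by
    ext n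
    have h1 := h6_Phi_Psi_coeff ℓ B K e ρ c n
    rw [hx, HahnSeries.coeff_zero] at h1
    exact hindep c.support (fun j => (ρ (c j)).coeff n) h1.symm i hi
  obtain ⟨y, hy⟩ := hρ (c i) hρi
  rw [hy, h6_tmul_ell_mul]

end Tens

section Main

variable (ℓ : ℕ) [Fact ℓ.Prime]
variable (B : Type*) [CommRing B] [Algebra ↥(GaloisRep.ratLocalizedAt ℓ) B]
variable (K : Type*) [Field K] [CharP K ℓ] [Algebra ↥(GaloisRep.ratLocalizedAt ℓ) K]

/-- The comparison map `B ⊗ K → K((q))` is injective if `ker ρ ⊆ ℓ B`. -/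
theorem h6_Phi_injective_of_ker (ρ : B →+* LaurentSeries (ZMod ℓ))
    (hρ : ∀ x : B, ρ x = 0 → ∃ y : B, x = (ℓ : B) * y) :
    Function.Injective (h6_Phi ℓ B K ρ) := by
  classical
  letI : Algebra (ZMod ℓ) K := (h6_iota ℓ K).toAlgebra
  let 𝔟 := Module.Free.chooseBasis (ZMod ℓ) K
  have hsmul : ∀ (r : ZMod ℓ) (c : K), r • c = h6_iota ℓ K r * c := fun r c => by
    rw [Algebra.smul_def]; rfl
  refine h6_Phi_injective ℓ B K (fun i => 𝔟 i) ρ hρ ?_ ?_
  · intro c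
    refine ⟨(𝔟.repr c).support, fun i => 𝔟.repr c i, ?_⟩
    conv_lhs => rw [← 𝔟.linearCombination_repr c]
    rw [Finsupp.linearCombination_apply, Finsupp.sum]
    exact Finset.sum_congr rfl fun i _ => hsmul _ _
  · intro s r h i hi
    have h' : ∑ j ∈ s, r j • 𝔟 j = 0 := by
      rw [← h]
      exact Finset.sum_congr rfl fun j _ => hsmul _ _
    exact linearIndependent_iff'.mp 𝔟.linearIndependent s r h' i hi

/-- **[TENS]** `B ⊗[ℤ_(ℓ)] K` is a domain if `B` has a ring homomorphism to `k((q))` with kernel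
contained in `ℓ B`. -/
theorem isDomain_tensor_of_ker (ρ : B →+* LaurentSeries (ZMod ℓ))
    (hρ : ∀ x : B, ρ x = 0 → ∃ y : B, x = (ℓ : B) * y) :
    IsDomain (B ⊗[↥(GaloisRep.ratLocalizedAt ℓ)] K) :=
  (h6_Phi_injective_of_ker ℓ B K ρ hρ).isDomain (h6_Phi ℓ B K ρ)

/-- Variant with the kernel as an ideal. -/
theorem isDomain_tensor_of_ker_le (ρ : B →+* LaurentSeries (ZMod ℓ))
    (hρ : RingHom.ker ρ ≤ Ideal.span {(ℓ : B)}) :
    IsDomain (B ⊗[↥(GaloisRep.ratLocalizedAt ℓ)] K) :=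
  isDomain_tensor_of_ker ℓ B K ρ fun x hx => by
    have := hρ ((RingHom.mem_ker).mpr hx)
    obtain ⟨y, hy⟩ := Ideal.mem_span_singleton'.mp this
    exact ⟨y, by rw [← hy, mul_comm]⟩

/-- Variant: `Nontrivial`. -/
theorem nontrivial_tensor_of_ker (ρ : B →+* LaurentSeries (ZMod ℓ))
    (hρ : ∀ x : B, ρ x = 0 → ∃ y : B, x = (ℓ : B) * y) :
    Nontrivial (B ⊗[↥(GaloisRep.ratLocalizedAt ℓ)] K) :=
  haveI := isDomain_tensor_of_ker ℓ B K ρ hρ
  inferInstance

end Main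

end Fermat.Agent.S28.Alg
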