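import Mathlib
import Fermat.Agent.S28.Alg.H1_Leaves
import Fermat.Agent.S28.Alg.H6_RedQ
import Fermat.Agent.S28.Alg.H6_Tens

/-!
# S28, package ALG, leaf [QB-FIN] (helper6)

For helper1's canonical definitions (`Alg.OW`, `Alg.CW`, ...):

* `OW_eq_OWQ : Alg.OW ℓ = RedQ.OWQ ℓ` (bridge to the abstract layer `RedAbs.RedData`);
* `stChartLe_fin / _inf / _mid : StChartLe N ℓ S` for the three charts;
* `stQEPBofSat : StQEPBofSat N ℓ S`;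
* `stSat_mid : StSat N ℓ {j} → StSat N ℓ {j, j⁻¹}`;
* `stQEP_of_sat : (StSat for {j} and {j⁻¹}) → Asm.StQEP`.
-/

set_option autoImplicit false
set_option linter.unusedSectionVars false
set_option linter.unusedVariables false

open ModularCurve ModularCurve.IgusaScheme

noncomputable section

namespace Fermat.Agent.S28.Alg.H6

open Fermat.Agent.S28.Asm Fermat.Agent.S28.Alg Fermat.Agent.S28.Alg.RedAbs

variable (ℓ : ℕ) [Fact ℓ.Prime]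

/-! ### Bridge between helper1's definitions and `RedQ` -/

lemma resZl_eq : Alg.resZl ℓ = RedQ.resZl ℓ :=
  h6_ratLocalizedAt_hom_ext ℓ _ _

lemma iota_eq : Alg.iota ℓ = RedQ.iotaQ ℓ := rfl

lemma red_eq_coeffMap : Alg.red ℓ = coeffMap (RedQ.resZl ℓ) := by
  rw [Alg.red, resZl_eq]

lemma redQfun_iota (a : Alg.Lam ℓ) :
    RedQ.redQfun ℓ ⟨Alg.iota ℓ a, RedQ.iotaQ_mem_Lam ℓ a⟩ = Alg.red ℓ a := by
  rw [red_eq_coeffMap]
  exact RedQ.redQfun_iotaQ ℓ a _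

/-- helper1's `O_W` is the `O_W` of the Gauss reduction datum `RedQ.redQ ℓ`. -/
theorem OW_eq_OWQ : Alg.OW ℓ = RedQ.OWQ ℓ := by
  ext x
  constructor
  · rintro ⟨a, b, hb, h⟩
    refine ⟨⟨Alg.iota ℓ a, RedQ.iotaQ_mem_Lam ℓ a⟩, ⟨Alg.iota ℓ b, RedQ.iotaQ_mem_Lam ℓ b⟩, ?_, h⟩
    intro h0
    exact hb ((redQfun_iota ℓ b).symm.trans h0)
  · rintro ⟨⟨_, a, rfl⟩, ⟨_, b, rfl⟩, hb, h⟩
    refine ⟨a, b, ?_, h⟩
    intro h0
    exact hb ((redQfun_iota ℓ b).trans h0)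

lemma mem_OW_iff_mem_OWQ {x : LaurentSeries ℚ} : x ∈ Alg.OW ℓ ↔ x ∈ RedQ.OWQ ℓ := by
  rw [OW_eq_OWQ]

/-- helper1's `ρ_W` is the `ρ_W` of the Gauss reduction datum `RedQ.redQ ℓ`. -/
theorem rhoW_eq_rhoQ (x : Alg.OW ℓ) :
    Alg.rhoW ℓ x = RedQ.rhoQ ℓ ⟨(x : LaurentSeries ℚ), (mem_OW_iff_mem_OWQ ℓ).mp x.2⟩ := by
  obtain ⟨a, b, hb, h⟩ := x.2
  rw [Alg.rhoW_eq ℓ x a b hb h]
  have hb' : (RedQ.redQ ℓ).red ⟨Alg.iota ℓ b, RedQ.iotaQ_mem_Lam ℓ b⟩ ≠ 0 := by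
    intro h0
    exact hb ((redQfun_iota ℓ b).symm.trans h0)
  have h2 := (RedQ.redQ ℓ).rhoW_eq ⟨(x : LaurentSeries ℚ), (mem_OW_iff_mem_OWQ ℓ).mp x.2⟩
    ⟨Alg.iota ℓ a, RedQ.iotaQ_mem_Lam ℓ a⟩ ⟨Alg.iota ℓ b, RedQ.iotaQ_mem_Lam ℓ b⟩ hb' h
  refine Eq.trans ?_ h2.symm
  congr 1
  · exact (redQfun_iota ℓ a).symm
  · exact (redQfun_iota ℓ b).symm

/-! ### [QB-IN] the charts lie in `C = F_N ∩ O_W` -/

variable (N : ℕ) [NeZero N]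

theorem stChartLe_of (S : Set (FN N)) (hS : ∀ s ∈ S, (s : LaurentSeries ℚ) ∈ Alg.OW ℓ) :
    StChartLe N ℓ S := by
  intro x hx
  rw [mem_CW_iff, mem_OW_iff_mem_OWQ]
  exact RedQ.chartAlg_le_OWQ ℓ N S (fun s hs => (mem_OW_iff_mem_OWQ ℓ).mp (hS s hs)) hx

theorem stChartLe_fin : StChartLe N ℓ {jFull N} :=
  stChartLe_of ℓ N _ (fun s hs => (mem_OW_iff_mem_OWQ ℓ).mpr (RedQ.sFin_le_OWQ ℓ N s hs))

theorem stChartLe_inf : StChartLe N ℓ {(jFull N)⁻¹} :=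
  stChartLe_of ℓ N _ (fun s hs => (mem_OW_iff_mem_OWQ ℓ).mpr (RedQ.sInf_le_OWQ ℓ N s hs))

theorem stChartLe_mid : StChartLe N ℓ {jFull N, (jFull N)⁻¹} :=
  stChartLe_of ℓ N _ (fun s hs => (mem_OW_iff_mem_OWQ ℓ).mpr (RedQ.sMid_le_OWQ ℓ N s hs))

/-! ### [QB-FIN] `QEP_B` from saturation -/

/-- `QEP_B` for `S` from `B_S ⊆ C` and saturation. -/
theorem stQEPB_of_sat (S : Set (FN N)) (hle : StChartLe N ℓ S) (hsat : StSat N ℓ S) :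
    StQEPB N ℓ S := by
  apply RedQ.stQEPB_of_div ℓ N S
  · intro s hs
    rw [← mem_OW_iff_mem_OWQ]
    exact hle s (subset_chartAlg N ℓ S hs)
  · intro y hly hy
    exact hsat y ((mem_OW_iff_mem_OWQ ℓ).mpr hy) hly

theorem stQEPBofSat (S : Set (FN N)) : StQEPBofSat N ℓ S :=
  fun _ hle hsat => stQEPB_of_sat ℓ N S hle hsat

/-! ### Saturation of the middle chart -/

/-- Saturation of the middle chart `{j, j⁻¹}` from saturation of the finite chart `{j}`. -/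
theorem stSat_mid (hfin : StSat N ℓ {jFull N}) : StSat N ℓ {jFull N, (jFull N)⁻¹} := by
  intro x hxC hlx
  have hlx' : ((ℓ : ℕ) : FN N) * x ∈ chartAlg N ℓ (insert (jFull N)⁻¹ {jFull N}) := by
    rw [show insert (jFull N)⁻¹ ({jFull N} : Set (FN N)) = {jFull N, (jFull N)⁻¹}
      from Set.pair_comm _ _]
    exact hlx
  obtain ⟨n, hn⟩ := exists_pow_mul_mem_chartAlg (Set.mem_singleton _) (jFull_ne_zero N) hlx'
  have hjC : jFull N ∈ CW N ℓ := stChartLe_fin ℓ N _ (subset_chartAlg N ℓ _ rfl)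
  have h1 : (jFull N) ^ n * x ∈ CW N ℓ := (CW N ℓ).mul_mem ((CW N ℓ).pow_mem hjC n) hxC
  have h2 : ((ℓ : ℕ) : FN N) * ((jFull N) ^ n * x) ∈ chartAlg N ℓ {jFull N} := by
    have : ((ℓ : ℕ) : FN N) * ((jFull N) ^ n * x) = (jFull N) ^ n * (((ℓ : ℕ) : FN N) * x) := by
      ring
    rw [this]
    exact hn
  have h3 : (jFull N) ^ n * x ∈ chartAlg N ℓ {jFull N} := hfin _ h1 h2
  have h4 : (jFull N) ^ n * x ∈ chartAlg N ℓ {jFull N, (jFull N)⁻¹} :=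
    chartAlg_mono N ℓ (sFin_subset N) h3
  have h5 : (jFull N)⁻¹ ∈ chartAlg N ℓ {jFull N, (jFull N)⁻¹} :=
    subset_chartAlg N ℓ _ (Set.mem_insert_of_mem _ rfl)
  have h6 : x = ((jFull N)⁻¹) ^ n * ((jFull N) ^ n * x) := by
    rw [← mul_assoc, ← mul_pow, inv_mul_cancel₀ (jFull_ne_zero N), one_pow, one_mul]
  rw [h6]
  exact mul_mem (pow_mem h5 n) h4

/-! ### The final assembly of `StQEP` -/

/-- **`StQEP` from the saturation of the two charts `{j}` and `{j⁻¹}`.** -/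
theorem stQEP_of_sat
    (hfin : ∀ (N : ℕ) [NeZero N] (ℓ : ℕ) [Fact ℓ.Prime],
      StDEG0 N → StDEG N ℓ → StSat N ℓ {jFull N})
    (hinf : ∀ (N : ℕ) [NeZero N] (ℓ : ℕ) [Fact ℓ.Prime],
      StDEG0 N → StDEG N ℓ → StSat N ℓ {(jFull N)⁻¹}) :
    Asm.StQEP := by
  intro N _ ℓ _ h0 h1
  refine ⟨?_, ?_, ?_⟩
  · exact stQEPB_of_sat ℓ N _ (stChartLe_fin ℓ N) (hfin N ℓ h0 h1)
  · exact stQEPB_of_sat ℓ N _ (stChartLe_inf ℓ N) (hinf N ℓ h0 h1)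
  · exact stQEPB_of_sat ℓ N _ (stChartLe_mid ℓ N) (stSat_mid ℓ N (hfin N ℓ h0 h1))

end Fermat.Agent.S28.Alg.H6
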