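import Mathlib

/-!
# S28 / ALG (helper15): the abstract descent step of QEP_B

`R` an integrally closed domain, `l` a prime element of `R`, `q ∈ R` not divisible by `l`,
`S` a torsion-free `R`-algebra which is a domain. If `l • y` and `q • y` are integral over `R`,
then `y` is integral over `R`.
-/

set_option autoImplicit false

open Polynomial

namespace Fermat.Agent.S28.Alg.H15

section Core

variable {R S : Type*} [CommRing R] [IsDomain R] [IsIntegrallyClosed R] [CommRing S] [IsDomain S]
  [Algebra R S] [Module.IsTorsionFree R S]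

omit [IsDomain R] [IsIntegrallyClosed R] [Algebra R S] [Module.IsTorsionFree R S] in
theorem h15_eq_zero_of_pow_eq_zero {a : S} {n : ℕ} (h : a ^ n = 0) : a = 0 := by
  induction n with
  | zero => simp at h
  | succ k ih =>
    rw [pow_succ] at h
    rcases mul_eq_zero.mp h with h | h
    · exact ih h
    · exact h

/-- **Descent**: if `l • y` and `q • y` are integral over the integrally closed domain `R`,
`l` prime and `l ∤ q`, then `y` is integral over `R`. -/
theorem h15_descent_core {l q : R} (hl : Prime l) (hq : ¬ l ∣ q) (y : S)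
    (hx : IsIntegral R (l • y)) (hz : IsIntegral R (q • y)) : IsIntegral R y := by
  classical
  have hq0 : q ≠ 0 := fun h => hq (h ▸ dvd_zero l)
  have hl0 : l ≠ 0 := hl.ne_zero
  have h1 : minpoly R (q • (l • y)) = (minpoly R (l • y)).scaleRoots q :=
    IsIntegrallyClosed.minpoly_smul hq0 hx
  have h2 : minpoly R (l • (q • y)) = (minpoly R (q • y)).scaleRoots l :=
    IsIntegrallyClosed.minpoly_smul hl0 hz
  have h3 : q • (l • y) = l • (q • y) := smul_comm q l y
  rw [h3, h2] at h1
  set Px := minpoly R (l • y) with hPx
  set Pz := minpoly R (q • y) with hPz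
  have hmx : Px.Monic := minpoly.monic hx
  have hd : Pz.natDegree = Px.natDegree := by
    have := congrArg natDegree h1
    rwa [natDegree_scaleRoots, natDegree_scaleRoots] at this
  set d := Px.natDegree with hdd
  have hcoeff : ∀ i, Pz.coeff i * l ^ (d - i) = Px.coeff i * q ^ (d - i) := by
    intro i
    have := congrArg (fun P => coeff P i) h1
    simp only [coeff_scaleRoots] at this
    rw [hd] at this
    exact this
  have hdvd : ∀ i, l ^ (d - i) ∣ Px.coeff i := by
    intro i
    refine hl.pow_dvd_of_dvd_mul_right (b := q ^ (d - i)) (d - i)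
      (fun h => hq (hl.dvd_of_dvd_pow h)) ?_
    exact ⟨Pz.coeff i, by rw [← hcoeff i, mul_comm]⟩
  choose c hc using hdvd
  -- the candidate polynomial
  set Q : R[X] := ∑ i ∈ Finset.range (d + 1), monomial i (c i) with hQ
  have hQcoeff : ∀ i, Q.coeff i = if i ≤ d then c i else 0 := by
    intro i
    rw [hQ, finsetSum_coeff]
    simp only [coeff_monomial]
    rw [Finset.sum_ite_eq' (Finset.range (d + 1)) i (fun k => c k)]
    simp only [Finset.mem_range, Nat.lt_succ_iff]
  have hcd : c d = 1 := by
    have := hc d
    rw [Nat.sub_self, pow_zero, one_mul] at this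
    rw [← this]
    exact hmx.coeff_natDegree
  have hQdeg : Q.natDegree = d := by
    apply le_antisymm
    · rw [natDegree_le_iff_coeff_eq_zero]
      intro i hi
      rw [hQcoeff, if_neg (not_le.mpr hi)]
    · apply le_natDegree_of_ne_zero
      rw [hQcoeff, if_pos le_rfl, hcd]
      exact one_ne_zero
  have hQmonic : Q.Monic := by
    rw [Monic, leadingCoeff, hQdeg, hQcoeff, if_pos le_rfl, hcd]
  have hscale : Q.scaleRoots l = Px := by
    ext i
    rw [coeff_scaleRoots, hQdeg, hQcoeff]
    by_cases hi : i ≤ d
    · rw [if_pos hi, hc i, mul_comm]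
    · rw [if_neg hi, zero_mul]
      exact (coeff_eq_zero_of_natDegree_lt (not_le.mp hi)).symm
  have hroot : aeval (l • y) Px = 0 := minpoly.aeval R (l • y)
  rw [← hscale, aeval_def, Algebra.smul_def, scaleRoots_eval₂_mul, ← aeval_def] at hroot
  have hl' : algebraMap R S l ≠ 0 := by
    rw [Ne, map_eq_zero_iff _ (FaithfulSMul.algebraMap_injective R S)]
    exact hl0
  have hQroot : aeval y Q = 0 := by
    rcases mul_eq_zero.mp hroot with h | h
    · exact absurd (h15_eq_zero_of_pow_eq_zero h) hl'
    · exact h
  exact ⟨Q, hQmonic, by rw [← aeval_def]; exact hQroot⟩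

end Core

end Fermat.Agent.S28.Alg.H15
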