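import Mathlib
import Fermat.Prelude.Def_GaloisRep_Flat

/-!
# S28 / ALG supply (helper15): arithmetic of `Z_(ℓ) = GaloisRep.ratLocalizedAt ℓ`

* `h15_isLocalization` : `Z_(ℓ)` is the localisation of `ℤ` at the prime `(ℓ)`;
* `h15_isPrincipalIdealRing`, `h15_isDVR`;
* `h15_prime_ell` : `ℓ` is a prime element of `Z_(ℓ)`;
* `h15_isIntegrallyClosed_poly` : `Z_(ℓ)[X]` is integrally closed;
* `h15_prime_C_ell` : `C ℓ` is a prime element of `Z_(ℓ)[X]`.
-/

set_option autoImplicit false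

open Polynomial

namespace Fermat.Agent.S28.Alg.H15

variable (ℓ : ℕ) [hℓ : Fact ℓ.Prime]

omit hℓ in
/-- membership in `Z_(ℓ)`. -/
theorem h15_mem_iff (q : ℚ) : q ∈ GaloisRep.ratLocalizedAt ℓ ↔ q.den.Coprime ℓ := Iff.rfl

omit hℓ in
theorem h15_intCast_mem (n : ℤ) : (n : ℚ) ∈ GaloisRep.ratLocalizedAt ℓ :=
  intCast_mem _ n

/-- the inverse of an integer prime to `ℓ` lies in `Z_(ℓ)`. -/
theorem h15_inv_mem {m : ℤ} (hm : ¬ (ℓ : ℤ) ∣ m) : ((m : ℚ))⁻¹ ∈ GaloisRep.ratLocalizedAt ℓ := by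
  rw [h15_mem_iff]
  have hm0 : m ≠ 0 := by rintro rfl; exact hm (dvd_zero _)
  have hden : ((m : ℚ)⁻¹).den = m.natAbs := by
    rw [Rat.inv_intCast_den, if_neg hm0]
  rw [hden]
  have hp : Nat.Prime ℓ := hℓ.out
  rw [Nat.coprime_comm, hp.coprime_iff_not_dvd]
  intro h
  exact hm (Int.natCast_dvd.mpr h)

theorem h15_span_isPrime : (Ideal.span {(ℓ : ℤ)}).IsPrime := by
  rw [Ideal.span_singleton_prime (by exact_mod_cast hℓ.out.ne_zero)]
  exact Nat.prime_iff_prime_int.mp hℓ.out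

theorem h15_mem_primeCompl {m : ℤ} :
    haveI := h15_span_isPrime ℓ
    m ∈ (Ideal.span {(ℓ : ℤ)}).primeCompl ↔ ¬ (ℓ : ℤ) ∣ m := by
  have := h15_span_isPrime ℓ
  rw [Ideal.primeCompl, Submonoid.mem_mk, Subsemigroup.mem_mk, Set.mem_compl_iff,
    SetLike.mem_coe, Ideal.mem_span_singleton]

/-- `Z_(ℓ)` is the localisation of `ℤ` at the prime ideal `(ℓ)`. -/
theorem h15_isLocalization :
    haveI := h15_span_isPrime ℓ
    IsLocalization.AtPrime (↥(GaloisRep.ratLocalizedAt ℓ)) (Ideal.span {(ℓ : ℤ)}) := by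
  have := h15_span_isPrime ℓ
  refine (isLocalization_iff _ _).mpr ⟨?_, ?_, ?_⟩
  · rintro ⟨m, hm⟩
    have hm' : ¬ (ℓ : ℤ) ∣ m := (h15_mem_primeCompl ℓ).mp hm
    have hm0 : (m : ℚ) ≠ 0 := by
      intro h
      have : m = 0 := by exact_mod_cast h
      exact hm' (this ▸ dvd_zero _)
    refine IsUnit.of_mul_eq_one ⟨((m : ℚ))⁻¹, h15_inv_mem ℓ hm'⟩ (Subtype.ext ?_)
    simp only [eq_intCast, Subring.coe_mul, Subring.coe_intCast, Subring.coe_one]
    exact mul_inv_cancel₀ hm0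
  · rintro ⟨q, hq⟩
    have hden : ¬ (ℓ : ℤ) ∣ (q.den : ℤ) := by
      intro h
      have h' : ℓ ∣ q.den := by exact_mod_cast h
      have hp : Nat.Prime ℓ := hℓ.out
      have hc : q.den.Coprime ℓ := hq
      rw [Nat.coprime_comm, hp.coprime_iff_not_dvd] at hc
      exact hc h'
    refine ⟨(q.num, ⟨(q.den : ℤ), (h15_mem_primeCompl ℓ).mpr hden⟩), Subtype.ext ?_⟩
    simp only [eq_intCast, Subring.coe_mul, Subring.coe_intCast, Int.cast_natCast]
    exact Rat.mul_den_eq_num q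
  · intro x y h
    refine ⟨1, ?_⟩
    have h' : ((x : ℤ) : ℚ) = (y : ℚ) := by
      have := congrArg Subtype.val h
      simpa using this
    have : x = y := by exact_mod_cast h'
    rw [this]

/-- `Z_(ℓ)` is a discrete valuation ring. -/
theorem h15_isDVR : IsDiscreteValuationRing (↥(GaloisRep.ratLocalizedAt ℓ)) := by
  have := h15_span_isPrime ℓ
  have := h15_isLocalization ℓ
  exact IsLocalization.AtPrime.isDiscreteValuationRing_of_dedekind_domain ℤ
    (P := Ideal.span {(ℓ : ℤ)})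
    (by
      rw [Ne, Ideal.span_singleton_eq_bot]
      exact_mod_cast hℓ.out.ne_zero) _

/-- `Z_(ℓ)` is a principal ideal ring. -/
theorem h15_isPrincipalIdealRing : IsPrincipalIdealRing (↥(GaloisRep.ratLocalizedAt ℓ)) := by
  have := h15_isDVR ℓ
  infer_instance

/-- `ℓ` is a prime element of `Z_(ℓ)`. -/
theorem h15_prime_ell : Prime ((ℓ : ℕ) : ↥(GaloisRep.ratLocalizedAt ℓ)) := by
  have h0 : ((ℓ : ℕ) : ↥(GaloisRep.ratLocalizedAt ℓ)) ≠ 0 := by
    intro h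
    have := congrArg Subtype.val h
    simp only [Subring.coe_natCast, Subring.coe_zero, Nat.cast_eq_zero] at this
    exact hℓ.out.ne_zero this
  rw [← Ideal.span_singleton_prime h0]
  have := h15_span_isPrime ℓ
  have := h15_isLocalization ℓ
  have := h15_isDVR ℓ
  have hmax : (Ideal.map (algebraMap ℤ (↥(GaloisRep.ratLocalizedAt ℓ))) (Ideal.span {(ℓ : ℤ)})).IsMaximal :=
    IsLocalization.AtPrime.isMaximal_map (Ideal.span {(ℓ : ℤ)}) _
  have hmap : Ideal.map (algebraMap ℤ (↥(GaloisRep.ratLocalizedAt ℓ))) (Ideal.span {(ℓ : ℤ)}) =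
      Ideal.span {((ℓ : ℕ) : ↥(GaloisRep.ratLocalizedAt ℓ))} := by
    rw [Ideal.map_span, Set.image_singleton]
    simp
  rw [← hmap]
  exact hmax.isPrime

/-- `C ℓ` is a prime element of `Z_(ℓ)[X]`. -/
theorem h15_prime_C_ell : Prime (C ((ℓ : ℕ) : ↥(GaloisRep.ratLocalizedAt ℓ))) :=
  Polynomial.prime_C_iff.mpr (h15_prime_ell ℓ)

/-- `Z_(ℓ)[X]` is integrally closed. -/
theorem h15_isIntegrallyClosed_poly :
    IsIntegrallyClosed (↥(GaloisRep.ratLocalizedAt ℓ))[X] := by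
  have := h15_isPrincipalIdealRing ℓ
  infer_instance

end Fermat.Agent.S28.Alg.H15
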