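import Mathlib
import Fermat.Prelude.Def_ModularCurve_IgusaScheme
import Fermat.Agent.S28.Alg.H15_Zl
import Fermat.Agent.S28.Alg.H15_DescentCore

/-!
# S28 / ALG (helper15): concrete descent step of QEP_B

`OvT ℓ t` is the localisation of `Z_(ℓ)[t]` at the prime `(ℓ)`, realised inside a field `F`.
`h15_descent_gen`: if `t` is transcendental over `Z_(ℓ)`, `y ∈ F` is integral over `OvT ℓ t`
and `ℓ * y` is integral over `Z_(ℓ)[t]`, then `y` is integral over `Z_(ℓ)[t]`.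
-/

set_option autoImplicit false

open Polynomial

namespace Fermat.Agent.S28.Alg.H15

section Generic

variable (ℓ : ℕ) [hℓ : Fact ℓ.Prime] {F : Type*} [Field F]
  [Algebra ↥(GaloisRep.ratLocalizedAt ℓ) F]

/-- `Z_(ℓ)[t]` localised at `(ℓ)`, inside `F`: fractions `P(t)/Q(t)` with `Q ∉ ℓ Z_(ℓ)[X]`. -/
def OvT (t : F) : Subalgebra ↥(GaloisRep.ratLocalizedAt ℓ) F where
  carrier := {x | ∃ P Q : (↥(GaloisRep.ratLocalizedAt ℓ))[X],
    ¬ (C ((ℓ : ℕ) : ↥(GaloisRep.ratLocalizedAt ℓ)) ∣ Q) ∧ x * aeval t Q = aeval t P}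
  mul_mem' := by
    rintro x x' ⟨P, Q, hQ, h⟩ ⟨P', Q', hQ', h'⟩
    refine ⟨P * P', Q * Q', ?_, ?_⟩
    · intro hd
      rcases (h15_prime_C_ell ℓ).dvd_or_dvd hd with hd | hd
      · exact hQ hd
      · exact hQ' hd
    · rw [map_mul, map_mul, ← h, ← h']; ring
  one_mem' := ⟨1, 1, (h15_prime_C_ell ℓ).not_dvd_one, by simp⟩
  add_mem' := by
    rintro x x' ⟨P, Q, hQ, h⟩ ⟨P', Q', hQ', h'⟩
    refine ⟨P * Q' + P' * Q, Q * Q', ?_, ?_⟩
    · intro hd
      rcases (h15_prime_C_ell ℓ).dvd_or_dvd hd with hd | hd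
      · exact hQ hd
      · exact hQ' hd
    · rw [map_add, map_mul, map_mul, map_mul, ← h, ← h']; ring
  zero_mem' := ⟨0, 1, (h15_prime_C_ell ℓ).not_dvd_one, by simp⟩
  algebraMap_mem' := fun r =>
    ⟨C r, 1, (h15_prime_C_ell ℓ).not_dvd_one, by simp⟩

theorem h15_mem_OvT {t x : F} : x ∈ OvT ℓ t ↔ ∃ P Q : (↥(GaloisRep.ratLocalizedAt ℓ))[X],
    ¬ (C ((ℓ : ℕ) : ↥(GaloisRep.ratLocalizedAt ℓ)) ∣ Q) ∧ x * aeval t Q = aeval t P := Iff.rfl

theorem h15_aeval_mem_OvT (t : F) (P : (↥(GaloisRep.ratLocalizedAt ℓ))[X]) :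
    aeval t P ∈ OvT ℓ t :=
  ⟨P, 1, (h15_prime_C_ell ℓ).not_dvd_one, by simp⟩

theorem h15_adjoin_le_OvT (t : F) :
    Algebra.adjoin ↥(GaloisRep.ratLocalizedAt ℓ) {t} ≤ OvT ℓ t := by
  intro x hx
  rw [Algebra.adjoin_singleton_eq_range_aeval] at hx
  obtain ⟨P, rfl⟩ := hx
  exact h15_aeval_mem_OvT ℓ t P

/-- clearing denominators: an element integral over `OvT ℓ t` becomes integral over `Z_(ℓ)[t]`
after multiplication by some `Q(t)` with `Q ∉ ℓ Z_(ℓ)[X]`. -/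
theorem h15_exists_isIntegral_mul (t : F) {y : F} (hy : IsIntegral (OvT ℓ t) y) :
    ∃ Q : (↥(GaloisRep.ratLocalizedAt ℓ))[X],
      ¬ (C ((ℓ : ℕ) : ↥(GaloisRep.ratLocalizedAt ℓ)) ∣ Q) ∧
      IsIntegral (Algebra.adjoin ↥(GaloisRep.ratLocalizedAt ℓ) {t}) (aeval t Q * y) := by
  classical
  obtain ⟨G, hmonic, hroot⟩ := hy
  have hcoeff : ∀ i, ∃ P Q : (↥(GaloisRep.ratLocalizedAt ℓ))[X],
      ¬ (C ((ℓ : ℕ) : ↥(GaloisRep.ratLocalizedAt ℓ)) ∣ Q) ∧
        (G.coeff i : F) * aeval t Q = aeval t P := fun i => (G.coeff i).2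
  choose P Q hQ hPQ using hcoeff
  set d := G.natDegree with hd
  set Qt : (↥(GaloisRep.ratLocalizedAt ℓ))[X] := ∏ i ∈ Finset.range d, Q i with hQt
  have hQt_ndvd : ¬ (C ((ℓ : ℕ) : ↥(GaloisRep.ratLocalizedAt ℓ)) ∣ Qt) := by
    intro h
    obtain ⟨i, -, hi⟩ := (Prime.dvd_finsetProd_iff (h15_prime_C_ell ℓ) _).mp h
    exact hQ i hi
  set s : F := aeval t Qt with hs
  have hsA : s ∈ Algebra.adjoin ↥(GaloisRep.ratLocalizedAt ℓ) {t} := by
    rw [Algebra.adjoin_singleton_eq_range_aeval]; exact ⟨Qt, rfl⟩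
  have hcs : ∀ i, i < d → (G.coeff i : F) * s ∈
      Algebra.adjoin ↥(GaloisRep.ratLocalizedAt ℓ) {t} := by
    intro i hi
    have hi' : i ∈ Finset.range d := Finset.mem_range.mpr hi
    have hsplit : Qt = Q i * ∏ k ∈ (Finset.range d).erase i, Q k := by
      rw [hQt, Finset.mul_prod_erase _ _ hi']
    rw [hs, hsplit, map_mul, ← mul_assoc, hPQ i, ← map_mul]
    rw [Algebra.adjoin_singleton_eq_range_aeval]
    exact ⟨_, rfl⟩
  refine ⟨Qt, hQt_ndvd, ?_⟩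
  set q : F[X] := (G.map (algebraMap (OvT ℓ t) F)).scaleRoots s with hq
  have hqmonic : q.Monic := (Polynomial.monic_scaleRoots_iff _).mpr (hmonic.map _)
  have hqroot : q.eval (s * y) = 0 := by
    rw [hq, Polynomial.scaleRoots_eval_mul, Polynomial.eval_map, hroot, mul_zero]
  have hqcoeff : ∀ i, q.coeff i ∈ Algebra.adjoin ↥(GaloisRep.ratLocalizedAt ℓ) {t} := by
    intro i
    rw [hq, Polynomial.coeff_scaleRoots, Polynomial.coeff_map, hmonic.natDegree_map]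
    by_cases hi : i < d
    · obtain ⟨k, hk⟩ : ∃ k, d - i = k + 1 := ⟨d - i - 1, by omega⟩
      rw [← hd, hk, pow_succ, ← mul_assoc, mul_comm _ s, ← mul_assoc, mul_comm s]
      exact mul_mem (hcs i hi) (pow_mem hsA k)
    · rcases (not_lt.mp hi).lt_or_eq with hlt | heq
      · rw [Polynomial.coeff_eq_zero_of_natDegree_lt hlt, map_zero, zero_mul]
        exact zero_mem _
      · rw [← heq, hd, hmonic.coeff_natDegree, map_one, one_mul, Nat.sub_self, pow_zero]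
        exact one_mem _
  have hlifts : q ∈ Polynomial.lifts
      (algebraMap (Algebra.adjoin ↥(GaloisRep.ratLocalizedAt ℓ) {t}) F) :=
    (Polynomial.lifts_iff_coeff_lifts q).mpr fun i => ⟨⟨q.coeff i, hqcoeff i⟩, rfl⟩
  obtain ⟨q', hq'q, -, hq'monic⟩ := Polynomial.lifts_and_natDegree_eq_and_monic hlifts hqmonic
  refine ⟨q', hq'monic, ?_⟩
  rw [Polynomial.eval₂_eq_eval_map, hq'q, hqroot]

/-- the isomorphism `Z_(ℓ)[X] ≃ Z_(ℓ)[t]` for `t` transcendental. -/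
noncomputable def h15_adjoinEquiv (t : F)
    (ht : Function.Injective (aeval t : (↥(GaloisRep.ratLocalizedAt ℓ))[X] → F)) :
    (↥(GaloisRep.ratLocalizedAt ℓ))[X] ≃ₐ[↥(GaloisRep.ratLocalizedAt ℓ)]
      ↥(Algebra.adjoin ↥(GaloisRep.ratLocalizedAt ℓ) {t}) :=
  AlgEquiv.ofBijective
    ((aeval t).codRestrict (Algebra.adjoin ↥(GaloisRep.ratLocalizedAt ℓ) {t})
      (fun P => by rw [Algebra.adjoin_singleton_eq_range_aeval]; exact ⟨P, rfl⟩))
    ⟨fun P P' h => ht (by simpa using congrArg Subtype.val h),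
     fun x => by
      have hx : (x : F) ∈ (aeval t : (↥(GaloisRep.ratLocalizedAt ℓ))[X] →ₐ[_] F).range := by
        rw [← Algebra.adjoin_singleton_eq_range_aeval]; exact x.2
      obtain ⟨P, hP⟩ := hx
      exact ⟨P, Subtype.ext hP⟩⟩

omit hℓ in
theorem h15_coe_adjoinEquiv (t : F)
    (ht : Function.Injective (aeval t : (↥(GaloisRep.ratLocalizedAt ℓ))[X] → F))
    (P : (↥(GaloisRep.ratLocalizedAt ℓ))[X]) :
    ((h15_adjoinEquiv ℓ t ht P : ↥(Algebra.adjoin ↥(GaloisRep.ratLocalizedAt ℓ) {t})) : F) =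
      aeval t P := rfl

/-- `Z_(ℓ)[t]` is integrally closed for `t` transcendental. -/
theorem h15_isIntegrallyClosed_adjoin (t : F)
    (ht : Function.Injective (aeval t : (↥(GaloisRep.ratLocalizedAt ℓ))[X] → F)) :
    IsIntegrallyClosed ↥(Algebra.adjoin ↥(GaloisRep.ratLocalizedAt ℓ) {t}) := by
  have := h15_isIntegrallyClosed_poly ℓ
  exact IsIntegrallyClosed.of_equiv (h15_adjoinEquiv ℓ t ht).toRingEquiv

/-- **Generic descent**: `t` transcendental over `Z_(ℓ)`, `y` integral over `OvT ℓ t` and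
`ℓ * y` integral over `Z_(ℓ)[t]` ⇒ `y` integral over `Z_(ℓ)[t]`. -/
theorem h15_descent_gen (t : F)
    (ht : Function.Injective (aeval t : (↥(GaloisRep.ratLocalizedAt ℓ))[X] → F)) {y : F}
    (hy : IsIntegral (OvT ℓ t) y)
    (hx : IsIntegral (Algebra.adjoin ↥(GaloisRep.ratLocalizedAt ℓ) {t})
      (algebraMap ↥(GaloisRep.ratLocalizedAt ℓ) F ((ℓ : ℕ) : ↥(GaloisRep.ratLocalizedAt ℓ)) * y)) :
    IsIntegral (Algebra.adjoin ↥(GaloisRep.ratLocalizedAt ℓ) {t}) y := by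
  have hic := h15_isIntegrallyClosed_adjoin ℓ t ht
  set e := h15_adjoinEquiv ℓ t ht with he
  obtain ⟨Q, hQ, hz⟩ := h15_exists_isIntegral_mul ℓ t hy
  have hl : Prime (e (C ((ℓ : ℕ) : ↥(GaloisRep.ratLocalizedAt ℓ)))) :=
    (MulEquiv.prime_iff e).mpr (h15_prime_C_ell ℓ)
  have hq : ¬ (e (C ((ℓ : ℕ) : ↥(GaloisRep.ratLocalizedAt ℓ))) ∣ e Q) := by
    rw [map_dvd_iff e]; exact hQ
  have hx' : IsIntegral (Algebra.adjoin ↥(GaloisRep.ratLocalizedAt ℓ) {t})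
      (e (C ((ℓ : ℕ) : ↥(GaloisRep.ratLocalizedAt ℓ))) • y) := by
    have : e (C ((ℓ : ℕ) : ↥(GaloisRep.ratLocalizedAt ℓ))) • y =
        algebraMap ↥(GaloisRep.ratLocalizedAt ℓ) F ((ℓ : ℕ) : ↥(GaloisRep.ratLocalizedAt ℓ)) * y := by
      rw [Algebra.smul_def, Subalgebra.algebraMap_def, h15_coe_adjoinEquiv, aeval_C]
      rfl
    rw [this]; exact hx
  have hz' : IsIntegral (Algebra.adjoin ↥(GaloisRep.ratLocalizedAt ℓ) {t}) (e Q • y) := by
    have : e Q • y = aeval t Q * y := by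
      rw [Algebra.smul_def, Subalgebra.algebraMap_def, h15_coe_adjoinEquiv]
      rfl
    rw [this]; exact hz
  exact h15_descent_core hl hq y hx' hz'

/-- transcendence passes to the inverse. -/
theorem h15_injective_aeval_inv (t : F) (ht0 : t ≠ 0)
    (ht : Function.Injective (aeval t : (↥(GaloisRep.ratLocalizedAt ℓ))[X] → F)) :
    Function.Injective (aeval t⁻¹ : (↥(GaloisRep.ratLocalizedAt ℓ))[X] → F) := by
  rw [injective_iff_map_eq_zero]
  intro P hP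
  letI : Invertible t⁻¹ := invertibleOfNonzero (inv_ne_zero ht0)
  have hinv : ⅟(t⁻¹) = t := by rw [invOf_eq_inv, inv_inv]
  have h := eval₂_reflect_mul_pow (algebraMap ↥(GaloisRep.ratLocalizedAt ℓ) F) t⁻¹
    P.natDegree P le_rfl
  rw [hinv, ← aeval_def, ← aeval_def, hP] at h
  have h0 : aeval t (reflect P.natDegree P) = 0 := by
    rcases mul_eq_zero.mp h with h | h
    · exact h
    · exact absurd (h15_eq_zero_of_pow_eq_zero h) (inv_ne_zero ht0)
  have h1 : reflect P.natDegree P = 0 := ht (by rw [h0, map_zero])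
  exact (reflect_eq_zero_iff).mp h1

omit hℓ in
/-- divisibility by a constant is insensitive to `reflect`. -/
theorem h15_C_dvd_reflect_iff (r : ↥(GaloisRep.ratLocalizedAt ℓ)) (n : ℕ)
    (P : (↥(GaloisRep.ratLocalizedAt ℓ))[X]) : C r ∣ reflect n P ↔ C r ∣ P := by
  rw [C_dvd_iff_dvd_coeff, C_dvd_iff_dvd_coeff]
  constructor
  · intro h i
    have := h (revAt n i)
    rwa [coeff_reflect, revAt_invol] at this
  · intro h i
    rw [coeff_reflect]
    exact h _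

/-- `OvT ℓ t ≤ OvT ℓ t⁻¹`. -/
theorem h15_OvT_le_inv (t : F) (ht0 : t ≠ 0) : OvT ℓ t ≤ OvT ℓ t⁻¹ := by
  rintro x ⟨P, Q, hQ, h⟩
  set n := max P.natDegree Q.natDegree with hn
  letI : Invertible t := invertibleOfNonzero ht0
  have hinv : ⅟t = t⁻¹ := invOf_eq_inv t
  have hP := eval₂_reflect_mul_pow (algebraMap ↥(GaloisRep.ratLocalizedAt ℓ) F) t n
    P (le_max_left _ _)
  have hQ' := eval₂_reflect_mul_pow (algebraMap ↥(GaloisRep.ratLocalizedAt ℓ) F) t n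
    Q (le_max_right _ _)
  rw [hinv, ← aeval_def, ← aeval_def] at hP hQ'
  refine ⟨reflect n P, reflect n Q, ?_, ?_⟩
  · rw [h15_C_dvd_reflect_iff]; exact hQ
  · have htn : t ^ n ≠ 0 := pow_ne_zero n ht0
    apply mul_right_cancel₀ htn
    rw [mul_assoc, hQ', hP, h]

/-- `OvT ℓ t⁻¹ = OvT ℓ t`. -/
theorem h15_OvT_inv (t : F) (ht0 : t ≠ 0) : OvT ℓ t⁻¹ = OvT ℓ t := by
  apply le_antisymm
  · have := h15_OvT_le_inv ℓ t⁻¹ (inv_ne_zero ht0)
    rwa [inv_inv] at this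
  · exact h15_OvT_le_inv ℓ t ht0

end Generic

end Fermat.Agent.S28.Alg.H15
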