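import Fermat.Agent.S28.Alg.H5_Gauss
import Fermat.Agent.S28.Alg.H15_Descent

/-!
# S28 / ALG (helper15): [QB-CORE], the saturation statements `StSat`

`h15_stSat_fin : StBasis N ℓ → StDEG0 N → StDEG N ℓ → StSat N ℓ {jFull N}` and
`h15_stSat_inf : StBasis N ℓ → StDEG0 N → StDEG N ℓ → StSat N ℓ {(jFull N)⁻¹}`.

Route: by `StBasis` every `x ∈ C = F_N ∩ O_W` is integral over `O_v = OvT ℓ j`, the localisation
of `Z_(ℓ)[j]` at `(ℓ)` (Gauss inclusion `F_N ∩ O_W ∩ ℚ(j) ⊆ O_v`, from the content normal form);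
then the generic descent `h15_descent_gen` (`Z_(ℓ)[t]` is integrally closed and `ℓ` is prime
in it).
-/

set_option autoImplicit false
set_option linter.unusedSectionVars false
set_option linter.style.haveILetI false

open ModularCurve ModularCurve.IgusaScheme Polynomial

namespace Fermat.Agent.S28.Alg.H15

open Fermat.Agent.S28.Alg Fermat.Agent.S28.Asm Fermat.Agent.S28.Mod.PolyJ

variable (N : ℕ) [NeZero N] (ℓ : ℕ) [hℓ : Fact ℓ.Prime]

/-- the value of a polynomial at `jFull N`, as a Laurent series. -/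
theorem h15_coe_aeval_jFull (P : (Zl ℓ)[X]) :
    ((aeval (jFull N) P : FN N) : LaurentSeries ℚ) = iota ℓ (aeval (jqModC (Zl ℓ)) P) := by
  rw [H5.iota_aeval_jqModC]
  have h1 : ((aeval (jFull N) P : FN N) : LaurentSeries ℚ) =
      (algebraMap (FN N) (LaurentSeries ℚ)) (aeval (jFull N) P) := rfl
  rw [h1, aeval_def, Polynomial.hom_eval₂, aeval_def, Polynomial.eval₂_map]
  have hf : (algebraMap (FN N) (LaurentSeries ℚ)).comp (algebraMap (Zl ℓ) (FN N)) =
      (algebraMap ℚ (LaurentSeries ℚ)).comp (algebraMap (Zl ℓ) ℚ) := by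
    have h0 : (algebraMap (FN N) (LaurentSeries ℚ)).comp (algebraMap ℚ (FN N)) =
        algebraMap ℚ (LaurentSeries ℚ) := RingHom.ext_rat _ _
    rw [← h0]
    rfl
  rw [hf]
  rfl

theorem h15_natCast_eq : ((ℓ : ℕ) : FN N) =
    algebraMap (Zl ℓ) (FN N) ((ℓ : ℕ) : Zl ℓ) := by
  rw [map_natCast]

/-- `jFull N` is transcendental over `Z_(ℓ)`. -/
theorem h15_injective_aeval_jFull :
    Function.Injective (aeval (jFull N) : (Zl ℓ)[X] → FN N) := by
  rw [injective_iff_map_eq_zero]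
  intro P hP
  have h := h15_coe_aeval_jFull N ℓ P
  rw [hP] at h
  have h2 : iota ℓ (aeval (jqModC (Zl ℓ)) P) = 0 := by rw [← h]; rfl
  have h3 : aeval (jqModC (Zl ℓ)) P = 0 := iota_injective ℓ (by rw [h2, map_zero])
  exact eq_zero_of_aeval_jqModC_eq_zero _ h3

/-- `(jFull N)⁻¹` is transcendental over `Z_(ℓ)`. -/
theorem h15_injective_aeval_jFull_inv :
    Function.Injective (aeval (jFull N)⁻¹ : (Zl ℓ)[X] → FN N) :=
  h15_injective_aeval_inv ℓ (jFull N) (jFull_ne_zero N) (h15_injective_aeval_jFull N ℓ)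

/-- a nonzero reduction forbids divisibility by `ℓ`. -/
theorem h15_not_C_dvd_of_map_ne_zero {s : (Zl ℓ)[X]} (hs : s.map (resZl ℓ) ≠ 0) :
    ¬ (C ((ℓ : ℕ) : Zl ℓ) ∣ s) := by
  rintro ⟨s', rfl⟩
  apply hs
  rw [Polynomial.map_mul, Polynomial.map_C, map_natCast, ZMod.natCast_self, C_0, zero_mul]

/-- **Gauss inclusion**: `F_N ∩ O_W ∩ ℚ(j) ⊆ O_v`, the localisation of `Z_(ℓ)[j]` at `(ℓ)`. -/
theorem h15_mem_OvT_of_mem_K0 {a : FN N} (hO : (a : LaurentSeries ℚ) ∈ OW ℓ)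
    (hK : (a : LaurentSeries ℚ) ∈ K0) : a ∈ OvT ℓ (jFull N) := by
  by_cases ha : a = 0
  · rw [ha]; exact zero_mem _
  have ha' : (a : LaurentSeries ℚ) ≠ 0 := fun h => ha (Subtype.ext h)
  obtain ⟨e, r, s, hr, hs, h⟩ := H5.exists_normal_form_K0 ℓ hK ha'
  have hmem : (a : LaurentSeries ℚ) * iota ℓ (aeval (jqModC (Zl ℓ)) s) ∈ OW ℓ :=
    mul_mem hO (iota_mem_OW ℓ _)
  have he : 0 ≤ e := H5.nonneg_of_mem_OW ℓ hmem (H5.red_aeval_jqModC_ne_zero ℓ hr) h
  obtain ⟨m, rfl⟩ := Int.eq_ofNat_of_zero_le he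
  refine ⟨C (((ℓ : ℕ) : Zl ℓ) ^ m) * r, s, h15_not_C_dvd_of_map_ne_zero ℓ hs, ?_⟩
  apply Subtype.ext
  rw [map_mul, aeval_C, map_pow, map_natCast]
  push_cast
  rw [h15_coe_aeval_jFull, h15_coe_aeval_jFull, h, zpow_natCast]

/-- abstract integrality: if `x` maps the `R`-span of `c_1, …, c_n` (which contains `1`) into
itself, then `x` is integral over `R`. -/
theorem h15_isIntegral_of_span {R A : Type*} [CommRing R] [CommRing A] [IsDomain A]
    [Algebra R A] {n : ℕ} (c : Fin n → A) (x : A)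
    (h1 : ∃ a : Fin n → R, (1 : A) = ∑ i, algebraMap R A (a i) * c i)
    (hx : ∀ i, ∃ a : Fin n → R, x * c i = ∑ j, algebraMap R A (a j) * c j) :
    IsIntegral R x := by
  classical
  have hsum : ∀ a : Fin n → R, (∑ j, algebraMap R A (a j) * c j) ∈
      Submodule.span R (Set.range c) := by
    intro a
    refine Submodule.sum_mem _ fun j _ => ?_
    rw [← Algebra.smul_def]
    exact Submodule.smul_mem _ _ (Submodule.subset_span ⟨j, rfl⟩)
  refine isIntegral_of_smul_mem_submodule (M := A) (Submodule.span R (Set.range c)) ?_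
    (Submodule.fg_span (Set.finite_range c)) x ?_
  · intro hbot
    obtain ⟨a, ha⟩ := h1
    have h1mem : (1 : A) ∈ Submodule.span R (Set.range c) := by rw [ha]; exact hsum a
    rw [hbot, Submodule.mem_bot] at h1mem
    exact one_ne_zero h1mem
  · intro m hm
    induction hm using Submodule.span_induction with
    | mem y hy =>
      obtain ⟨i, rfl⟩ := hy
      obtain ⟨a, ha⟩ := hx i
      rw [smul_eq_mul, ha]
      exact hsum a
    | zero => rw [smul_zero]; exact zero_mem _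
    | add y z _ _ hy hz => rw [smul_add]; exact add_mem hy hz
    | smul r y _ hy =>
      rw [smul_comm]
      exact Submodule.smul_mem _ _ hy

/-- every element of `C = F_N ∩ O_W` is integral over `O_v`, from the conclusion of `StBasis`. -/
theorem h15_isIntegral_OvT_of_basis {n : ℕ} (c : Fin n → CW N ℓ)
    (hc : ∀ x : CW N ℓ, ∃ a : Fin n → OW ℓ,
      (∀ i, (a i : LaurentSeries ℚ) ∈ K0) ∧
      ((x : FN N) : LaurentSeries ℚ) =
        ∑ i, (a i : LaurentSeries ℚ) * (((c i : CW N ℓ) : FN N) : LaurentSeries ℚ))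
    {x : FN N} (hx : x ∈ CW N ℓ) : IsIntegral (OvT ℓ (jFull N)) x := by
  have hle : K0 ≤ modularFunctionFieldFull N := by
    rw [K0, IntermediateField.adjoin_le_iff, Set.singleton_subset_iff]
    exact jqModC_mem_full ℚ N
  have key : ∀ y : FN N, y ∈ CW N ℓ → ∃ a : Fin n → OvT ℓ (jFull N),
      y = ∑ j, algebraMap (OvT ℓ (jFull N)) (FN N) (a j) * (fun i => ((c i : CW N ℓ) : FN N)) j := by
    intro y hy
    obtain ⟨a, haK, ha⟩ := hc ⟨y, hy⟩
    have hF : ∀ i, (a i : LaurentSeries ℚ) ∈ modularFunctionFieldFull N :=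
      fun i => hle (haK i)
    refine ⟨fun i => ⟨⟨(a i : LaurentSeries ℚ), hF i⟩,
      h15_mem_OvT_of_mem_K0 N ℓ (a := ⟨(a i : LaurentSeries ℚ), hF i⟩) (a i).2 (haK i)⟩, ?_⟩
    apply Subtype.ext
    rw [ha]
    push_cast
    rfl
  refine h15_isIntegral_of_span (fun i => ((c i : CW N ℓ) : FN N)) x (key 1 (one_mem _)) ?_
  intro i
  exact key _ (mul_mem hx (c i).2)

/-- **[QB-CORE], finite chart**: saturation of `B_{j}` in `C = F_N ∩ O_W`, from `StBasis`. -/
theorem h15_stSat_fin (hB : StBasis N ℓ) (h0 : StDEG0 N) (hD : StDEG N ℓ) :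
    StSat N ℓ {jFull N} := by
  intro x hxC hlx
  obtain ⟨n, c, hc⟩ := hB h0 hD
  have hy : IsIntegral (OvT ℓ (jFull N)) x := h15_isIntegral_OvT_of_basis N ℓ c hc hxC
  rw [mem_chartAlg_iff] at hlx ⊢
  rw [h15_natCast_eq] at hlx
  exact h15_descent_gen ℓ (jFull N) (h15_injective_aeval_jFull N ℓ) hy hlx

/-- **[QB-CORE], chart at infinity**: saturation of `B_{1/j}` in `C = F_N ∩ O_W`, from
`StBasis`. -/
theorem h15_stSat_inf (hB : StBasis N ℓ) (h0 : StDEG0 N) (hD : StDEG N ℓ) :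
    StSat N ℓ {(jFull N)⁻¹} := by
  intro x hxC hlx
  obtain ⟨n, c, hc⟩ := hB h0 hD
  have hy : IsIntegral (OvT ℓ (jFull N)⁻¹) x := by
    rw [h15_OvT_inv ℓ (jFull N) (jFull_ne_zero N)]
    exact h15_isIntegral_OvT_of_basis N ℓ c hc hxC
  rw [mem_chartAlg_iff] at hlx ⊢
  rw [h15_natCast_eq] at hlx
  exact h15_descent_gen ℓ (jFull N)⁻¹ (h15_injective_aeval_jFull_inv N ℓ) hy hlx

end Fermat.Agent.S28.Alg.H15
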