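import Fermat.Agent.S28.Alg.H1_Leaves
import Fermat.Agent.S28.Mod.H14_PolyJ

/-!
# S28 / ALG: the Gauss leaf (helper13)

For helper1's canonical objects (`OW ℓ`, `rhoW ℓ`, `K0`, `kappa`):

* `stPolyOW : StRedVal ℓ → StPolyOW ℓ` : `ℚ[j] ∩ O_W = Z_(ℓ)[j]` and the same for `1/j`;
* `stK0 : StRedVal ℓ → StK0 ℓ` : `ρ_W (O_W ∩ ℚ(j)) ⊆ k(jb)`.
-/

set_option autoImplicit false
open ModularCurve ModularCurve.IgusaScheme Polynomial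

noncomputable section

namespace Fermat.Agent.S28.Alg.H13G

open Fermat.Agent.S28.Asm Fermat.Agent.S28.Alg

variable (ℓ : ℕ) [Fact ℓ.Prime]

/-! ### Constants -/

theorem iota_C (c : Zl ℓ) : iota ℓ (HahnSeries.C c) = HahnSeries.C ((c : ℚ)) := by
  show coeffMap _ (HahnSeries.single 0 c) = _
  rw [coeffMap_single]
  rfl

theorem red_C (c : Zl ℓ) : red ℓ (HahnSeries.C c) = HahnSeries.C (resZl ℓ c) := by
  show coeffMap _ (HahnSeries.single 0 c) = _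
  rw [coeffMap_single]
  rfl

theorem natCast_eq_zero_series : ((ℓ : ℕ) : LaurentSeries (ZMod ℓ)) = 0 := by
  have h : ((ℓ : ℕ) : LaurentSeries (ZMod ℓ)) = HahnSeries.C ((ℓ : ℕ) : ZMod ℓ) := by
    rw [map_natCast]
  rw [h, ZMod.natCast_self, map_zero]

theorem rhoW_natCast_self : rhoW ℓ ((ℓ : ℕ) : OW ℓ) = 0 := by
  rw [map_natCast]
  exact natCast_eq_zero_series ℓ

/-! ### `j` and `1/j` in `O_W` -/

theorem jq_eq_iota : jqModC ℚ = iota ℓ (jqModC (Zl ℓ)) :=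
  (coeffMap_jqModC (algebraMap (Zl ℓ) ℚ)).symm

theorem red_jq : red ℓ (jqModC (Zl ℓ)) = jqModC (ZMod ℓ) :=
  coeffMap_jqModC (resZl ℓ)

theorem jq_mem_OW : jqModC ℚ ∈ OW ℓ := by
  rw [jq_eq_iota ℓ]
  exact iota_mem_OW ℓ _

theorem rhoW_jq : rhoW ℓ ⟨jqModC ℚ, jq_mem_OW ℓ⟩ = jqModC (ZMod ℓ) := by
  have h : (⟨jqModC ℚ, jq_mem_OW ℓ⟩ : OW ℓ) = ⟨iota ℓ (jqModC (Zl ℓ)), iota_mem_OW ℓ _⟩ :=
    Subtype.ext (jq_eq_iota ℓ)
  rw [h, rhoW_iota, red_jq]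

/-- An element of `O_W` with nonzero reduction has its inverse in `O_W`. -/
theorem inv_mem_OW (x : OW ℓ) (hx : rhoW ℓ x ≠ 0) : (x : LaurentSeries ℚ)⁻¹ ∈ OW ℓ := by
  obtain ⟨a, b, hb, h⟩ := x.2
  have hρ : rhoW ℓ x = red ℓ a / red ℓ b := rhoW_eq ℓ x a b hb h
  have ha : red ℓ a ≠ 0 := by
    intro h0
    apply hx
    rw [hρ, h0, zero_div]
  have hb0 : iota ℓ b ≠ 0 := by
    intro h0
    apply hb
    have : b = 0 := iota_injective ℓ (by rw [h0, map_zero])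
    rw [this, map_zero]
  have ha0 : iota ℓ a ≠ 0 := by
    intro h0
    apply ha
    have : a = 0 := iota_injective ℓ (by rw [h0, map_zero])
    rw [this, map_zero]
  have hx0 : (x : LaurentSeries ℚ) ≠ 0 := by
    intro h0
    rw [h0, zero_mul] at h
    exact ha0 h.symm
  refine ⟨b, a, ha, ?_⟩
  rw [← h]
  field_simp

theorem rhoW_inv (x : OW ℓ) (hx : rhoW ℓ x ≠ 0) :
    rhoW ℓ ⟨(x : LaurentSeries ℚ)⁻¹, inv_mem_OW ℓ x hx⟩ = (rhoW ℓ x)⁻¹ := by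
  have h1 : x * ⟨(x : LaurentSeries ℚ)⁻¹, inv_mem_OW ℓ x hx⟩ = 1 := by
    apply Subtype.ext
    have hx0 : (x : LaurentSeries ℚ) ≠ 0 := by
      intro h0
      apply hx
      have : x = 0 := Subtype.ext h0
      rw [this, map_zero]
    show (x : LaurentSeries ℚ) * (x : LaurentSeries ℚ)⁻¹ = 1
    exact mul_inv_cancel₀ hx0
  have h2 := congrArg (rhoW ℓ) h1
  rw [map_mul, map_one] at h2
  exact eq_inv_of_mul_eq_one_right h2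

theorem jqModC_ZMod_ne_zero : jqModC (ZMod ℓ) ≠ 0 :=
  jqModC_ne_zero_of_nontrivial (ZMod ℓ)

theorem jqInv_mem_OW : (jqModC ℚ)⁻¹ ∈ OW ℓ :=
  inv_mem_OW ℓ ⟨jqModC ℚ, jq_mem_OW ℓ⟩ (by rw [rhoW_jq]; exact jqModC_ZMod_ne_zero ℓ)

theorem rhoW_jqInv : rhoW ℓ ⟨(jqModC ℚ)⁻¹, jqInv_mem_OW ℓ⟩ = (jqModC (ZMod ℓ))⁻¹ := by
  have := rhoW_inv ℓ ⟨jqModC ℚ, jq_mem_OW ℓ⟩ (by rw [rhoW_jq]; exact jqModC_ZMod_ne_zero ℓ)
  exact this.trans (by rw [rhoW_jq])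

/-! ### Evaluation of `Z_(ℓ)`-polynomials inside `O_W` -/

theorem algebraMap_eq_C {R : Type*} [CommRing R] :
    algebraMap R (LaurentSeries R) = (HahnSeries.C : R →+* LaurentSeries R) :=
  RingHom.ext fun a => Fermat.Agent.S28.Mod.PolyJ.algebraMap_eq_single a

theorem C_mem_OW (c : Zl ℓ) : (HahnSeries.C ((c : ℚ)) : LaurentSeries ℚ) ∈ OW ℓ := by
  rw [← iota_C]
  exact iota_mem_OW ℓ _

/-- The constants `Z_(ℓ) → O_W`. -/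
def cZ : Zl ℓ →+* OW ℓ :=
  ((HahnSeries.C : ℚ →+* LaurentSeries ℚ).comp (algebraMap (Zl ℓ) ℚ)).codRestrict (OW ℓ)
    (fun c => C_mem_OW ℓ c)

theorem coe_cZ (c : Zl ℓ) : ((cZ ℓ c : OW ℓ) : LaurentSeries ℚ) = HahnSeries.C ((c : ℚ)) := rfl

theorem rhoW_cZ (c : Zl ℓ) : rhoW ℓ (cZ ℓ c) = HahnSeries.C (resZl ℓ c) := by
  have h : cZ ℓ c = ⟨iota ℓ (HahnSeries.C c), iota_mem_OW ℓ _⟩ :=
    Subtype.ext ((coe_cZ ℓ c).trans (iota_C ℓ c).symm)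
  rw [h, rhoW_iota, red_C]

/-- The value of a `Z_(ℓ)`-polynomial at an element of `O_W`, as an element of `O_W`. -/
def evOW (x : OW ℓ) (P₀ : (Zl ℓ)[X]) : OW ℓ := P₀.eval₂ (cZ ℓ) x

theorem coe_evOW (x : OW ℓ) (P₀ : (Zl ℓ)[X]) :
    ((evOW ℓ x P₀ : OW ℓ) : LaurentSeries ℚ) =
      aeval (x : LaurentSeries ℚ) (P₀.map (algebraMap (Zl ℓ) ℚ)) := by
  have h := Polynomial.hom_eval₂ P₀ (cZ ℓ) (OW ℓ).subtype x
  rw [aeval_def, eval₂_map]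
  have h2 : (OW ℓ).subtype.comp (cZ ℓ) =
      (algebraMap ℚ (LaurentSeries ℚ)).comp (algebraMap (Zl ℓ) ℚ) := by
    rw [algebraMap_eq_C]
    rfl
  rw [← h2]
  exact h

theorem rhoW_evOW (x : OW ℓ) (P₀ : (Zl ℓ)[X]) :
    rhoW ℓ (evOW ℓ x P₀) = aeval (rhoW ℓ x) (P₀.map (resZl ℓ)) := by
  have h := Polynomial.hom_eval₂ P₀ (cZ ℓ) (rhoW ℓ) x
  rw [aeval_def, eval₂_map]
  have h2 : (rhoW ℓ).comp (cZ ℓ) =
      (algebraMap (ZMod ℓ) (LaurentSeries (ZMod ℓ))).comp (resZl ℓ) := by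
    rw [algebraMap_eq_C]
    exact RingHom.ext fun c => rhoW_cZ ℓ c
  rw [← h2]
  exact h

/-! ### Scaling -/

theorem natCast_mem_Zl (n : ℕ) : (n : ℚ) ∈ GaloisRep.ratLocalizedAt ℓ := natCast_mem _ n

theorem intCast_mem_Zl (n : ℤ) : (n : ℚ) ∈ GaloisRep.ratLocalizedAt ℓ := intCast_mem _ n

theorem inv_natCast_mem_Zl {d : ℕ} (hd : ¬ ℓ ∣ d) : ((d : ℚ))⁻¹ ∈ GaloisRep.ratLocalizedAt ℓ := by
  have hl : ℓ.Prime := Fact.out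
  have hd0 : d ≠ 0 := fun h => hd (h ▸ dvd_zero ℓ)
  show (((d : ℚ))⁻¹).den.Coprime ℓ
  rw [Rat.inv_natCast_den, if_neg hd0]
  exact ((Nat.Prime.coprime_iff_not_dvd hl).2 hd).symm

/-- Every rational number becomes `ℓ`-integral after multiplication by a power of `ℓ`. -/
theorem exists_pow_mul_mem (c : ℚ) : ∃ n : ℕ, (ℓ : ℚ) ^ n * c ∈ GaloisRep.ratLocalizedAt ℓ := by
  have hl : ℓ.Prime := Fact.out
  obtain ⟨e, d, hd, hden⟩ := Nat.exists_eq_pow_mul_and_not_dvd c.den_nz ℓ hl.ne_one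
  refine ⟨e, ?_⟩
  have hd0 : (d : ℚ) ≠ 0 := by
    intro h
    apply hd
    rw [Nat.cast_eq_zero.mp h]
    exact dvd_zero ℓ
  have hl0 : (ℓ : ℚ) ≠ 0 := Nat.cast_ne_zero.mpr hl.ne_zero
  have hc : (ℓ : ℚ) ^ e * c = (c.num : ℚ) * ((d : ℚ))⁻¹ := by
    have h2 : (c.den : ℚ) = (ℓ : ℚ) ^ e * (d : ℚ) := by rw [hden]; push_cast; ring
    calc (ℓ : ℚ) ^ e * c = (ℓ : ℚ) ^ e * ((c.num : ℚ) / (c.den : ℚ)) := by rw [Rat.num_div_den]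
      _ = (c.num : ℚ) * ((d : ℚ))⁻¹ := by
        rw [h2]
        field_simp
  rw [hc]
  exact mul_mem (intCast_mem_Zl ℓ _) (inv_natCast_mem_Zl ℓ hd)

theorem algebraMap_Zl_injective : Function.Injective (algebraMap (Zl ℓ) ℚ) :=
  Subtype.val_injective

theorem map_C_pow (k : ℕ) :
    (C (((ℓ : ℕ) : Zl ℓ) ^ k)).map (algebraMap (Zl ℓ) ℚ) = C ((ℓ : ℚ) ^ k) := by
  rw [Polynomial.map_C, map_pow, map_natCast]

/-- Clearing the `ℓ`-part of the denominators of a rational polynomial. -/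
theorem exists_pow_mul_eq_map (P : ℚ[X]) :
    ∃ (n : ℕ) (P₂ : (Zl ℓ)[X]), P₂.map (algebraMap (Zl ℓ) ℚ) = C ((ℓ : ℚ) ^ n) * P := by
  induction P using Polynomial.induction_on' with
  | add p q hp hq =>
    obtain ⟨n₁, P₁, h₁⟩ := hp
    obtain ⟨n₂, P₂, h₂⟩ := hq
    refine ⟨n₁ + n₂, C (((ℓ : ℕ) : Zl ℓ) ^ n₂) * P₁ + C (((ℓ : ℕ) : Zl ℓ) ^ n₁) * P₂, ?_⟩
    rw [Polynomial.map_add, Polynomial.map_mul, Polynomial.map_mul, h₁, h₂, map_C_pow,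
      map_C_pow, pow_add, C_mul]
    ring
  | monomial i c =>
    obtain ⟨n, hn⟩ := exists_pow_mul_mem ℓ c
    refine ⟨n, monomial i ⟨_, hn⟩, ?_⟩
    rw [Polynomial.map_monomial, C_mul_monomial]
    rfl

/-- Dividing out the exact power of `ℓ` from a nonzero `Z_(ℓ)`-polynomial. -/
theorem exists_pow_mul_primitive (hval : StRedVal ℓ) (P₂ : (Zl ℓ)[X]) (hP₂ : P₂ ≠ 0) :
    ∃ (m : ℕ) (P₀ : (Zl ℓ)[X]), P₂ = C (((ℓ : ℕ) : Zl ℓ) ^ m) * P₀ ∧ P₀.map (resZl ℓ) ≠ 0 := by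
  have ha : aeval (jqModC (Zl ℓ)) P₂ ≠ 0 := fun h =>
    hP₂ (Fermat.Agent.S28.Mod.PolyJ.eq_zero_of_aeval_jqModC_eq_zero P₂ h)
  obtain ⟨m, a', ha', hred⟩ := hval _ ha
  have hl : ℓ.Prime := Fact.out
  have hl0 : (ℓ : ℚ) ≠ 0 := Nat.cast_ne_zero.mpr hl.ne_zero
  have hkey : aeval (jqModC ℚ) (C (((ℓ : ℚ) ^ m)⁻¹) * P₂.map (algebraMap (Zl ℓ) ℚ)) =
      coeffMap (algebraMap (Zl ℓ) ℚ) a' := by
    rw [map_mul, aeval_C, ← Fermat.Agent.S28.Mod.PolyJ.coeffMap_aeval_jqModC, ha', map_mul,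
      map_pow, map_natCast, ← mul_assoc]
    have h1 : algebraMap ℚ (LaurentSeries ℚ) (((ℓ : ℚ) ^ m)⁻¹) * ((ℓ : ℕ) : LaurentSeries ℚ) ^ m
        = 1 := by
      have : ((ℓ : ℕ) : LaurentSeries ℚ) ^ m = algebraMap ℚ (LaurentSeries ℚ) ((ℓ : ℚ) ^ m) := by
        rw [map_pow, map_natCast]
      rw [this, ← map_mul, inv_mul_cancel₀ (pow_ne_zero m hl0), map_one]
    rw [h1, one_mul]
  obtain ⟨P₀, hP₀, hP₀a⟩ := Fermat.Agent.S28.Mod.PolyJ.exists_map_eq_of_aeval_eq'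
    (algebraMap (Zl ℓ) ℚ) (algebraMap_Zl_injective ℓ) _ a' hkey
  refine ⟨m, P₀, ?_, ?_⟩
  · apply Polynomial.map_injective _ (algebraMap_Zl_injective ℓ)
    rw [Polynomial.map_mul, hP₀, map_C_pow, ← mul_assoc, ← C_mul,
      mul_inv_cancel₀ (pow_ne_zero m hl0), C_1, one_mul]
  · intro h0
    apply hred
    have : red ℓ a' = aeval (jqModC (ZMod ℓ)) (P₀.map (resZl ℓ)) := by
      rw [← hP₀a]
      exact Fermat.Agent.S28.Mod.PolyJ.coeffMap_aeval_jqModC (resZl ℓ) P₀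
    rw [this, h0, map_zero]

/-- **Two-sided scaling**: a nonzero rational polynomial is `ℓ^(m-n)` times a `Z_(ℓ)`-polynomial
with nonzero reduction. -/
theorem exists_scaling (hval : StRedVal ℓ) (P : ℚ[X]) (hP : P ≠ 0) :
    ∃ (m n : ℕ) (P₀ : (Zl ℓ)[X]),
      C ((ℓ : ℚ) ^ n) * P = C ((ℓ : ℚ) ^ m) * P₀.map (algebraMap (Zl ℓ) ℚ) ∧
      P₀.map (resZl ℓ) ≠ 0 := by
  have hl : ℓ.Prime := Fact.out
  have hl0 : (ℓ : ℚ) ≠ 0 := Nat.cast_ne_zero.mpr hl.ne_zero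
  obtain ⟨n, P₂, hP₂⟩ := exists_pow_mul_eq_map ℓ P
  have hP₂0 : P₂ ≠ 0 := by
    intro h0
    rw [h0, Polynomial.map_zero] at hP₂
    have := mul_eq_zero.mp hP₂.symm
    rcases this with h | h
    · exact pow_ne_zero n hl0 (C_eq_zero.mp h)
    · exact hP h
  obtain ⟨m, P₀, hP₀, hne⟩ := exists_pow_mul_primitive ℓ hval P₂ hP₂0
  refine ⟨m, n, P₀, ?_, hne⟩
  rw [← hP₂, hP₀, Polynomial.map_mul, map_C_pow]

/-! ### Transcendence of `jb` and `1/jb` -/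

theorem jb_transcendental (Q : (ZMod ℓ)[X]) (h : aeval (jqModC (ZMod ℓ)) Q = 0) : Q = 0 :=
  Fermat.Agent.S28.Mod.PolyJ.eq_zero_of_aeval_jqModC_eq_zero Q h

theorem jbInv_transcendental (Q : (ZMod ℓ)[X]) (h : aeval (jqModC (ZMod ℓ))⁻¹ Q = 0) :
    Q = 0 := by
  by_contra hQ
  have halg : IsAlgebraic (ZMod ℓ) (jqModC (ZMod ℓ))⁻¹ := ⟨Q, hQ, h⟩
  obtain ⟨Q', hQ', h'⟩ := IsAlgebraic.inv_iff.mp halg
  exact hQ' (jb_transcendental ℓ Q' h')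

/-! ### The main lemma -/

theorem natCast_ne_zero_L : ((ℓ : ℕ) : LaurentSeries ℚ) ≠ 0 := by
  have hl : ℓ.Prime := Fact.out
  have hl0 : (ℓ : ℚ) ≠ 0 := Nat.cast_ne_zero.mpr hl.ne_zero
  have h : ((ℓ : ℕ) : LaurentSeries ℚ) = algebraMap ℚ (LaurentSeries ℚ) (ℓ : ℚ) :=
    (map_natCast (algebraMap ℚ (LaurentSeries ℚ)) ℓ).symm
  rw [h]
  exact (map_ne_zero_iff _ (algebraMap ℚ (LaurentSeries ℚ)).injective).mpr hl0

/-- If `ℓ^n z = ℓ^m u` with `z, u ∈ O_W` and `ρ_W u ≠ 0`, then `n ≤ m`. -/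
theorem le_of_pow_mul_eq (z u : OW ℓ) (hu : rhoW ℓ u ≠ 0) (m n : ℕ)
    (h : ((ℓ : ℕ) : LaurentSeries ℚ) ^ n * (z : LaurentSeries ℚ) =
      ((ℓ : ℕ) : LaurentSeries ℚ) ^ m * (u : LaurentSeries ℚ)) : n ≤ m := by
  by_contra hlt
  rw [not_le] at hlt
  obtain ⟨k, rfl⟩ : ∃ k, n = m + (k + 1) := ⟨n - m - 1, by omega⟩
  have h1 : ((ℓ : ℕ) : LaurentSeries ℚ) ^ (k + 1) * (z : LaurentSeries ℚ) =
      (u : LaurentSeries ℚ) := by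
    have := h
    rw [pow_add, mul_assoc] at this
    exact mul_left_cancel₀ (pow_ne_zero m (natCast_ne_zero_L ℓ)) this
  have h2 : ((ℓ : ℕ) : OW ℓ) ^ (k + 1) * z = u := Subtype.ext h1
  apply hu
  rw [← h2, map_mul, map_pow, rhoW_natCast_self, zero_pow (Nat.succ_ne_zero k), zero_mul]

/-- Evaluating the scaling identity at an element of `O_W`. -/
theorem aeval_scaling (x : OW ℓ) (P : ℚ[X]) (m n : ℕ) (P₀ : (Zl ℓ)[X])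
    (h : C ((ℓ : ℚ) ^ n) * P = C ((ℓ : ℚ) ^ m) * P₀.map (algebraMap (Zl ℓ) ℚ)) :
    ((ℓ : ℕ) : LaurentSeries ℚ) ^ n * aeval (x : LaurentSeries ℚ) P =
      ((ℓ : ℕ) : LaurentSeries ℚ) ^ m * ((evOW ℓ x P₀ : OW ℓ) : LaurentSeries ℚ) := by
  have := congrArg (aeval (x : LaurentSeries ℚ)) h
  rw [map_mul, map_mul, aeval_C, aeval_C, map_pow, map_pow, map_natCast] at this
  rw [coe_evOW]
  exact this

/-- **`ℚ[x] ∩ O_W = Z_(ℓ)[x]`** for every `x ∈ O_W` whose reduction is transcendental. -/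
theorem exists_map_of_aeval_mem (hval : StRedVal ℓ) (x : OW ℓ)
    (hx : ∀ Q : (ZMod ℓ)[X], aeval (rhoW ℓ x) Q = 0 → Q = 0)
    (P : ℚ[X]) (h : aeval (x : LaurentSeries ℚ) P ∈ OW ℓ) :
    ∃ P' : (Zl ℓ)[X], P = P'.map (algebraMap (Zl ℓ) ℚ) := by
  by_cases hP : P = 0
  · exact ⟨0, by rw [hP, Polynomial.map_zero]⟩
  obtain ⟨m, n, P₀, hsc, hne⟩ := exists_scaling ℓ hval P hP
  have hu : rhoW ℓ (evOW ℓ x P₀) ≠ 0 := by
    rw [rhoW_evOW]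
    exact fun h0 => hne (hx _ h0)
  have hle : n ≤ m := le_of_pow_mul_eq ℓ ⟨_, h⟩ (evOW ℓ x P₀) hu m n (aeval_scaling ℓ x P m n P₀ hsc)
  obtain ⟨k, rfl⟩ : ∃ k, m = n + k := ⟨m - n, by omega⟩
  have hl : ℓ.Prime := Fact.out
  have hl0 : (ℓ : ℚ) ≠ 0 := Nat.cast_ne_zero.mpr hl.ne_zero
  refine ⟨C (((ℓ : ℕ) : Zl ℓ) ^ k) * P₀, ?_⟩
  rw [Polynomial.map_mul, map_C_pow]
  rw [pow_add, C_mul, mul_assoc] at hsc
  exact mul_left_cancel₀ (by rw [Ne, C_eq_zero]; exact pow_ne_zero n hl0) hsc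

/-- **Deliverable [QB-A]**. -/
theorem stPolyOW (hval : StRedVal ℓ) : StPolyOW ℓ := by
  intro P
  constructor
  · intro h
    exact exists_map_of_aeval_mem ℓ hval ⟨jqModC ℚ, jq_mem_OW ℓ⟩
      (by rw [rhoW_jq]; exact jb_transcendental ℓ) P h
  · intro h
    exact exists_map_of_aeval_mem ℓ hval ⟨(jqModC ℚ)⁻¹, jqInv_mem_OW ℓ⟩
      (by rw [rhoW_jqInv]; exact jbInv_transcendental ℓ) P h

end Fermat.Agent.S28.Alg.H13G
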