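import Mathlib

/-!
# S28 / ALG: abstract core of QEPC and DEGU (helper13)

Setting: `O` a principal ideal domain, `π : O` irreducible, `K = Frac O`, `F / K` a finite
separable field extension, `C = integralClosure O F`, `E` a field and `ρ : C →+* E` a ring
homomorphism with `ρ π = 0`.  Let `κ = ρ(O)` (a subfield of `E`), and let `M` be a subfield of `E`
with `κ ≤ M ≤ closure (κ ∪ T)` for some `T ⊆ range ρ`.

* `h13_relrank_le` : `[M : κ] ≤ [F : K]` (cardinal form), `h13_relfinrank_le` (natural number form).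
* `h13_qepc` : if `[F : K] ≤ [M : κ]` then `ker ρ = π C`.
-/

set_option autoImplicit false

open Module

namespace Fermat.Agent.S28.Alg.H13

section Base

variable {O : Type*} [CommRing O] [IsPrincipalIdealRing O]
  {C : Type*} [CommRing C] [Algebra O C] {E : Type*} [Field E]

/-- The kernel of `O → C → E` is `(π)` as soon as it contains the irreducible element `π`. -/
theorem h13_dvd_of_map_eq_zero {π : O} (hπ : Irreducible π) (ρ : C →+* E)
    (hρπ : ρ (algebraMap O C π) = 0) (a : O) (ha : ρ (algebraMap O C a) = 0) : π ∣ a := by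
  set f : O →+* E := ρ.comp (algebraMap O C) with hf
  have hmax : (Ideal.span {π}).IsMaximal := PrincipalIdealRing.isMaximal_of_irreducible hπ
  have hle : Ideal.span {π} ≤ RingHom.ker f := by
    rw [Ideal.span_le, Set.singleton_subset_iff]
    exact hρπ
  have hne : RingHom.ker f ≠ ⊤ := RingHom.ker_ne_top f
  have heq : Ideal.span {π} = RingHom.ker f := hmax.eq_of_le hne hle
  have : a ∈ Ideal.span {π} := by rw [heq]; exact ha
  exact Ideal.mem_span_singleton.mp this

end Base

section Span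

/-! ### Generic part: a ring hom out of a free module of finite rank -/

variable {O C E : Type*} [CommRing O] [CommRing C] [Algebra O C] [Field E]
  {ι : Type*} [Fintype ι]

/-- The `κ`-span of the images of a basis. -/
def spanW (ρ : C →+* E) (κ : Subfield E) (b : Basis ι O C) : Submodule κ E :=
  Submodule.span κ (Set.range fun i => ρ (b i))

variable (ρ : C →+* E) (κ : Subfield E) (b : Basis ι O C)

theorem h13_map_mem_spanW (hκ : ∀ a : O, ρ (algebraMap O C a) ∈ κ) (x : C) :
    ρ x ∈ spanW ρ κ b := by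
  have hx : x = ∑ i, b.repr x i • b i := (b.sum_repr x).symm
  rw [hx, map_sum]
  refine Submodule.sum_mem _ fun i _ => ?_
  rw [Algebra.smul_def, map_mul]
  have : ρ (algebraMap O C (b.repr x i)) * ρ (b i)
      = (⟨ρ (algebraMap O C (b.repr x i)), hκ _⟩ : κ) • ρ (b i) := rfl
  rw [this]
  exact Submodule.smul_mem _ _ (Submodule.subset_span ⟨i, rfl⟩)

theorem h13_exists_of_mem_spanW (hκ : ∀ z ∈ κ, ∃ a : O, ρ (algebraMap O C a) = z) {w : E}
    (hw : w ∈ spanW ρ κ b) : ∃ x : C, ρ x = w := by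
  induction hw using Submodule.span_induction with
  | mem y hy =>
    obtain ⟨i, rfl⟩ := hy
    exact ⟨b i, rfl⟩
  | zero => exact ⟨0, map_zero ρ⟩
  | add y z _ _ hy hz =>
    obtain ⟨x, rfl⟩ := hy
    obtain ⟨x', rfl⟩ := hz
    exact ⟨x + x', map_add ρ x x'⟩
  | smul c y _ hy =>
    obtain ⟨x, rfl⟩ := hy
    obtain ⟨a, ha⟩ := hκ c c.2
    refine ⟨algebraMap O C a * x, ?_⟩
    rw [map_mul, ha]
    rfl

theorem h13_finrank_spanW_le : finrank κ (spanW ρ κ b) ≤ Fintype.card ι := by
  classical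
  exact finrank_range_le_card (R := κ) (fun i => ρ (b i))

instance h13_finite_spanW : Module.Finite κ (spanW ρ κ b) :=
  Module.Finite.span_of_finite κ (Set.finite_range _)

end Span

section RangeField

/-! ### `range ρ` is a field, finite over `κ` -/

variable {O C E : Type*} [CommRing O] [CommRing C] [Algebra O C] [Field E]
  {ι : Type*} [Fintype ι]
  (ρ : C →+* E) (κ : Subfield E)

/-- `range ρ` as a `κ`-subalgebra of `E` (needs `κ ⊆ range ρ`). -/
def rangeAlg (hκ : ∀ z ∈ κ, ∃ a : O, ρ (algebraMap O C a) = z) : Subalgebra κ E where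
  toSubsemiring := ρ.rangeS
  algebraMap_mem' c := by
    obtain ⟨a, ha⟩ := hκ c c.2
    exact ⟨algebraMap O C a, ha⟩

theorem h13_mem_rangeAlg (hκ : ∀ z ∈ κ, ∃ a : O, ρ (algebraMap O C a) = z) {w : E} :
    w ∈ rangeAlg ρ κ hκ ↔ ∃ x : C, ρ x = w := Iff.rfl

/-- The inclusion of `range ρ` into the span of the images of a basis. -/
def rangeToSpan (b : Basis ι O C)
    (hκ : ∀ z : E, z ∈ κ ↔ ∃ a : O, ρ (algebraMap O C a) = z) :
    rangeAlg ρ κ (fun z hz => (hκ z).1 hz) →ₗ[κ] spanW ρ κ b where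
  toFun w := ⟨w.1, by
    obtain ⟨x, hx⟩ := w.2
    rw [← hx]
    exact h13_map_mem_spanW ρ κ b (fun a => (hκ _).2 ⟨a, rfl⟩) x⟩
  map_add' _ _ := rfl
  map_smul' _ _ := rfl

theorem h13_rangeToSpan_injective (b : Basis ι O C)
    (hκ : ∀ z : E, z ∈ κ ↔ ∃ a : O, ρ (algebraMap O C a) = z) :
    Function.Injective (rangeToSpan ρ κ b hκ) := by
  intro w w' h
  apply Subtype.ext
  exact congrArg (fun t : spanW ρ κ b => (t : E)) h

theorem h13_finite_rangeAlg (b : Basis ι O C)
    (hκ : ∀ z : E, z ∈ κ ↔ ∃ a : O, ρ (algebraMap O C a) = z) :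
    Module.Finite κ (rangeAlg ρ κ (fun z hz => (hκ z).1 hz)) :=
  Module.Finite.of_injective (rangeToSpan ρ κ b hκ) (h13_rangeToSpan_injective ρ κ b hκ)

/-- `range ρ` is closed under inverses. -/
theorem h13_inv_mem_range (b : Basis ι O C)
    (hκ : ∀ z : E, z ∈ κ ↔ ∃ a : O, ρ (algebraMap O C a) = z) (x : C) :
    ∃ y : C, ρ y = (ρ x)⁻¹ := by
  have := h13_finite_rangeAlg ρ κ b hκ
  have halg : IsAlgebraic κ
      (((⟨ρ x, ⟨x, rfl⟩⟩ : rangeAlg ρ κ (fun z hz => (hκ z).1 hz)) : E)) := by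
    have h1 : IsAlgebraic κ (⟨ρ x, ⟨x, rfl⟩⟩ : rangeAlg ρ κ (fun z hz => (hκ z).1 hz)) :=
      (Algebra.IsIntegral.of_finite κ _).isIntegral _ |>.isAlgebraic
    exact h1.algebraMap
  exact Subalgebra.inv_mem_of_algebraic _ halg

/-- `range ρ` as a subfield of `E`. -/
def rangeField (b : Basis ι O C)
    (hκ : ∀ z : E, z ∈ κ ↔ ∃ a : O, ρ (algebraMap O C a) = z) : Subfield E where
  toSubring := ρ.range
  inv_mem' := by
    rintro _ ⟨x, rfl⟩
    exact h13_inv_mem_range ρ κ b hκ x

theorem h13_mem_rangeField (b : Basis ι O C)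
    (hκ : ∀ z : E, z ∈ κ ↔ ∃ a : O, ρ (algebraMap O C a) = z) {w : E} :
    w ∈ rangeField ρ κ b hκ ↔ ∃ x : C, ρ x = w := Iff.rfl

theorem h13_closure_le_rangeField (b : Basis ι O C)
    (hκ : ∀ z : E, z ∈ κ ↔ ∃ a : O, ρ (algebraMap O C a) = z)
    {T : Set E} (hT : T ⊆ Set.range ρ) :
    Subfield.closure ((κ : Set E) ∪ T) ≤ rangeField ρ κ b hκ := by
  rw [Subfield.closure_le]
  rintro z (hz | hz)
  · obtain ⟨a, ha⟩ := (hκ z).1 hz
    exact ⟨algebraMap O C a, ha⟩
  · exact hT hz

end RangeField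

section Degree

/-! ### The degree bound and the kernel, in terms of a basis -/

variable {O C E : Type*} [CommRing O] [CommRing C] [Algebra O C] [Field E]
  {ι : Type*} [Fintype ι]
  (ρ : C →+* E) (κ : Subfield E)

/-- The inclusion of a subfield `M ≤ closure (κ ∪ T)`, `T ⊆ range ρ`, into the span of the images
of a basis, as a `κ`-linear map. -/
def fieldToSpan (b : Basis ι O C)
    (hκ : ∀ z : E, z ∈ κ ↔ ∃ a : O, ρ (algebraMap O C a) = z)
    {M : Subfield E} (hκM : κ ≤ M) {T : Set E} (hT : T ⊆ Set.range ρ)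
    (hM : M ≤ Subfield.closure ((κ : Set E) ∪ T)) :
    ↥(Subfield.extendScalars hκM) →ₗ[κ] spanW ρ κ b where
  toFun w := ⟨w.1, by
    obtain ⟨x, hx⟩ := h13_closure_le_rangeField ρ κ b hκ hT (hM w.2)
    rw [← hx]
    exact h13_map_mem_spanW ρ κ b (fun a => (hκ _).2 ⟨a, rfl⟩) x⟩
  map_add' _ _ := rfl
  map_smul' _ _ := rfl

theorem h13_fieldToSpan_injective (b : Basis ι O C)
    (hκ : ∀ z : E, z ∈ κ ↔ ∃ a : O, ρ (algebraMap O C a) = z)
    {M : Subfield E} (hκM : κ ≤ M) {T : Set E} (hT : T ⊆ Set.range ρ)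
    (hM : M ≤ Subfield.closure ((κ : Set E) ∪ T)) :
    Function.Injective (fieldToSpan ρ κ b hκ hκM hT hM) := by
  intro w w' h
  apply Subtype.ext
  exact congrArg (fun t : spanW ρ κ b => (t : E)) h

/-- **DEGU, basis form (cardinal)**: `[M : κ] ≤ card ι`. -/
theorem h13_relrank_le_card (b : Basis ι O C)
    (hκ : ∀ z : E, z ∈ κ ↔ ∃ a : O, ρ (algebraMap O C a) = z)
    {M : Subfield E} (hκM : κ ≤ M) {T : Set E} (hT : T ⊆ Set.range ρ)
    (hM : M ≤ Subfield.closure ((κ : Set E) ∪ T)) :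
    Subfield.relrank κ M ≤ (Fintype.card ι : Cardinal) := by
  rw [Subfield.relrank_eq_rank_of_le hκM]
  have h1 := LinearMap.rank_le_of_injective (fieldToSpan ρ κ b hκ hκM hT hM)
    (h13_fieldToSpan_injective ρ κ b hκ hκM hT hM)
  have h2 : Module.rank κ (spanW ρ κ b) ≤ (Fintype.card ι : Cardinal) := by
    rw [← finrank_eq_rank]
    exact_mod_cast h13_finrank_spanW_le ρ κ b
  exact h1.trans h2

/-- **DEGU, basis form**: `M / κ` is finite. -/
theorem h13_finite_of_basis (b : Basis ι O C)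
    (hκ : ∀ z : E, z ∈ κ ↔ ∃ a : O, ρ (algebraMap O C a) = z)
    {M : Subfield E} (hκM : κ ≤ M) {T : Set E} (hT : T ⊆ Set.range ρ)
    (hM : M ≤ Subfield.closure ((κ : Set E) ∪ T)) :
    Module.Finite κ (Subfield.extendScalars hκM) :=
  Module.Finite.of_injective (fieldToSpan ρ κ b hκ hκM hT hM)
    (h13_fieldToSpan_injective ρ κ b hκ hκM hT hM)

/-- **DEGU, basis form (natural numbers)**: `[M : κ] ≤ card ι`. -/
theorem h13_relfinrank_le_card (b : Basis ι O C)
    (hκ : ∀ z : E, z ∈ κ ↔ ∃ a : O, ρ (algebraMap O C a) = z)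
    {M : Subfield E} (hκM : κ ≤ M) {T : Set E} (hT : T ⊆ Set.range ρ)
    (hM : M ≤ Subfield.closure ((κ : Set E) ∪ T)) :
    Subfield.relfinrank κ M ≤ Fintype.card ι := by
  rw [Subfield.relfinrank_eq_finrank_of_le hκM]
  exact (LinearMap.finrank_le_finrank_of_injective
    (h13_fieldToSpan_injective ρ κ b hκ hκM hT hM)).trans (h13_finrank_spanW_le ρ κ b)

/-- If `card ι ≤ [M : κ]`, the images of the basis are linearly independent over `κ`. -/
theorem h13_linearIndependent (b : Basis ι O C)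
    (hκ : ∀ z : E, z ∈ κ ↔ ∃ a : O, ρ (algebraMap O C a) = z)
    {M : Subfield E} (hκM : κ ≤ M) {T : Set E} (hT : T ⊆ Set.range ρ)
    (hM : M ≤ Subfield.closure ((κ : Set E) ∪ T))
    (hdeg : Fintype.card ι ≤ Subfield.relfinrank κ M) :
    LinearIndependent κ (fun i => ρ (b i)) := by
  rw [linearIndependent_iff_card_le_finrank_span]
  rw [Subfield.relfinrank_eq_finrank_of_le hκM] at hdeg
  have h : finrank κ (Subfield.extendScalars hκM) ≤ finrank κ (spanW ρ κ b) :=
    LinearMap.finrank_le_finrank_of_injective (h13_fieldToSpan_injective ρ κ b hκ hκM hT hM)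
  exact hdeg.trans h

/-- **QEPC, basis form**: if `card ι ≤ [M : κ]` and `ker (O → E) ⊆ (π)`, then `ker ρ ⊆ π C`. -/
theorem h13_qepc_of_basis (b : Basis ι O C)
    (hκ : ∀ z : E, z ∈ κ ↔ ∃ a : O, ρ (algebraMap O C a) = z)
    {M : Subfield E} (hκM : κ ≤ M) {T : Set E} (hT : T ⊆ Set.range ρ)
    (hM : M ≤ Subfield.closure ((κ : Set E) ∪ T))
    (hdeg : Fintype.card ι ≤ Subfield.relfinrank κ M)
    (π : O) (hπ : ∀ a : O, ρ (algebraMap O C a) = 0 → π ∣ a)
    (x : C) (hx : ρ x = 0) : ∃ y : C, x = algebraMap O C π * y := by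
  classical
  have hli := h13_linearIndependent ρ κ b hκ hκM hT hM hdeg
  have hκ' : ∀ a : O, ρ (algebraMap O C a) ∈ κ := fun a => (hκ _).2 ⟨a, rfl⟩
  have hsum : ∑ i, (⟨ρ (algebraMap O C (b.repr x i)), hκ' _⟩ : κ) • ρ (b i) = 0 := by
    have hx' : x = ∑ i, b.repr x i • b i := (b.sum_repr x).symm
    have : ρ x = ∑ i, ρ (algebraMap O C (b.repr x i)) * ρ (b i) := by
      conv_lhs => rw [hx']
      rw [map_sum]
      refine Finset.sum_congr rfl fun i _ => ?_
      rw [Algebra.smul_def, map_mul]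
    rw [hx] at this
    rw [this]
    rfl
  have hzero := Fintype.linearIndependent_iff.mp hli _ hsum
  have hdiv : ∀ i, π ∣ b.repr x i := fun i => hπ _ (by
    have := hzero i
    exact congrArg Subtype.val this)
  choose c hc using hdiv
  refine ⟨∑ i, c i • b i, ?_⟩
  conv_lhs => rw [← b.sum_repr x]
  rw [Finset.mul_sum]
  refine Finset.sum_congr rfl fun i _ => ?_
  rw [hc i, Algebra.smul_def, Algebra.smul_def, map_mul, mul_assoc]

end Degree

section Main

/-! ### The statements for the integral closure of a PID in a finite separable extension -/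

variable {O : Type*} (K : Type*) {F E : Type*} [CommRing O] [IsDomain O] [IsPrincipalIdealRing O]
  [Field K] [Algebra O K] [IsFractionRing O K]
  [Field F] [Algebra K F] [Algebra O F] [IsScalarTower O K F]
  [FiniteDimensional K F] [Algebra.IsSeparable K F]
  [Field E]

/-- The integral closure of a PID in a finite separable extension of its fraction field has a
basis of cardinality the degree. -/
theorem h13_exists_basis :
    ∃ (ι : Type) (_ : Fintype ι) (_ : Basis ι O (integralClosure O F)),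
      Fintype.card ι = finrank K F := by
  have : IsTorsionFree O F := .trans_faithfulSMul O K F
  have : Module.Free O (integralClosure O F) :=
    IsIntegralClosure.module_free O K F (integralClosure O F)
  have : Module.Finite O (integralClosure O F) :=
    IsIntegralClosure.finite O K F (integralClosure O F)
  have hrank : finrank O (integralClosure O F) = finrank K F :=
    IsIntegralClosure.rank O K F (integralClosure O F)
  refine ⟨Fin (finrank O (integralClosure O F)), inferInstance,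
    Module.finBasis O (integralClosure O F), ?_⟩
  rw [Fintype.card_fin, hrank]

variable (ρ : integralClosure O F →+* E) (κ : Subfield E)

/-- **DEGU-abs (cardinal form)**: `[M : κ] ≤ [F : K]`. -/
theorem h13_relrank_le
    (hκ : ∀ z : E, z ∈ κ ↔ ∃ a : O, ρ (algebraMap O (integralClosure O F) a) = z)
    {M : Subfield E} (hκM : κ ≤ M) {T : Set E} (hT : T ⊆ Set.range ρ)
    (hM : M ≤ Subfield.closure ((κ : Set E) ∪ T)) :
    Subfield.relrank κ M ≤ (finrank K F : Cardinal) := by
  obtain ⟨ι, _, b, hcard⟩ := h13_exists_basis (O := O) K (F := F)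
  rw [← hcard]
  exact h13_relrank_le_card ρ κ b hκ hκM hT hM

include K in
/-- **DEGU-abs (finiteness)**: `M / κ` is finite. -/
theorem h13_finite
    (hκ : ∀ z : E, z ∈ κ ↔ ∃ a : O, ρ (algebraMap O (integralClosure O F) a) = z)
    {M : Subfield E} (hκM : κ ≤ M) {T : Set E} (hT : T ⊆ Set.range ρ)
    (hM : M ≤ Subfield.closure ((κ : Set E) ∪ T)) :
    Module.Finite κ (Subfield.extendScalars hκM) := by
  obtain ⟨ι, _, b, -⟩ := h13_exists_basis (O := O) K (F := F)
  exact h13_finite_of_basis ρ κ b hκ hκM hT hM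

/-- **DEGU-abs (natural number form)**: `[M : κ] ≤ [F : K]`. -/
theorem h13_relfinrank_le
    (hκ : ∀ z : E, z ∈ κ ↔ ∃ a : O, ρ (algebraMap O (integralClosure O F) a) = z)
    {M : Subfield E} (hκM : κ ≤ M) {T : Set E} (hT : T ⊆ Set.range ρ)
    (hM : M ≤ Subfield.closure ((κ : Set E) ∪ T)) :
    Subfield.relfinrank κ M ≤ finrank K F := by
  obtain ⟨ι, _, b, hcard⟩ := h13_exists_basis (O := O) K (F := F)
  rw [← hcard]
  exact h13_relfinrank_le_card ρ κ b hκ hκM hT hM

/-- **QEPC-abs**: if `[F : K] ≤ [M : κ]`, then `ker ρ ⊆ π C`. -/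
theorem h13_qepc {π : O} (hπ : Irreducible π)
    (hρπ : ρ (algebraMap O (integralClosure O F) π) = 0)
    (hκ : ∀ z : E, z ∈ κ ↔ ∃ a : O, ρ (algebraMap O (integralClosure O F) a) = z)
    {M : Subfield E} (hκM : κ ≤ M) {T : Set E} (hT : T ⊆ Set.range ρ)
    (hM : M ≤ Subfield.closure ((κ : Set E) ∪ T))
    (hdeg : finrank K F ≤ Subfield.relfinrank κ M)
    (x : integralClosure O F) (hx : ρ x = 0) :
    ∃ y : integralClosure O F, x = algebraMap O (integralClosure O F) π * y := by
  obtain ⟨ι, _, b, hcard⟩ := h13_exists_basis (O := O) K (F := F)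
  rw [← hcard] at hdeg
  exact h13_qepc_of_basis ρ κ b hκ hκM hT hM hdeg π
    (h13_dvd_of_map_eq_zero hπ ρ hρπ) x hx

/-- **QEPC-abs**, kernel form. -/
theorem h13_qepc_ker {π : O} (hπ : Irreducible π)
    (hρπ : ρ (algebraMap O (integralClosure O F) π) = 0)
    (hκ : ∀ z : E, z ∈ κ ↔ ∃ a : O, ρ (algebraMap O (integralClosure O F) a) = z)
    {M : Subfield E} (hκM : κ ≤ M) {T : Set E} (hT : T ⊆ Set.range ρ)
    (hM : M ≤ Subfield.closure ((κ : Set E) ∪ T))
    (hdeg : finrank K F ≤ Subfield.relfinrank κ M) :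
    RingHom.ker ρ = Ideal.span {algebraMap O (integralClosure O F) π} := by
  apply le_antisymm
  · intro x hx
    obtain ⟨y, hy⟩ := h13_qepc K ρ κ hπ hρπ hκ hκM hT hM hdeg x hx
    exact Ideal.mem_span_singleton.mpr ⟨y, hy⟩
  · rw [Ideal.span_le, Set.singleton_subset_iff]
    exact hρπ

include K in
/-- By-product: `range ρ` is closed under inverses (it is a field). -/
theorem h13_inv_mem_range_closure
    (hκ : ∀ z : E, z ∈ κ ↔ ∃ a : O, ρ (algebraMap O (integralClosure O F) a) = z)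
    (x : integralClosure O F) :
    ∃ y : integralClosure O F, ρ y = (ρ x)⁻¹ := by
  obtain ⟨ι, _, b, -⟩ := h13_exists_basis (O := O) K (F := F)
  exact h13_inv_mem_range ρ κ b hκ x

end Main

end Fermat.Agent.S28.Alg.H13
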