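import Fermat.Agent.S28.Alg.H15_Sat
import Fermat.Agent.S28.Alg.H6_QbFin

/-!
# S28 / ALG (helper15): `Asm.StQEP` from `StBasis`

Wiring of `h15_stSat_fin` / `h15_stSat_inf` into helper6's `H6.stQEP_of_sat`.
-/

set_option autoImplicit false

open ModularCurve ModularCurve.IgusaScheme

namespace Fermat.Agent.S28.Alg.H15

open Fermat.Agent.S28.Alg Fermat.Agent.S28.Asm

/-- the two saturation statements are verbatim the leaf propositions. -/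
example (N : ℕ) [NeZero N] (ℓ : ℕ) [Fact ℓ.Prime] (hB : StBasis N ℓ) (h0 : StDEG0 N)
    (hD : StDEG N ℓ) : StSat N ℓ {jFull N} ∧ StSat N ℓ {(jFull N)⁻¹} :=
  ⟨h15_stSat_fin N ℓ hB h0 hD, h15_stSat_inf N ℓ hB h0 hD⟩

/-- **`Asm.StQEP` from `StBasis`** (all three charts). -/
theorem h15_stQEP_of_basis
    (hB : ∀ (N : ℕ) [NeZero N] (ℓ : ℕ) [Fact ℓ.Prime], StBasis N ℓ) : Asm.StQEP :=
  H6.stQEP_of_sat
    (fun N _ ℓ _ h0 hD => h15_stSat_fin N ℓ (hB N ℓ) h0 hD)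
    (fun N _ ℓ _ h0 hD => h15_stSat_inf N ℓ (hB N ℓ) h0 hD)

end Fermat.Agent.S28.Alg.H15
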