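import Mathlib
import Fermat.Prelude.Def_GaloisRep_Flat

/-!
# S28 / ALG (helper18): basic ring theory of `Z_(ℓ) = GaloisRep.ratLocalizedAt ℓ`

* `valSubring ℓ : ValuationSubring ℚ` with underlying subring `ratLocalizedAt ℓ`;
* `isIntegrallyClosed_Zl : IsIntegrallyClosed ↥(ratLocalizedAt ℓ)`;
* `natCast_dvd_iff_not_isUnit`, `prime_natCast_Zl : Prime (ℓ : ↥(ratLocalizedAt ℓ))`.
-/

set_option autoImplicit false

namespace Fermat.Agent.S28.Alg.H18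

theorem mem_Zl_iff (ℓ : ℕ) {q : ℚ} : q ∈ GaloisRep.ratLocalizedAt ℓ ↔ q.den.Coprime ℓ := Iff.rfl

theorem natCast_mem_Zl (ℓ : ℕ) (n : ℕ) : (n : ℚ) ∈ GaloisRep.ratLocalizedAt ℓ := natCast_mem _ n

theorem coe_natCast_Zl (ℓ : ℕ) (n : ℕ) : (((n : ℕ) : ↥(GaloisRep.ratLocalizedAt ℓ)) : ℚ) = n := rfl

variable (ℓ : ℕ) [Fact ℓ.Prime]

theorem inv_mem_Zl_of_not_dvd {q : ℚ} (h : ¬ (ℓ ∣ q.num.natAbs)) :
    q⁻¹ ∈ GaloisRep.ratLocalizedAt ℓ := by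
  have hq : q ≠ 0 := by
    rintro rfl
    simp at h
  rw [mem_Zl_iff, Rat.den_inv_of_ne_zero hq]
  exact ((Nat.Prime.coprime_iff_not_dvd (Fact.out : ℓ.Prime)).mpr h).symm

theorem mem_or_inv_mem_Zl (q : ℚ) :
    q ∈ GaloisRep.ratLocalizedAt ℓ ∨ q⁻¹ ∈ GaloisRep.ratLocalizedAt ℓ := by
  by_cases h : q.den.Coprime ℓ
  · exact Or.inl h
  · right
    apply inv_mem_Zl_of_not_dvd
    intro hnum
    have hden : ℓ ∣ q.den := by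
      by_contra hd
      exact h ((Nat.Prime.coprime_iff_not_dvd (Fact.out : ℓ.Prime)).mpr hd).symm
    have := Nat.eq_one_of_dvd_coprimes q.reduced hnum hden
    exact (Fact.out : ℓ.Prime).one_lt.ne' this

/-- `Z_(ℓ)` as a valuation subring of `ℚ`. -/
def valSubring : ValuationSubring ℚ :=
  { GaloisRep.ratLocalizedAt ℓ with
    mem_or_inv_mem' := mem_or_inv_mem_Zl ℓ }

theorem valSubring_toSubring : (valSubring ℓ).toSubring = GaloisRep.ratLocalizedAt ℓ := rfl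

instance isIntegrallyClosed_Zl : IsIntegrallyClosed ↥(GaloisRep.ratLocalizedAt ℓ) :=
  inferInstanceAs (IsIntegrallyClosed ↥(valSubring ℓ).toSubring)

theorem not_isUnit_natCast_Zl : ¬ IsUnit ((ℓ : ℕ) : ↥(GaloisRep.ratLocalizedAt ℓ)) := by
  intro h
  obtain ⟨u, hu⟩ := h.exists_right_inv
  have h1 : ((ℓ : ℕ) : ℚ) * (u : ℚ) = 1 := by
    have := congrArg (Subtype.val) hu
    simpa using this
  have hl0 : ((ℓ : ℕ) : ℚ) ≠ 0 := Nat.cast_ne_zero.mpr (Fact.out : ℓ.Prime).ne_zero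
  have h2 : (u : ℚ) = ((ℓ : ℕ) : ℚ)⁻¹ := by
    field_simp
    linarith
  have h3 : ((ℓ : ℕ) : ℚ)⁻¹ ∈ GaloisRep.ratLocalizedAt ℓ := h2 ▸ u.2
  rw [mem_Zl_iff, Rat.inv_natCast_den_of_pos (Fact.out : ℓ.Prime).pos] at h3
  exact (Fact.out : ℓ.Prime).one_lt.ne' ((Nat.coprime_self ℓ).mp h3)

theorem isUnit_of_not_dvd_num (a : ↥(GaloisRep.ratLocalizedAt ℓ))
    (h : ¬ (ℓ ∣ (a : ℚ).num.natAbs)) : IsUnit a := by
  have hq : (a : ℚ) ≠ 0 := by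
    intro h0
    rw [h0] at h
    simp at h
  refine IsUnit.of_mul_eq_one ⟨(a : ℚ)⁻¹, inv_mem_Zl_of_not_dvd ℓ h⟩ (Subtype.ext ?_)
  simp [hq]

theorem natCast_dvd_of_dvd_num (a : ↥(GaloisRep.ratLocalizedAt ℓ))
    (h : ℓ ∣ (a : ℚ).num.natAbs) : ((ℓ : ℕ) : ↥(GaloisRep.ratLocalizedAt ℓ)) ∣ a := by
  have hl0 : ((ℓ : ℕ) : ℚ) ≠ 0 := Nat.cast_ne_zero.mpr (Fact.out : ℓ.Prime).ne_zero
  have hdvd : (ℓ : ℤ) ∣ (a : ℚ).num := Int.natCast_dvd.mpr h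
  obtain ⟨k, hk⟩ := hdvd
  have hmem : (k : ℚ) / ((a : ℚ).den : ℚ) ∈ GaloisRep.ratLocalizedAt ℓ := by
    rw [mem_Zl_iff]
    have h1 : (((Rat.divInt k ((a : ℚ).den : ℤ)).den : ℤ)) ∣ ((a : ℚ).den : ℤ) := Rat.den_dvd _ _
    have h2 : (Rat.divInt k ((a : ℚ).den : ℤ)).den ∣ (a : ℚ).den := Int.natCast_dvd_natCast.mp h1
    have h3 : (k : ℚ) / ((a : ℚ).den : ℚ) = Rat.divInt k ((a : ℚ).den : ℤ) := by
      rw [Rat.divInt_eq_div]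
      simp
    rw [h3]
    exact Nat.Coprime.coprime_dvd_left h2 a.2
  refine ⟨⟨_, hmem⟩, Subtype.ext ?_⟩
  have h4 : (a : ℚ) = ((a : ℚ).num : ℚ) / ((a : ℚ).den : ℚ) := (Rat.num_div_den _).symm
  have hden : (((a : ℚ).den : ℕ) : ℚ) ≠ 0 := Nat.cast_ne_zero.mpr (Rat.den_nz _)
  show (a : ℚ) = ((ℓ : ℕ) : ℚ) * ((k : ℚ) / ((a : ℚ).den : ℚ))
  conv_lhs => rw [h4, hk]
  push_cast
  ring

/-- In `Z_(ℓ)`: `ℓ ∣ a` iff `a` is not a unit. -/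
theorem natCast_dvd_iff_not_isUnit (a : ↥(GaloisRep.ratLocalizedAt ℓ)) :
    ((ℓ : ℕ) : ↥(GaloisRep.ratLocalizedAt ℓ)) ∣ a ↔ ¬ IsUnit a := by
  constructor
  · rintro ⟨b, rfl⟩ hu
    exact not_isUnit_natCast_Zl ℓ (isUnit_of_mul_isUnit_left hu)
  · intro hu
    by_contra hd
    exact hu (isUnit_of_not_dvd_num ℓ a fun h => hd (natCast_dvd_of_dvd_num ℓ a h))

theorem natCast_ne_zero_Zl : ((ℓ : ℕ) : ↥(GaloisRep.ratLocalizedAt ℓ)) ≠ 0 := by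
  intro h
  have := congrArg (Subtype.val) h
  simp only [coe_natCast_Zl] at this
  exact Nat.cast_ne_zero.mpr (Fact.out : ℓ.Prime).ne_zero this

/-- `ℓ` is a prime element of `Z_(ℓ)`. -/
theorem prime_natCast_Zl : Prime ((ℓ : ℕ) : ↥(GaloisRep.ratLocalizedAt ℓ)) := by
  refine ⟨natCast_ne_zero_Zl ℓ, not_isUnit_natCast_Zl ℓ, fun a b hab => ?_⟩
  rw [natCast_dvd_iff_not_isUnit] at hab ⊢
  rw [natCast_dvd_iff_not_isUnit]
  by_contra h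
  rw [not_or, not_not, not_not] at h
  exact hab (h.1.mul h.2)

end Fermat.Agent.S28.Alg.H18
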