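import Mathlib
import Fermat.Prelude.Def_ModularCurve_IgusaScheme
import Fermat.Prelude.Def_ModularCurve_X0ModL
import Fermat.Agent.S28.Asm.Defs
import Fermat.Agent.S28.Alg.H18_QepbPoly
import Fermat.Agent.S28.Alg.H18_Zl
import Fermat.Agent.S28.Mod.H14_PolyJ

/-!
# S28 / ALG (helper18): the step `QEP_C ⇒ QEP_B` on the three charts

`IsOv N ℓ c` : `c ∈ F_N` is a fraction `a(j) / b(j)` with `a, b ∈ Zl[X]`, `b ∉ ℓ Zl[X]`
(i.e. `c ∈ O_v`, the localisation of `Zl[j]` at the prime `(ℓ)`).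

* `mem_chartAlg_of_isOv` : for each of the three charts `S`: if `x ∈ B_S`, `x = ℓ y` and `y` is a
  root of a monic polynomial with coefficients in `O_v`, then `y ∈ B_S`.
* `stQEPB_of` : hence `Asm.StQEPB N ℓ S` from any ring hom `ρ : B_S → k((q))` such that every
  `x` with `ρ x = 0` is `ℓ y` with `y` integral over `O_v`.
-/

set_option autoImplicit false
set_option linter.style.haveILetI false
set_option linter.unusedSectionVars false

open Polynomial ModularCurve ModularCurve.IgusaScheme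

namespace Fermat.Agent.S28.Alg.H18

open Fermat.Agent.S28.Asm

variable (N : ℕ) [NeZero N] (ℓ : ℕ) [Fact ℓ.Prime]

/-- `c ∈ O_v`: `c = a(j) / b(j)` with `a, b ∈ Zl[X]`, `b ∉ ℓ Zl[X]`. -/
def IsOv (c : FN N) : Prop := IsLocFrac ((ℓ : ℕ) : Zl ℓ) (jFull N) c

theorem isOv_iff (c : FN N) :
    IsOv N ℓ c ↔ ∃ a b : (Zl ℓ)[X], ¬ (C ((ℓ : ℕ) : Zl ℓ) ∣ b) ∧
      c * aeval (jFull N) b = aeval (jFull N) a := Iff.rfl

theorem isOv_iff_inv (c : FN N) :
    IsOv N ℓ c ↔ IsLocFrac ((ℓ : ℕ) : Zl ℓ) (jFull N)⁻¹ c :=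
  (isLocFrac_inv_iff (jFull_ne_zero N)).symm

/-- the coercion `F_N → ℚ((q))` of a polynomial expression in `j`. -/
theorem coe_aeval_jFull (P : (Zl ℓ)[X]) :
    ((aeval (jFull N) P : FN N) : LaurentSeries ℚ) =
      aeval (jqModC ℚ) (P.map (algebraMap (Zl ℓ) ℚ)) := by
  rw [aeval_def, aeval_def, eval₂_map]
  have h := Polynomial.hom_eval₂ P (algebraMap (Zl ℓ) (FN N))
    ((modularFunctionFieldFull N).val : FN N →+* LaurentSeries ℚ) (jFull N)
  have hcomp : ((modularFunctionFieldFull N).val : FN N →+* LaurentSeries ℚ).comp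
      (algebraMap (Zl ℓ) (FN N)) = (algebraMap ℚ (LaurentSeries ℚ)).comp (algebraMap (Zl ℓ) ℚ) :=
    RingHom.ext fun x => by
      show ((algebraMap (Zl ℓ) (FN N) x : FN N) : LaurentSeries ℚ) =
        algebraMap ℚ (LaurentSeries ℚ) (algebraMap (Zl ℓ) ℚ x)
      rw [IsScalarTower.algebraMap_apply (Zl ℓ) ℚ (FN N), eq_ratCast, eq_ratCast]
      rfl
  rw [hcomp] at h
  exact h

theorem aeval_jFull_injective : Function.Injective (aeval (R := Zl ℓ) (jFull N)) := by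
  rw [injective_iff_map_eq_zero]
  intro P hP
  have h1 := coe_aeval_jFull N ℓ P
  rw [hP] at h1
  have h2 := Fermat.Agent.S28.Mod.PolyJ.eq_zero_of_aeval_jqModC_eq_zero _ h1.symm
  have hinj : Function.Injective (algebraMap (Zl ℓ) ℚ) := Subtype.val_injective
  exact (Polynomial.map_eq_zero_iff hinj).mp h2

theorem aeval_jFull_inv_injective : Function.Injective (aeval (R := Zl ℓ) (jFull N)⁻¹) :=
  injective_aeval_inv (jFull_ne_zero N) (aeval_jFull_injective N ℓ)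

theorem algebraMap_natCast_FN : algebraMap (Zl ℓ) (FN N) ((ℓ : ℕ) : Zl ℓ) = ((ℓ : ℕ) : FN N) :=
  map_natCast _ _

/-- **`QEP_C ⇒ QEP_B`, finite chart.** -/
theorem mem_chartAlgFin_of_isOv {x y : FN N} (hx : x ∈ chartAlgFin N ℓ)
    (hxy : x = ((ℓ : ℕ) : FN N) * y) (P : (FN N)[X]) (hP : P.Monic) (hPy : P.eval y = 0)
    (hc : ∀ i, IsOv N ℓ (P.coeff i)) : y ∈ chartAlgFin N ℓ := by
  rw [mem_chartAlg_iff] at hx ⊢
  rw [← algebraMap_natCast_FN] at hxy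
  exact isIntegral_adjoin_of_isLocFrac (aeval_jFull_injective N ℓ) (prime_natCast_Zl ℓ) hx hxy
    P hP hPy hc

/-- **`QEP_C ⇒ QEP_B`, chart at infinity.** -/
theorem mem_chartAlgInf_of_isOv {x y : FN N} (hx : x ∈ chartAlgInf N ℓ)
    (hxy : x = ((ℓ : ℕ) : FN N) * y) (P : (FN N)[X]) (hP : P.Monic) (hPy : P.eval y = 0)
    (hc : ∀ i, IsOv N ℓ (P.coeff i)) : y ∈ chartAlgInf N ℓ := by
  rw [mem_chartAlg_iff] at hx ⊢
  rw [← algebraMap_natCast_FN] at hxy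
  exact isIntegral_adjoin_of_isLocFrac (aeval_jFull_inv_injective N ℓ) (prime_natCast_Zl ℓ) hx
    hxy P hP hPy fun i => (isOv_iff_inv N ℓ _).mp (hc i)

/-- **`QEP_C ⇒ QEP_B`, middle chart.** -/
theorem mem_chartAlgMid_of_isOv {x y : FN N} (hx : x ∈ chartAlgMid N ℓ)
    (hxy : x = ((ℓ : ℕ) : FN N) * y) (P : (FN N)[X]) (hP : P.Monic) (hPy : P.eval y = 0)
    (hc : ∀ i, IsOv N ℓ (P.coeff i)) : y ∈ chartAlgMid N ℓ := by
  have hj0 := jFull_ne_zero N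
  have hx' : x ∈ chartAlg N ℓ (insert (jFull N)⁻¹ {jFull N}) := by
    rw [show insert (jFull N)⁻¹ ({jFull N} : Set (FN N)) = {jFull N, (jFull N)⁻¹}
      from Set.pair_comm _ _]
    exact hx
  obtain ⟨n, hn⟩ := exists_pow_mul_mem_chartAlg (Set.mem_singleton _) hj0 hx'
  -- `j ^ n * y` is a root of `P.scaleRoots (j ^ n)`
  have hl : Prime ((ℓ : ℕ) : Zl ℓ) := prime_natCast_Zl ℓ
  have hroot : (P.scaleRoots (jFull N ^ n)).eval (jFull N ^ n * y) = 0 := by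
    rw [Polynomial.scaleRoots_eval_mul, hPy, mul_zero]
  have hmonic : (P.scaleRoots (jFull N ^ n)).Monic := (Polynomial.monic_scaleRoots_iff _).mpr hP
  have hcoeff : ∀ i, IsOv N ℓ ((P.scaleRoots (jFull N ^ n)).coeff i) := by
    intro i
    rw [Polynomial.coeff_scaleRoots]
    exact (hc i).mul hl (((isLocFrac_self _ hl.not_isUnit (jFull N)).pow hl n).pow hl _)
  have hxy' : jFull N ^ n * x = ((ℓ : ℕ) : FN N) * (jFull N ^ n * y) := by
    rw [hxy]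
    ring
  have h1 : jFull N ^ n * y ∈ chartAlgFin N ℓ :=
    mem_chartAlgFin_of_isOv N ℓ hn hxy' _ hmonic hroot hcoeff
  have h2 : jFull N ^ n * y ∈ chartAlgMid N ℓ := chartAlg_mono N ℓ (sFin_subset N) h1
  have h3 : (jFull N)⁻¹ ∈ chartAlgMid N ℓ := subset_chartAlg N ℓ _ (by simp)
  have h4 : y = (jFull N)⁻¹ ^ n * (jFull N ^ n * y) := by
    rw [← mul_assoc, ← mul_pow, inv_mul_cancel₀ hj0, one_pow, one_mul]
  rw [h4]
  exact mul_mem (pow_mem h3 n) h2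

/-- The three charts. -/
theorem mem_chartAlg_of_isOv {S : Set (FN N)}
    (hS : S = {jFull N} ∨ S = {(jFull N)⁻¹} ∨ S = {jFull N, (jFull N)⁻¹}) {x y : FN N}
    (hx : x ∈ chartAlg N ℓ S) (hxy : x = ((ℓ : ℕ) : FN N) * y) (P : (FN N)[X]) (hP : P.Monic)
    (hPy : P.eval y = 0) (hc : ∀ i, IsOv N ℓ (P.coeff i)) : y ∈ chartAlg N ℓ S := by
  rcases hS with rfl | rfl | rfl
  · exact mem_chartAlgFin_of_isOv N ℓ hx hxy P hP hPy hc
  · exact mem_chartAlgInf_of_isOv N ℓ hx hxy P hP hPy hc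
  · exact mem_chartAlgMid_of_isOv N ℓ hx hxy P hP hPy hc

/-- **`QEP_B` from `QEP_C`**: `Asm.StQEPB N ℓ S` from any ring homomorphism
`ρ : B_S → k((q))` such that every `x` with `ρ x = 0` is `ℓ y` with `y ∈ F_N` integral
over `O_v`. -/
theorem stQEPB_of {S : Set (FN N)}
    (hS : S = {jFull N} ∨ S = {(jFull N)⁻¹} ∨ S = {jFull N, (jFull N)⁻¹})
    (ρ : ↥(chartAlg N ℓ S) →+* LaurentSeries (ZMod ℓ))
    (hρ : ∀ x : ↥(chartAlg N ℓ S), ρ x = 0 → ∃ (y : FN N) (P : (FN N)[X]),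
      (x : FN N) = ((ℓ : ℕ) : FN N) * y ∧ P.Monic ∧ P.eval y = 0 ∧
        ∀ i, IsOv N ℓ (P.coeff i)) :
    StQEPB N ℓ S := by
  refine ⟨ρ, ?_⟩
  ext x
  rw [RingHom.mem_ker, Ideal.mem_span_singleton]
  constructor
  · intro hx
    obtain ⟨y, P, hxy, hP, hPy, hc⟩ := hρ x hx
    have hy : y ∈ chartAlg N ℓ S := mem_chartAlg_of_isOv N ℓ hS x.2 hxy P hP hPy hc
    exact ⟨⟨y, hy⟩, Subtype.ext hxy⟩
  · rintro ⟨z, rfl⟩
    rw [map_mul, map_natCast]
    have : ((ℓ : ℕ) : LaurentSeries (ZMod ℓ)) = 0 := by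
      have h1 : ((ℓ : ℕ) : LaurentSeries (ZMod ℓ)) =
          algebraMap (ZMod ℓ) (LaurentSeries (ZMod ℓ)) ((ℓ : ℕ) : ZMod ℓ) := (map_natCast _ _).symm
      rw [h1, ZMod.natCast_self, map_zero]
    rw [this, zero_mul]

end Fermat.Agent.S28.Alg.H18
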