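import Fermat.Agent.S28.Alg.H5_Gauss
import Fermat.Agent.S28.Alg.H2_RedF
import Fermat.Agent.S28.Alg.H29_Basis
import Fermat.Agent.S28.Asm.H11_Deg
import Fermat.Agent.S28.Mod.H23_Deg0

/-!
# S28, package ALG (helper1): `StIndep` and the deliverable `Asm.StQEPC_DEGU`

* `h1_basisHyp ℓ` : helper29's `BasisHyp` for `E = ℚ(j)`, `F = ℚ((q))`, `W = O_W`, `ρ = ρ_W`,
  `π = ℓ`, `κ = k(jb)`;
* `h1_stIndep N ℓ : StIndep N ℓ`;
* `h1_stDEGU M ℓ : StDEG0 M → StDEGU M ℓ` and `h1_stQEPC_DEGU : Asm.StQEPC_DEGU`.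
-/

set_option autoImplicit false
open ModularCurve ModularCurve.IgusaScheme

noncomputable section

namespace Fermat.Agent.S28.Alg.H1D

open Fermat.Agent.S28.Asm Fermat.Agent.S28.Alg

section Level0

variable (ℓ : ℕ) [Fact ℓ.Prime]

theorem h1_coe_natCast (n : ℕ) : ((n : ↥K0) : LaurentSeries ℚ) = (n : LaurentSeries ℚ) := by
  push_cast; rfl

theorem h1_natCast_mem_OW (n : ℕ) : ((n : ↥K0) : LaurentSeries ℚ) ∈ OW ℓ := by
  rw [h1_coe_natCast]
  exact natCast_mem _ n

theorem h1_ell_ne_zero : ((ℓ : ℕ) : LaurentSeries ℚ) ≠ 0 :=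
  H5.natCast_ne_zero_L ℓ

/-- helper29's `BasisHyp` for `E = ℚ(j)`, `F = ℚ((q))`, `W = O_W`, `ρ = ρ_W`, `π = ℓ`,
`κ = k(jb)`. -/
theorem h1_basisHyp :
    H29.BasisHyp (E := ↥K0) (F := LaurentSeries ℚ) (L := LaurentSeries (ZMod ℓ))
      ↥(kappa (ZMod ℓ)) (OW ℓ) (rhoW ℓ) ((ℓ : ℕ) : ↥K0) where
  π_ne := by
    intro h
    apply h1_ell_ne_zero ℓ
    rw [← h1_coe_natCast, h]
    rfl
  π_mem := h1_natCast_mem_OW ℓ ℓ
  ρ_π := by
    rw [H5.stRhoWKer ℓ]
    refine ⟨1, ?_⟩
    apply Subtype.ext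
    show ((ℓ : ↥K0) : LaurentSeries ℚ) = _
    rw [h1_coe_natCast]
    push_cast
    ring
  val := by
    intro c hc
    have hcK : (c : LaurentSeries ℚ) ∈ KW ℓ := (stK0le ℓ 1).1 _ c.2
    have hc0 : (c : LaurentSeries ℚ) ≠ 0 := fun h => hc (Subtype.ext h)
    obtain ⟨e, u, hu, hρ⟩ := H5.stVal ℓ _ hcK hc0
    have hℓ0 := h1_ell_ne_zero ℓ
    -- `u ∈ K0`
    have huK : (u : LaurentSeries ℚ) ∈ K0 := by
      have : (u : LaurentSeries ℚ) = (c : LaurentSeries ℚ) * ((ℓ : ℕ) : LaurentSeries ℚ) ^ (-e) := by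
        rw [hu, zpow_neg]
        field_simp
      rw [this]
      refine mul_mem c.2 (zpow_mem ?_ _)
      exact natCast_mem _ ℓ
    have hmem : algebraMap ↥K0 (LaurentSeries ℚ) ⟨(u : LaurentSeries ℚ), huK⟩ ∈ OW ℓ := u.2
    rcases le_or_gt 0 e with he | he
    · obtain ⟨n, rfl⟩ := Int.eq_ofNat_of_zero_le he
      refine ⟨0, n, ⟨(u : LaurentSeries ℚ), huK⟩, hmem, hρ, ?_⟩
      apply Subtype.ext
      push_cast
      rw [hu]
      simp
    · obtain ⟨n, hn⟩ := Int.eq_ofNat_of_zero_le (neg_nonneg.mpr he.le)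
      refine ⟨n, 0, ⟨(u : LaurentSeries ℚ), huK⟩, hmem, hρ, ?_⟩
      apply Subtype.ext
      push_cast
      rw [hu]
      have he' : e = -(n : ℤ) := by omega
      rw [he', zpow_neg, zpow_natCast]
      field_simp
  kap := by
    intro u hu
    exact ⟨⟨_, H5.stK0 ℓ ⟨_, hu⟩ u.2⟩, rfl⟩

end Level0

section LevelN

variable (N : ℕ) [NeZero N] (ℓ : ℕ) [Fact ℓ.Prime]

omit [NeZero N] in
/-- **[QC-DIM]** verbatim. -/
theorem h1_stIndep : StIndep N ℓ := by
  intro n c hc
  exact (h1_basisHyp ℓ).linearIndependent_of_rho (fun i => CWtoOW N ℓ (c i)) hc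

end LevelN

/-! ### Bridge between `k(j) ⊆ Fb_N` (as in `degC`) and `k(j) ⊆ k((q))` -/

section Bridge

variable (k : Type) [Field k] (N : ℕ) [NeZero N]

/-- `k(j)` as an intermediate field of `Fb_N / k`, with the instances of `degC` (for `k = ℚ`
the elaborator would otherwise pick another `ℚ`-algebra structure). -/
abbrev h1_kp : IntermediateField k ↥(modularFunctionFieldFullC k N) :=
  IntermediateField.adjoin k {jbFull k N}

theorem h1_map_adjoin :
    (IntermediateField.adjoin k {jbFull k N}).map (modularFunctionFieldFullC k N).val =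
      kappa k := by
  rw [IntermediateField.adjoin_map, Set.image_singleton]
  rfl

theorem h1_coe_mem_kappa (r : ↥(IntermediateField.adjoin k {jbFull k N})) :
    (((r : ↥(modularFunctionFieldFullC k N)) : LaurentSeries k)) ∈ kappa k := by
  rw [← h1_map_adjoin k N]
  exact ⟨r, r.2, rfl⟩

theorem h1_exists_of_mem_kappa (s : LaurentSeries k) (hs : s ∈ kappa k) :
    ∃ r : ↥(IntermediateField.adjoin k {jbFull k N}),
      (((r : ↥(modularFunctionFieldFullC k N)) : LaurentSeries k)) = s := by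
  rw [← h1_map_adjoin k N] at hs
  obtain ⟨r, hr, rfl⟩ := hs
  exact ⟨⟨r, hr⟩, rfl⟩

/-- Independence over `k(j)` inside `Fb_N` gives independence over `k(j)` inside `k((q))`. -/
theorem h1_indep_coe {m : ℕ} (y : Fin m → ↥(modularFunctionFieldFullC k N))
    (hy : LinearIndependent ↥(IntermediateField.adjoin k {jbFull k N}) y) :
    LinearIndependent ↥(kappa k) (fun i => ((y i : ↥(modularFunctionFieldFullC k N)) :
      LaurentSeries k)) := by
  rw [Fintype.linearIndependent_iff] at hy ⊢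
  intro g hg i
  choose r hr using fun i => h1_exists_of_mem_kappa k N (g i : LaurentSeries k) (g i).2
  have h0 : ((∑ i, r i • y i : ↥(modularFunctionFieldFullC k N)) : LaurentSeries k) =
      ∑ i, g i • ((y i : ↥(modularFunctionFieldFullC k N)) : LaurentSeries k) := by
    rw [← IntermediateField.coe_val, map_sum]
    refine Finset.sum_congr rfl fun i _ => ?_
    show ((r i : ↥(modularFunctionFieldFullC k N)) : LaurentSeries k) * _ =
      (g i : LaurentSeries k) * _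
    rw [hr i]
    rfl
  have h1 : ∑ i, r i • y i = 0 := by
    apply Subtype.ext
    rw [h0, hg]
    rfl
  have h2 := hy r h1 i
  apply Subtype.ext
  rw [← hr i, h2]
  rfl

/-- Independence over `k(j)` inside `k((q))` of a family in `Fb_N` gives independence over
`k(j)` inside `Fb_N`. -/
theorem h1_indep_of_coe {m : ℕ} (y : Fin m → ↥(modularFunctionFieldFullC k N))
    (hy : LinearIndependent ↥(kappa k) (fun i => ((y i : ↥(modularFunctionFieldFullC k N)) :
      LaurentSeries k))) :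
    LinearIndependent ↥(IntermediateField.adjoin k {jbFull k N}) y := by
  rw [Fintype.linearIndependent_iff] at hy ⊢
  intro g hg i
  have h1 : ∑ i, (⟨_, h1_coe_mem_kappa k N (g i)⟩ : ↥(kappa k)) •
      ((y i : ↥(modularFunctionFieldFullC k N)) : LaurentSeries k) = 0 := by
    have h0 : (modularFunctionFieldFullC k N).val (∑ i, g i • y i) =
        ∑ i, (⟨_, h1_coe_mem_kappa k N (g i)⟩ : ↥(kappa k)) •
          ((y i : ↥(modularFunctionFieldFullC k N)) : LaurentSeries k) := by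
      rw [map_sum]
      rfl
    rw [← h0, hg]
    rfl
  have h2 := hy _ h1 i
  have h3 : (((g i : ↥(modularFunctionFieldFullC k N)) : LaurentSeries k)) = 0 :=
    congrArg (fun x : ↥(kappa k) => (x : LaurentSeries k)) h2
  apply Subtype.ext
  apply Subtype.ext
  rw [h3]
  rfl

end Bridge

/-! ### DEGU -/

section Degu

variable (M : ℕ) [NeZero M] (ℓ : ℕ) [Fact ℓ.Prime]

/-- A `k(jb)`-independent family in `Fb_M` has at most `[F_M : ℚ(j)]` members. -/
theorem h1_card_le (hfin : Mod.H23.FinDimC ℚ M) (m : ℕ)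
    (y : Fin m → ↥(modularFunctionFieldFullC (ZMod ℓ) M))
    (hy : LinearIndependent ↥(h1_kp (ZMod ℓ) M) y) :
    m ≤ degC ℚ M := by
  have hy' := h1_indep_coe (ZMod ℓ) M y hy
  have hlift : ∀ i, ∃ x : CW M ℓ, rhoC M ℓ x =
      ((y i : ↥(modularFunctionFieldFullC (ZMod ℓ) M)) : LaurentSeries (ZMod ℓ)) :=
    fun i => stImage M ℓ (H5.stUnit ℓ) _ (y i).2
  choose c hc using hlift
  have hind : LinearIndependent ↥K0
      (fun i => (((c i : CW M ℓ) : FN M) : LaurentSeries ℚ)) := by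
    apply h1_stIndep M ℓ m c
    have : (fun i => rhoC M ℓ (c i)) = fun i =>
        ((y i : ↥(modularFunctionFieldFullC (ZMod ℓ) M)) : LaurentSeries (ZMod ℓ)) :=
      funext hc
    rw [this]
    exact hy'
  let z : Fin m → ↥(modularFunctionFieldFullC ℚ M) := fun i =>
    ⟨(((c i : CW M ℓ) : FN M) : LaurentSeries ℚ), by
      rw [modularFunctionFieldFullC_rat]; exact ((c i : CW M ℓ) : FN M).2⟩
  have hz : LinearIndependent ↥(h1_kp ℚ M) z :=
    h1_indep_of_coe ℚ M z hind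
  have : Module.Finite ↥(h1_kp ℚ M) ↥(modularFunctionFieldFullC ℚ M) := hfin
  have h := hz.fintype_card_le_finrank
  rw [Fintype.card_fin] at h
  exact h

/-- **DEGU** at level `M`: `D_M ≤ [F_M : ℚ(j)] ≤ ψ(M)`, finite. -/
theorem h1_stDEGU (h0 : StDEG0 M) : StDEGU M ℓ := by
  obtain ⟨hfin, hle⟩ := (Mod.H23.stDEG0_iff M).mp h0
  obtain ⟨h1, h2⟩ := H29.finite_and_finrank_le_of_forall (degC ℚ M) (h1_card_le M ℓ hfin)
  exact ⟨h1, h2.trans hle⟩

end Degu

/-- **Deliverable DEGU (part of QEPC)**, verbatim `Asm.StQEPC_DEGU`. -/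
theorem h1_stQEPC_DEGU : Asm.StQEPC_DEGU := fun M _ ℓ _ h0 => h1_stDEGU M ℓ h0

end Fermat.Agent.S28.Alg.H1D
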