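import Mathlib
import Fermat.Agent.S28.Asm.Defs

/-!
# S28, package ALG, deliverable TENS (helper26)

`StQEPB N ℓ S → IsDomain (chartAlg N ℓ S ⊗[Zl ℓ] K)` for every field `K` of characteristic `ℓ`.

Route: `Ψ : B ⊗[Zl] K → K((q))`, `b ⊗ c ↦ (ρ b)^ι * c` is an injective ring homomorphism into a
field.
-/

set_option autoImplicit false
open ModularCurve ModularCurve.IgusaScheme
open scoped TensorProduct

noncomputable section

namespace Fermat.Agent.S28.Alg.H26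

open Fermat.Agent.S28.Asm

/-! ### Ring homomorphisms out of `Z_(ℓ)` are unique -/

section Unique

variable {ℓ : ℕ}

/-- the denominator of an element of `Z_(ℓ)`, as an element of `Z_(ℓ)`. -/
def denZl (r : Zl ℓ) : Zl ℓ := ((r : ℚ).den : Zl ℓ)

/-- the inverse of the denominator of an element of `Z_(ℓ)`, as an element of `Z_(ℓ)`. -/
def denInvZl (r : Zl ℓ) : Zl ℓ :=
  ⟨((r : ℚ).den : ℚ)⁻¹, by
    show (((r : ℚ).den : ℚ)⁻¹).den.Coprime ℓ
    have h : (((r : ℚ).den : ℚ)⁻¹).den = (r : ℚ).den := by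
      rw [Rat.inv_natCast_den]
      simp [(r : ℚ).den_pos.ne']
    rw [h]
    exact r.2⟩

theorem denZl_mul_denInvZl (r : Zl ℓ) : denZl r * denInvZl r = 1 := by
  apply Subtype.ext
  simp only [denZl, denInvZl, Subring.coe_mul, Subring.coe_natCast, Subring.coe_one]
  exact mul_inv_cancel₀ (Nat.cast_ne_zero.mpr (r : ℚ).den_pos.ne')

theorem eq_num_mul_denInvZl (r : Zl ℓ) : r = ((r : ℚ).num : Zl ℓ) * denInvZl r := by
  apply Subtype.ext
  simp only [denInvZl, Subring.coe_mul, Subring.coe_intCast]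
  rw [← div_eq_mul_inv, Rat.num_div_den]

theorem ringHom_Zl_ext {A : Type*} [CommRing A] (f g : Zl ℓ →+* A) : f = g := by
  ext r
  have hf : f (denZl r) * f (denInvZl r) = 1 := by
    rw [← map_mul, denZl_mul_denInvZl, map_one]
  have hg : g (denZl r) * g (denInvZl r) = 1 := by
    rw [← map_mul, denZl_mul_denInvZl, map_one]
  have hden : f (denZl r) = g (denZl r) := by simp [denZl]
  have hinv : f (denInvZl r) = g (denInvZl r) := by
    calc f (denInvZl r) = f (denInvZl r) * (g (denZl r) * g (denInvZl r)) := by rw [hg, mul_one]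
      _ = (f (denZl r) * f (denInvZl r)) * g (denInvZl r) := by rw [← hden]; ring
      _ = g (denInvZl r) := by rw [hf, one_mul]
  rw [eq_num_mul_denInvZl r, map_mul, map_mul, hinv, map_intCast, map_intCast]

end Unique

/-! ### The comparison map `Ψ : B ⊗[Zl] K → K((q))` -/

section Main

variable {N : ℕ} {ℓ : ℕ} [Fact ℓ.Prime] {S : Set (FN N)}
  (K : Type) [Field K] [CharP K ℓ] [Algebra (Zl ℓ) K]

/-- `F_ℓ → K`. -/
def iota (ℓ : ℕ) (K : Type) [Field K] [CharP K ℓ] : ZMod ℓ →+* K := ZMod.castHom (dvd_refl ℓ) K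

/-- `b ↦ (ρ b)^ι`, as a `Z_(ℓ)`-algebra homomorphism `B → K((q))`. -/
def fHom (ρ : ↥(chartAlg N ℓ S) →+* LaurentSeries (ZMod ℓ)) :
    ↥(chartAlg N ℓ S) →ₐ[Zl ℓ] LaurentSeries K :=
  { (coeffMap (iota ℓ K)).comp ρ with
    commutes' := fun r =>
      RingHom.congr_fun (ringHom_Zl_ext
        (((coeffMap (iota ℓ K)).comp ρ).comp (algebraMap (Zl ℓ) ↥(chartAlg N ℓ S)))
        (algebraMap (Zl ℓ) (LaurentSeries K))) r }

@[simp] theorem fHom_apply (ρ : ↥(chartAlg N ℓ S) →+* LaurentSeries (ZMod ℓ))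
    (b : ↥(chartAlg N ℓ S)) : fHom K ρ b = coeffMap (iota ℓ K) (ρ b) := rfl

/-- constants, as a `Z_(ℓ)`-algebra homomorphism `K → K((q))`. -/
def gHom (ℓ : ℕ) (K : Type) [Field K] [Algebra (Zl ℓ) K] : K →ₐ[Zl ℓ] LaurentSeries K :=
  { (HahnSeries.C : K →+* LaurentSeries K) with
    commutes' := fun r =>
      RingHom.congr_fun (ringHom_Zl_ext
        ((HahnSeries.C : K →+* LaurentSeries K).comp (algebraMap (Zl ℓ) K))
        (algebraMap (Zl ℓ) (LaurentSeries K))) r }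

omit [Fact ℓ.Prime] [CharP K ℓ] in
@[simp] theorem gHom_apply (c : K) : gHom ℓ K c = HahnSeries.C c := rfl

/-- the comparison map. -/
def Psi (ρ : ↥(chartAlg N ℓ S) →+* LaurentSeries (ZMod ℓ)) :
    ↥(chartAlg N ℓ S) ⊗[Zl ℓ] K →ₐ[Zl ℓ] LaurentSeries K :=
  Algebra.TensorProduct.productMap (fHom K ρ) (gHom ℓ K)

theorem Psi_tmul (ρ : ↥(chartAlg N ℓ S) →+* LaurentSeries (ZMod ℓ))
    (b : ↥(chartAlg N ℓ S)) (c : K) :
    Psi K ρ (b ⊗ₜ[Zl ℓ] c) = coeffMap (iota ℓ K) (ρ b) * HahnSeries.C c := by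
  rw [Psi, Algebra.TensorProduct.productMap_apply_tmul, fHom_apply, gHom_apply]

theorem coeff_Psi_tmul (ρ : ↥(chartAlg N ℓ S) →+* LaurentSeries (ZMod ℓ))
    (b : ↥(chartAlg N ℓ S)) (c : K) (n : ℤ) :
    (Psi K ρ (b ⊗ₜ[Zl ℓ] c)).coeff n = iota ℓ K ((ρ b).coeff n) * c := by
  rw [Psi_tmul, mul_comm, HahnSeries.C_mul_eq_smul, HahnSeries.coeff_smul, coeffMap_coeff,
    smul_eq_mul, mul_comm]

end Main

/-! ### Injectivity of `Ψ` -/

section Inj

variable {N : ℕ} {ℓ : ℕ} [Fact ℓ.Prime] {S : Set (FN N)}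
  (K : Type) [Field K] [CharP K ℓ] [Algebra (Zl ℓ) K]

omit [Fact ℓ.Prime] [CharP K ℓ] in
theorem natCast_smul_K (n : ℕ) (c : K) : ((n : Zl ℓ) • c : K) = (n : K) * c := by
  rw [Algebra.smul_def, map_natCast]

theorem zmod_smul_K (z : ZMod ℓ) (c : K) :
    letI := ZMod.algebra K ℓ
    (z • c : K) = ((z.val : Zl ℓ) • c : K) := by
  letI := ZMod.algebra K ℓ
  haveI : NeZero ℓ := ⟨(Fact.out : ℓ.Prime).ne_zero⟩
  rw [natCast_smul_K, Algebra.smul_def]
  congr 1
  show ZMod.castHom (dvd_refl ℓ) K z = _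
  rw [ZMod.castHom_apply, ZMod.natCast_val]

omit [Fact ℓ.Prime] [Algebra (Zl ℓ) K] in
theorem zmod_smul_K' (z : ZMod ℓ) (c : K) :
    letI := ZMod.algebra K ℓ
    (z • c : K) = iota ℓ K z * c := by
  letI := ZMod.algebra K ℓ
  rw [Algebra.smul_def]
  rfl

/-- every element of `B ⊗[Zl] K` is a finite sum `∑ bᵢ ⊗ eᵢ` over a fixed `F_ℓ`-basis of `K`. -/
theorem exists_repr (x : ↥(chartAlg N ℓ S) ⊗[Zl ℓ] K) :
    letI := ZMod.algebra K ℓ
    ∃ φ : Module.Basis.ofVectorSpaceIndex (ZMod ℓ) K →₀ ↥(chartAlg N ℓ S),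
      x = φ.sum fun i b => b ⊗ₜ[Zl ℓ] (Module.Basis.ofVectorSpace (ZMod ℓ) K i) := by
  letI := ZMod.algebra K ℓ
  induction x using TensorProduct.induction_on with
  | zero => exact ⟨0, by simp⟩
  | tmul b c =>
    set e := Module.Basis.ofVectorSpace (ZMod ℓ) K with he
    refine ⟨(e.repr c).mapRange (fun z => (z.val : Zl ℓ) • b) (by simp), ?_⟩
    rw [Finsupp.sum_mapRange_index (fun i => by simp)]
    have hc : c = (e.repr c).sum fun i z => ((z.val : Zl ℓ) • e i : K) := by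
      conv_lhs => rw [← e.linearCombination_repr c, Finsupp.linearCombination_apply]
      refine Finsupp.sum_congr fun i _ => ?_
      exact zmod_smul_K K _ _
    conv_lhs => rw [hc]
    rw [Finsupp.sum, TensorProduct.tmul_sum, Finsupp.sum]
    refine Finset.sum_congr rfl fun i _ => ?_
    rw [TensorProduct.smul_tmul]
  | add x y hx hy =>
    obtain ⟨φ, hφ⟩ := hx
    obtain ⟨ψ, hψ⟩ := hy
    refine ⟨φ + ψ, ?_⟩
    rw [Finsupp.sum_add_index' (fun i => by simp) (fun i b b' => TensorProduct.add_tmul _ _ _),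
      ← hφ, ← hψ]

theorem tmul_eq_zero_of_rho_eq_zero (ρ : ↥(chartAlg N ℓ S) →+* LaurentSeries (ZMod ℓ))
    (hρ : RingHom.ker ρ = Ideal.span {((ℓ : ℕ) : ↥(chartAlg N ℓ S))})
    (b : ↥(chartAlg N ℓ S)) (hb : ρ b = 0) (c : K) : b ⊗ₜ[Zl ℓ] c = 0 := by
  have hmem : b ∈ RingHom.ker ρ := hb
  rw [hρ, Ideal.mem_span_singleton] at hmem
  obtain ⟨b', rfl⟩ := hmem
  have h1 : ((ℓ : ℕ) : ↥(chartAlg N ℓ S)) * b' = ((ℓ : ℕ) : Zl ℓ) • b' := by
    rw [Algebra.smul_def, map_natCast]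
  rw [h1, TensorProduct.smul_tmul, natCast_smul_K, CharP.cast_eq_zero K ℓ, zero_mul,
    TensorProduct.tmul_zero]

theorem Psi_eq_zero (ρ : ↥(chartAlg N ℓ S) →+* LaurentSeries (ZMod ℓ))
    (hρ : RingHom.ker ρ = Ideal.span {((ℓ : ℕ) : ↥(chartAlg N ℓ S))})
    (x : ↥(chartAlg N ℓ S) ⊗[Zl ℓ] K) (hx : Psi K ρ x = 0) : x = 0 := by
  letI := ZMod.algebra K ℓ
  obtain ⟨φ, rfl⟩ := exists_repr K x
  set e := Module.Basis.ofVectorSpace (ZMod ℓ) K with he
  -- every coefficient vanishes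
  have key : ∀ n : ℤ, φ.mapRange (fun b => (ρ b).coeff n) (by simp) = 0 := by
    intro n
    apply linearIndependent_iff.mp e.linearIndependent
    rw [Finsupp.linearCombination_apply, Finsupp.sum_mapRange_index (fun i => by simp)]
    have h := congrArg (fun y : LaurentSeries K => y.coeff n) hx
    simp only [Finsupp.sum, map_sum, HahnSeries.coeff_zero] at h
    rw [Finsupp.sum]
    rw [← h]
    rw [HahnSeries.coeff_sum]
    refine Finset.sum_congr rfl fun i _ => ?_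
    rw [coeff_Psi_tmul, zmod_smul_K']
  have hzero : ∀ i, ρ (φ i) = 0 := by
    intro i
    ext n
    have := DFunLike.congr_fun (key n) i
    simpa using this
  rw [Finsupp.sum]
  exact Finset.sum_eq_zero fun i _ => tmul_eq_zero_of_rho_eq_zero K ρ hρ (φ i) (hzero i) _

theorem Psi_injective (ρ : ↥(chartAlg N ℓ S) →+* LaurentSeries (ZMod ℓ))
    (hρ : RingHom.ker ρ = Ideal.span {((ℓ : ℕ) : ↥(chartAlg N ℓ S))}) :
    Function.Injective (Psi K ρ).toRingHom := by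
  intro x y hxy
  have h0 : Psi K ρ (x - y) = 0 := by
    have h1 : (Psi K ρ).toRingHom (x - y) = (Psi K ρ).toRingHom x - (Psi K ρ).toRingHom y :=
      RingHom.map_sub _ x y
    rw [hxy, sub_self] at h1
    exact h1
  exact sub_eq_zero.mp (Psi_eq_zero K ρ hρ (x - y) h0)

end Inj

/-- **Deliverable TENS** of package ALG, verbatim `Asm.StTENS`. -/
theorem stTENS : StTENS := by
  intro N _ ℓ _ S K _ _ _ ⟨ρ, hρ⟩
  exact Function.Injective.isDomain (Psi K ρ).toRingHom (Psi_injective K ρ hρ)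

end Fermat.Agent.S28.Alg.H26
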