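import Fermat.Agent.S28.Alg.H5_Leaves

/-!
# S28, package ALG, leaf [RED-F] (helper27): the function fields inside `K_W` and the image of `ρ`

For helper1's definitions (`H1_Defs`): `StJd`, `StFNleKW`, `StK0le`, `StImage`, verbatim.
-/

set_option autoImplicit false

open ModularCurve ModularCurve.IgusaScheme

noncomputable section

namespace Fermat.Agent.S28.Alg.H27

open Fermat.Agent.S28.Alg Fermat.Agent.S28.Asm

section Level0

variable (ℓ : ℕ) [Fact ℓ.Prime]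

/-- [RED-F1] `j_d = iota (j_d over Z_(ℓ))` and `red (j_d) = jb_d`. -/
theorem h27_stJd : StJd ℓ := by
  intro d _
  refine ⟨?_, ?_⟩
  · rw [iota, coeffMap_qExpand, coeffMap_jqModC]
  · rw [red, coeffMap_qExpand, coeffMap_jqModC]

/-- `j_d ∈ O_W`. -/
theorem h27_jd_mem_OW (d : ℕ) [NeZero d] : qExpand ℚ d (jqModC ℚ) ∈ OW ℓ := by
  rw [(h27_stJd ℓ d).1]
  exact iota_mem_OW ℓ _

/-- `ρ_W (j_d) = jb_d`. -/
theorem h27_rhoW_jd (d : ℕ) [NeZero d] :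
    rhoW ℓ ⟨qExpand ℚ d (jqModC ℚ), h27_jd_mem_OW ℓ d⟩ = qExpand (ZMod ℓ) d (jqModC (ZMod ℓ)) := by
  have h : (⟨qExpand ℚ d (jqModC ℚ), h27_jd_mem_OW ℓ d⟩ : OW ℓ) =
      ⟨iota ℓ (qExpand (Zl ℓ) d (jqModC (Zl ℓ))), iota_mem_OW ℓ _⟩ :=
    Subtype.ext (h27_stJd ℓ d).1
  rw [h, rhoW_iota, (h27_stJd ℓ d).2]

/-- `K_W` contains the constants. -/
theorem h27_algebraMap_mem_KW (c : ℚ) : algebraMap ℚ (LaurentSeries ℚ) c ∈ KW ℓ := by
  rw [eq_ratCast]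
  exact SubfieldClass.ratCast_mem (KW ℓ) c

/-- `K_W` as an intermediate field of `ℚ((q))/ℚ`. -/
def h27_KWI : IntermediateField ℚ (LaurentSeries ℚ) :=
  (KW ℓ).toIntermediateField (h27_algebraMap_mem_KW ℓ)

theorem h27_mem_KWI {x : LaurentSeries ℚ} : x ∈ h27_KWI ℓ ↔ x ∈ KW ℓ := Iff.rfl

/-- `j_d ∈ K_W`. -/
theorem h27_jd_mem_KW (d : ℕ) [NeZero d] : qExpand ℚ d (jqModC ℚ) ∈ KW ℓ := by
  rw [(h27_stJd ℓ d).1]
  exact Subfield.subset_closure ⟨_, rfl⟩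

/-- [RED-F2] `F_N ⊆ K_W`. -/
theorem h27_stFNleKW (N : ℕ) : StFNleKW ℓ N := by
  intro x hx
  have hle : modularFunctionFieldFull N ≤ h27_KWI ℓ := by
    rw [modularFunctionFieldFull, IntermediateField.adjoin_le_iff]
    rintro y ⟨d, hne, -, rfl⟩
    haveI := hne
    exact h27_jd_mem_KW ℓ d
  exact hle hx

/-- `ℚ(j) ⊆ F_N`. -/
theorem h27_K0_le_full (N : ℕ) : K0 ≤ modularFunctionFieldFull N := by
  rw [K0, IntermediateField.adjoin_le_iff]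
  rintro y rfl
  have h := jqd_mem_full N (one_dvd N)
  rwa [qExpand_one_apply] at h

/-- [RED-F3] `ℚ(j) ⊆ K_W` and `ℚ(j) ⊆ F_N`. -/
theorem h27_stK0le (N : ℕ) : StK0le ℓ N :=
  ⟨fun x hx => h27_stFNleKW ℓ N x (h27_K0_le_full N hx), fun _ hx => h27_K0_le_full N hx⟩

end Level0

section LevelN

variable (N : ℕ) [NeZero N] (ℓ : ℕ) [Fact ℓ.Prime]

/-- `rhoC` in terms of `rhoW`. -/
theorem h27_rhoC_apply (x : CW N ℓ) :
    rhoC N ℓ x = rhoW ℓ ⟨((x : FN N) : LaurentSeries ℚ), x.2⟩ := rfl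

/-- The image of `ρ` on `C = F_N ∩ O_W` is closed under inverses. -/
theorem h27_inv_mem_range {y : LaurentSeries (ZMod ℓ)} (hy : y ∈ (rhoC N ℓ).range) :
    y⁻¹ ∈ (rhoC N ℓ).range := by
  obtain ⟨x, rfl⟩ := hy
  by_cases h0 : rhoC N ℓ x = 0
  · rw [h0, inv_zero]; exact zero_mem _
  · have hx : rhoW ℓ ⟨((x : FN N) : LaurentSeries ℚ), x.2⟩ ≠ 0 := h0
    have hinv' : ((x : FN N) : LaurentSeries ℚ)⁻¹ ∈ OW ℓ :=
      H5.inv_mem_OW ℓ (x := ⟨((x : FN N) : LaurentSeries ℚ), x.2⟩) hx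
    have hinv : (x : FN N)⁻¹ ∈ CW N ℓ := by
      show (((x : FN N)⁻¹ : FN N) : LaurentSeries ℚ) ∈ OW ℓ
      rw [IntermediateField.coe_inv]
      exact hinv'
    refine ⟨⟨(x : FN N)⁻¹, hinv⟩, ?_⟩
    have h := H5.rhoW_inv ℓ (x := ⟨((x : FN N) : LaurentSeries ℚ), x.2⟩) hx
    have e : (⟨(((x : FN N)⁻¹ : FN N) : LaurentSeries ℚ), hinv⟩ : OW ℓ) =
        ⟨((x : FN N) : LaurentSeries ℚ)⁻¹, hinv'⟩ :=
      Subtype.ext (IntermediateField.coe_inv _ _)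
    show rhoW ℓ ⟨(((x : FN N)⁻¹ : FN N) : LaurentSeries ℚ), hinv⟩ =
      (rhoW ℓ ⟨((x : FN N) : LaurentSeries ℚ), x.2⟩)⁻¹
    rw [e]
    exact h

/-- The image of `ρ` on `C`, as a subfield of `k((q))`. -/
def h27_rangeField : Subfield (LaurentSeries (ZMod ℓ)) where
  toSubring := (rhoC N ℓ).range
  inv_mem' _ hy := h27_inv_mem_range N ℓ hy

theorem h27_mem_rangeField {y : LaurentSeries (ZMod ℓ)} :
    y ∈ h27_rangeField N ℓ ↔ ∃ x : CW N ℓ, rhoC N ℓ x = y := Iff.rfl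

/-- The image of `ρ` contains the constants. -/
theorem h27_algebraMap_mem_rangeField (c : ZMod ℓ) :
    algebraMap (ZMod ℓ) (LaurentSeries (ZMod ℓ)) c ∈ h27_rangeField N ℓ := by
  obtain ⟨n, rfl⟩ := ZMod.natCast_zmod_surjective c
  rw [map_natCast]
  exact natCast_mem _ n

/-- The image of `ρ` on `C`, as an intermediate field of `k((q))/k`. -/
def h27_rangeI : IntermediateField (ZMod ℓ) (LaurentSeries (ZMod ℓ)) :=
  (h27_rangeField N ℓ).toIntermediateField (h27_algebraMap_mem_rangeField N ℓ)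

/-- `jb_d` is in the image of `ρ`, `d ∣ N`. -/
theorem h27_jbd_mem_rangeField (d : ℕ) [NeZero d] (hd : d ∣ N) :
    qExpand (ZMod ℓ) d (jqModC (ZMod ℓ)) ∈ h27_rangeField N ℓ := by
  have hmem : qExpand ℚ d (jqModC ℚ) ∈ modularFunctionFieldFull N := jqd_mem_full N hd
  refine ⟨⟨⟨qExpand ℚ d (jqModC ℚ), hmem⟩, h27_jd_mem_OW ℓ d⟩, ?_⟩
  rw [h27_rhoC_apply]
  exact h27_rhoW_jd ℓ d

/-- [RED-F4] the image of `ρ` on `C = F_N ∩ O_W` contains `Fb_N = k(jb_d : d ∣ N)`. -/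
theorem h27_stImage : StImage N ℓ := by
  intro y hy
  have hle : modularFunctionFieldFullC (ZMod ℓ) N ≤ h27_rangeI N ℓ := by
    rw [modularFunctionFieldFullC, IntermediateField.adjoin_le_iff]
    rintro z ⟨d, hne, hd, rfl⟩
    haveI := hne
    exact h27_jbd_mem_rangeField N ℓ d hd
  exact hle hy

end LevelN

end Fermat.Agent.S28.Alg.H27
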