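import Fermat.Agent.S28.Alg.H29_Degu
import Fermat.Agent.S28.Alg.H5_Sat
import Fermat.Agent.S28.Alg.H6_QbFin

/-!
# S28 / ALG (helper29): the deliverable `Asm.StQEP`, hypothesis-free

`StQEP` from helper6's `stQEP_of_sat`, helper5's `stSat_fin` / `stSat_inf` and `stBasis'`.
-/

set_option autoImplicit false
open ModularCurve ModularCurve.IgusaScheme

noncomputable section

namespace Fermat.Agent.S28.Alg.H29

open Fermat.Agent.S28.Asm Fermat.Agent.S28.Alg

/-- **Deliverable `StQEP`** (ALG-1): the `q`-expansion principle for the three charts. -/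
theorem stQEP : Asm.StQEP :=
  H6.stQEP_of_sat
    (fun N _ ℓ _ h0 h1 => H5.stSat_fin ℓ N (stBasis' N ℓ) h0 h1)
    (fun N _ ℓ _ h0 h1 => H5.stSat_inf ℓ N (stBasis' N ℓ) h0 h1)

end Fermat.Agent.S28.Alg.H29
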