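import Fermat.Agent.S28.Alg.H2_RedF
import Fermat.Agent.S28.Alg.H5_Gauss
import Fermat.Agent.S28.Mod.H23_Deg0

/-!
# S28, package ALG, leaf QC-DIM (helper2, hedge)

* `H2.stIndep : StIndep N ℓ` : lifts of `k(jb)`-independent families are `ℚ(j)`-independent;
* `H2.stQEPC_DEGU : Asm.StQEPC_DEGU` : `D_M ≤ [F_M : ℚ(j)] ≤ ψ(M)`, finite.
-/

set_option autoImplicit false
set_option linter.unusedSectionVars false
open ModularCurve ModularCurve.IgusaScheme

noncomputable section

namespace Fermat.Agent.S28.Alg.H2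

open Fermat.Agent.S28.Asm Fermat.Agent.S28.Alg

section Bridge

variable {k E : Type*} [Field k] [Field E] [Algebra k E]

theorem map_adjoin_val (L : IntermediateField k E) (x : L) :
    (IntermediateField.adjoin k {x}).map L.val = IntermediateField.adjoin k {(x : E)} := by
  rw [IntermediateField.adjoin_map, Set.image_singleton]
  rfl

theorem coe_mem_adjoin (L : IntermediateField k E) (x : L) (a : L)
    (ha : a ∈ IntermediateField.adjoin k {x}) :
    (a : E) ∈ IntermediateField.adjoin k {(x : E)} := by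
  rw [← map_adjoin_val L x]
  exact ⟨a, ha, rfl⟩

theorem exists_of_mem_adjoin (L : IntermediateField k E) (x : L) (b : E)
    (hb : b ∈ IntermediateField.adjoin k {(x : E)}) :
    ∃ a : L, a ∈ IntermediateField.adjoin k {x} ∧ (a : E) = b := by
  rw [← map_adjoin_val L x] at hb
  obtain ⟨a, ha, rfl⟩ := hb
  exact ⟨a, ha, rfl⟩

/-- Linear independence over `k(x)` inside the field `L` gives linear independence over `k(x)`
inside the ambient field `E`. -/
theorem li_coe {ι : Type*} [Fintype ι] (L : IntermediateField k E) (x : L) (v : ι → L)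
    (hv : LinearIndependent (IntermediateField.adjoin k {x}) v) :
    LinearIndependent (IntermediateField.adjoin k {(x : E)}) (fun i => (v i : E)) := by
  rw [Fintype.linearIndependent_iff] at hv ⊢
  intro g hg i
  choose a ha hag using fun i => exists_of_mem_adjoin L x (g i) (g i).2
  have h0 : ∑ i, (⟨a i, ha i⟩ : IntermediateField.adjoin k {x}) • v i = 0 := by
    apply Subtype.ext
    rw [IntermediateField.coe_sum, IntermediateField.coe_zero, ← hg]
    refine Finset.sum_congr rfl fun i _ => ?_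
    rw [Algebra.smul_def, Algebra.smul_def, IntermediateField.coe_mul]
    congr 1
    exact hag i
  have h1 := hv (fun i => ⟨a i, ha i⟩) h0 i
  have h2 : a i = 0 := congrArg Subtype.val h1
  apply Subtype.ext
  rw [← hag i, h2]
  rfl

/-- Linear independence over `k(x)` inside the ambient field `E` gives linear independence over
`k(x)` inside the field `L`. -/
theorem li_of_coe {ι : Type*} [Fintype ι] (L : IntermediateField k E) (x : L) (v : ι → L)
    (hv : LinearIndependent (IntermediateField.adjoin k {(x : E)}) (fun i => (v i : E))) :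
    LinearIndependent (IntermediateField.adjoin k {x}) v := by
  rw [Fintype.linearIndependent_iff] at hv ⊢
  intro g hg i
  have h0 : ∑ i, (⟨(((g i : IntermediateField.adjoin k {x}) : L) : E),
      coe_mem_adjoin L x _ (g i).2⟩ : IntermediateField.adjoin k {(x : E)}) • (v i : E) = 0 := by
    have h := congrArg (fun z : L => (z : E)) hg
    simp only [IntermediateField.coe_sum, IntermediateField.coe_zero] at h
    rw [← h]
    refine Finset.sum_congr rfl fun i _ => ?_
    rw [Algebra.smul_def, Algebra.smul_def, IntermediateField.coe_mul]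
    rfl
  have h1 := hv _ h0 i
  have h2 : (((g i : IntermediateField.adjoin k {x}) : L) : E) = 0 := congrArg Subtype.val h1
  apply Subtype.ext
  apply Subtype.ext
  exact h2

end Bridge

section Indep

variable (N : ℕ) [NeZero N] (ℓ : ℕ) [Fact ℓ.Prime]

theorem natCast_L_ne_zero : ((ℓ : ℕ) : LaurentSeries ℚ) ≠ 0 := H5.natCast_ne_zero_L ℓ

theorem natCast_mem_OW (m : ℕ) : ((m : ℕ) : LaurentSeries ℚ) ∈ OW ℓ := natCast_mem _ m

theorem rhoW_natCast_self' : rhoW ℓ ⟨((ℓ : ℕ) : LaurentSeries ℚ), natCast_mem_OW ℓ ℓ⟩ = 0 := by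
  rw [H5.stRhoWKer ℓ]
  refine ⟨1, ?_⟩
  apply Subtype.ext
  simp

/-- General form of `StIndep` (any finite index type). -/
theorem stIndep' {ι : Type*} [Fintype ι] (c : ι → CW N ℓ)
    (hli : LinearIndependent (kappa (ZMod ℓ)) (fun i => rhoC N ℓ (c i))) :
    LinearIndependent (K0) (fun i => (((c i : CW N ℓ) : FN N) : LaurentSeries ℚ)) := by
  classical
  rw [Fintype.linearIndependent_iff] at hli ⊢
  intro g hg
  by_contra hne
  push Not at hne
  obtain ⟨i₁, hi₁⟩ := hne
  have hval : ∀ i, g i ≠ 0 → ∃ (e : ℤ) (u : OW ℓ),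
      ((g i : K0) : LaurentSeries ℚ) = ((ℓ : ℕ) : LaurentSeries ℚ) ^ e * (u : LaurentSeries ℚ) ∧
        rhoW ℓ u ≠ 0 := by
    intro i hi
    refine H5.stVal ℓ _ ((stK0le ℓ N).1 _ (g i).2) ?_
    intro h0
    exact hi (Subtype.ext h0)
  choose e u hgu hu using hval
  let e' : ι → ℤ := fun i => if h : g i ≠ 0 then e i h else 0
  let S : Finset ι := Finset.univ.filter (fun i => g i ≠ 0)
  have hS : S.Nonempty := ⟨i₁, by simp [S, hi₁]⟩
  obtain ⟨i₀, hi₀S, hmin⟩ := Finset.exists_min_image S e' hS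
  have hi₀ : g i₀ ≠ 0 := by simpa [S] using hi₀S
  have hℓ0 := natCast_L_ne_zero ℓ
  let b : ι → LaurentSeries ℚ :=
    fun i => ((ℓ : ℕ) : LaurentSeries ℚ) ^ (-(e' i₀)) * ((g i : K0) : LaurentSeries ℚ)
  have hb_eq : ∀ i (hi : g i ≠ 0), b i =
      ((ℓ : ℕ) : LaurentSeries ℚ) ^ (e' i - e' i₀) * (u i hi : LaurentSeries ℚ) := by
    intro i hi
    have he : e' i = e i hi := dif_pos hi
    show ((ℓ : ℕ) : LaurentSeries ℚ) ^ (-(e' i₀)) * ((g i : K0) : LaurentSeries ℚ) = _
    rw [hgu i hi, he, sub_eq_add_neg, zpow_add₀ hℓ0]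
    ring
  have hbOW : ∀ i, b i ∈ OW ℓ := by
    intro i
    by_cases hi : g i = 0
    · have : b i = 0 := by
        show ((ℓ : ℕ) : LaurentSeries ℚ) ^ (-(e' i₀)) * ((g i : K0) : LaurentSeries ℚ) = 0
        rw [hi]; simp
      rw [this]; exact zero_mem _
    · rw [hb_eq i hi]
      have hle : e' i₀ ≤ e' i := hmin i (by simp [S, hi])
      obtain ⟨m, hm⟩ := Int.eq_ofNat_of_zero_le (sub_nonneg.mpr hle)
      rw [hm, zpow_natCast]
      exact mul_mem (pow_mem (natCast_mem_OW ℓ ℓ) m) (u i hi).2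
  have hbK0 : ∀ i, b i ∈ K0 := by
    intro i
    exact mul_mem (zpow_mem (natCast_mem _ ℓ) _) (g i).2
  have hsum : ∑ i, b i * (((c i : CW N ℓ) : FN N) : LaurentSeries ℚ) = 0 := by
    have h1 : ∑ i, b i * (((c i : CW N ℓ) : FN N) : LaurentSeries ℚ) =
        ((ℓ : ℕ) : LaurentSeries ℚ) ^ (-(e' i₀)) *
          ∑ i, g i • (((c i : CW N ℓ) : FN N) : LaurentSeries ℚ) := by
      rw [Finset.mul_sum]
      refine Finset.sum_congr rfl fun i _ => ?_
      rw [Algebra.smul_def]
      show ((ℓ : ℕ) : LaurentSeries ℚ) ^ (-(e' i₀)) * ((g i : K0) : LaurentSeries ℚ) * _ = _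
      rw [mul_assoc]
      rfl
    rw [h1, hg, mul_zero]
  have hrho : ∑ i, rhoW ℓ ⟨b i, hbOW i⟩ * rhoC N ℓ (c i) = 0 := by
    have h0 : (∑ i, (⟨b i, hbOW i⟩ : OW ℓ) * CWtoOW N ℓ (c i)) = 0 := by
      apply Subtype.ext
      rw [AddSubmonoidClass.coe_finsetSum]
      exact hsum
    have h1 := congrArg (rhoW ℓ) h0
    rw [map_sum, map_zero] at h1
    rw [← h1]
    refine Finset.sum_congr rfl fun i _ => ?_
    rw [map_mul]
    rfl
  have hk : ∀ i, rhoW ℓ ⟨b i, hbOW i⟩ ∈ kappa (ZMod ℓ) :=
    fun i => H5.stK0 ℓ ⟨b i, hbOW i⟩ (hbK0 i)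
  have h2 := hli (fun i => ⟨rhoW ℓ ⟨b i, hbOW i⟩, hk i⟩) (by
    rw [← hrho]
    refine Finset.sum_congr rfl fun i _ => ?_
    rw [Algebra.smul_def]
    rfl) i₀
  have h3 : rhoW ℓ ⟨b i₀, hbOW i₀⟩ = 0 := congrArg Subtype.val h2
  have h4 : (⟨b i₀, hbOW i₀⟩ : OW ℓ) = u i₀ hi₀ := by
    apply Subtype.ext
    show b i₀ = _
    rw [hb_eq i₀ hi₀, sub_self, zpow_zero, one_mul]
  rw [h4] at h3
  exact hu i₀ hi₀ h3

/-- [QC-DIM] -/
theorem stIndep : StIndep N ℓ := fun _ c hli => stIndep' N ℓ c hli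

end Indep

section Degu

/-- A family in `Fb_N(k)` which is linearly independent over `k(j)` inside `k((q))` has at most
`degC k N` members, if `Fb_N(k)` is finite over `k(j)`. -/
theorem card_le_degC (k : Type) [Field k] (N : ℕ) [NeZero N]
    (hfin : Fermat.Agent.S28.Mod.H23.FinDimC k N)
    {ι : Type*} [Fintype ι] (v : ι → ↥(modularFunctionFieldFullC k N))
    (hv : LinearIndependent (kappa k) (fun i => (v i : LaurentSeries k))) :
    Fintype.card ι ≤ degC k N := by
  haveI : FiniteDimensional (IntermediateField.adjoin k {jbFull k N})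
      ↥(modularFunctionFieldFullC k N) := hfin
  have h4 := li_of_coe (modularFunctionFieldFullC k N) (jbFull k N) v hv
  exact h4.fintype_card_le_finrank

/-- If every family in `Fb_N(k)` which is linearly independent over `k(j)` inside `k((q))` has at
most `n` members, then `Fb_N(k)` is finite over `k(j)` of degree at most `n`. -/
theorem findim_of_card_le (k : Type) [Field k] (N : ℕ) [NeZero N] (n : ℕ)
    (h : ∀ s : Finset ↥(modularFunctionFieldFullC k N),
      LinearIndependent (kappa k)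
        (fun i : s => ((i : ↥(modularFunctionFieldFullC k N)) : LaurentSeries k)) → s.card ≤ n) :
    Fermat.Agent.S28.Mod.H23.FinDimC k N ∧ degC k N ≤ n := by
  have key : ∀ s : Finset ↥(modularFunctionFieldFullC k N),
      LinearIndependent (IntermediateField.adjoin k {jbFull k N})
        (fun i : s => (i : ↥(modularFunctionFieldFullC k N))) → s.card ≤ n :=
    fun s hs => h s (li_coe (modularFunctionFieldFullC k N) (jbFull k N) _ hs)
  have hrank := rank_le key
  haveI : Module.Free (IntermediateField.adjoin k {jbFull k N})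
      ↥(modularFunctionFieldFullC k N) := Module.Free.of_divisionRing _ _
  exact ⟨Module.rank_lt_aleph0_iff.1 (lt_of_le_of_lt hrank (Cardinal.natCast_lt_aleph0)),
    Module.finrank_le_of_rank_le hrank⟩

/-- **Deliverable DEGU**. -/
theorem stQEPC_DEGU : Asm.StQEPC_DEGU := by
  intro M _ ℓ _ hDEG0
  obtain ⟨hfin, hle⟩ := (Fermat.Agent.S28.Mod.H23.stDEG0_iff M).1 hDEG0
  have h := findim_of_card_le (ZMod ℓ) M (degC ℚ M) (fun s hs => by
    choose c hc using fun i : s => stImage M ℓ (H5.stUnit ℓ)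
      ((i : ↥(modularFunctionFieldFullC (ZMod ℓ) M)) : LaurentSeries (ZMod ℓ))
      (i : ↥(modularFunctionFieldFullC (ZMod ℓ) M)).2
    have h2 : LinearIndependent (kappa (ZMod ℓ)) (fun i : s => rhoC M ℓ (c i)) := by
      rw [funext hc]
      exact hs
    have h3 := stIndep' M ℓ c h2
    have h5 := card_le_degC ℚ M hfin (fun i : s => ((c i : CW M ℓ) : FN M)) h3
    rwa [Fintype.card_coe] at h5)
  exact ⟨h.1, h.2.trans hle⟩

end Degu

end Fermat.Agent.S28.Alg.H2
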