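import Fermat.Agent.S28.Alg.H1_Leaves

/-!
# S28, package ALG, leaf [RED-W] (helper4)

The valuation ring `O_W = {a / b : a, b ∈ Λ, red b ≠ 0}` of `H1_Defs`:

* `h4_stRhoWKer` : `ker ρ_W = ℓ O_W`              (from `StRedKer`);
* `h4_stUnit`    : `ρ_W x ≠ 0 → x ∈ O_W^×`         (no hypothesis);
* `h4_stVal`     : every `x ∈ K_W^×` is `ℓ^e u`, `ρ_W u ≠ 0`   (from `StRedVal`);
* `h4_stIntClosed` : `O_W` is integrally closed in `K_W`   (from `StRedVal`).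
-/

set_option autoImplicit false
set_option linter.style.haveILetI false
open ModularCurve ModularCurve.IgusaScheme

noncomputable section

namespace Fermat.Agent.S28.Alg.H4

open Fermat.Agent.S28.Asm Fermat.Agent.S28.Alg Polynomial

section Generic

/-- If `x ≠ 0` is integral over a subring `A` of a field and `x⁻¹ = π * w` with `π, w ∈ A`,
then `π` is a unit of `A`: `1 = π * z` for some `z ∈ A`. -/
theorem h4_one_eq_mul_of_isIntegral {L : Type*} [Field L] (A : Subring L) (x : L) (hx0 : x ≠ 0)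
    (hint : IsIntegral A x) (π w : A) (hinv : x⁻¹ = (π : L) * (w : L)) :
    ∃ z : A, (1 : L) = (π : L) * (z : L) := by
  obtain ⟨p, hp, hpx⟩ := hint
  letI hinvx : Invertible x := invertibleOfNonzero hx0
  have h1 := Polynomial.eval₂_reverse_mul_pow (algebraMap A L) x p
  rw [hpx] at h1
  have h2 : eval₂ (algebraMap A L) (⅟x) (reverse p) = 0 :=
    (mul_eq_zero.mp h1).resolve_right (pow_ne_zero _ hx0)
  have h3 : (reverse p).coeff 0 = 1 := by rw [coeff_zero_reverse, hp.leadingCoeff]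
  have h4 := Polynomial.divX_mul_X_add (reverse p)
  rw [← h4, h3, eval₂_add, eval₂_mul, eval₂_X, eval₂_C, map_one] at h2
  have hxinv : ⅟x = (π : L) * (w : L) := by rw [invOf_eq_inv, hinv]
  have hwL : (algebraMap A L) (π * w) = ⅟x := by
    rw [hxinv]; rfl
  rw [← hwL, Polynomial.eval₂_at_apply] at h2
  set e : A := (divX (reverse p)).eval (π * w) with he
  refine ⟨-(e * w), ?_⟩
  have h6 : ((e : A) : L) * ((π : L) * (w : L)) + 1 = 0 := h2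
  push_cast
  linear_combination h6

end Generic

variable (ℓ : ℕ) [Fact ℓ.Prime]

/-- `ℓ = 0` in `k((q))`, `k = ZMod ℓ`. -/
theorem h4_natCast_zmod : ((ℓ : ℕ) : LaurentSeries (ZMod ℓ)) = 0 := by
  have h : ((ℓ : ℕ) : LaurentSeries (ZMod ℓ)) = HahnSeries.C ((ℓ : ℕ) : ZMod ℓ) := by
    rw [map_natCast]
  rw [h, ZMod.natCast_self, map_zero]

/-- `ℓ ≠ 0` in `ℚ((q))`. -/
theorem h4_natCast_ne_zero : ((ℓ : ℕ) : LaurentSeries ℚ) ≠ 0 := by
  have h : ((ℓ : ℕ) : LaurentSeries ℚ) = HahnSeries.C ((ℓ : ℕ) : ℚ) := by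
    rw [map_natCast]
  rw [h]
  intro h0
  have h1 : ((ℓ : ℕ) : ℚ) = 0 := HahnSeries.C_injective (h0.trans (map_zero _).symm)
  exact (Fact.out : ℓ.Prime).ne_zero (by exact_mod_cast h1)

theorem h4_rhoW_natCast : rhoW ℓ ((ℓ : ℕ) : OW ℓ) = 0 := by
  rw [map_natCast, h4_natCast_zmod]

omit [Fact ℓ.Prime] in
theorem h4_iota_ne_zero {a : Lam ℓ} (ha : a ≠ 0) : iota ℓ a ≠ 0 := fun h =>
  ha (iota_injective ℓ (by rw [h, map_zero]))

theorem h4_ne_zero_of_red {a : Lam ℓ} (ha : red ℓ a ≠ 0) : a ≠ 0 := fun h =>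
  ha (by rw [h, map_zero])

/-- `a / b ∈ O_W` if `red b ≠ 0`. -/
theorem h4_div_mem_OW (a b : Lam ℓ) (hb : red ℓ b ≠ 0) : iota ℓ a / iota ℓ b ∈ OW ℓ :=
  ⟨a, b, hb, div_mul_cancel₀ _ (h4_iota_ne_zero ℓ (h4_ne_zero_of_red ℓ hb))⟩

theorem h4_rhoW_div (a b : Lam ℓ) (hb : red ℓ b ≠ 0) :
    rhoW ℓ ⟨iota ℓ a / iota ℓ b, h4_div_mem_OW ℓ a b hb⟩ = red ℓ a / red ℓ b :=
  rhoW_eq ℓ _ a b hb (div_mul_cancel₀ _ (h4_iota_ne_zero ℓ (h4_ne_zero_of_red ℓ hb)))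

/-- **[RED-W1]** `ker ρ_W = ℓ O_W`. -/
theorem h4_stRhoWKer (hker : StRedKer ℓ) : StRhoWKer ℓ := by
  intro x
  constructor
  · intro hx
    obtain ⟨a, b, hb, h⟩ := x.2
    rw [rhoW_eq ℓ x a b hb h, div_eq_zero_iff] at hx
    have ha : red ℓ a = 0 := hx.resolve_right hb
    obtain ⟨a', ha'⟩ := (hker a).mp ha
    have hl := h4_natCast_ne_zero ℓ
    have hmem : (x : LaurentSeries ℚ) / ((ℓ : ℕ) : LaurentSeries ℚ) ∈ OW ℓ := by
      refine ⟨a', b, hb, ?_⟩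
      have h1 : iota ℓ a = ((ℓ : ℕ) : LaurentSeries ℚ) * iota ℓ a' := by
        rw [ha', map_mul, map_natCast]
      rw [div_mul_eq_mul_div, h, h1, mul_div_cancel_left₀ _ hl]
    refine ⟨⟨_, hmem⟩, ?_⟩
    apply Subtype.ext
    push_cast
    rw [mul_div_cancel₀ _ hl]
  · rintro ⟨y, rfl⟩
    rw [map_mul, h4_rhoW_natCast, zero_mul]

/-- **[RED-W2]** an element of `O_W` with nonzero reduction is a unit of `O_W`. -/
theorem h4_stUnit : StUnit ℓ := by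
  intro x hx
  obtain ⟨a, b, hb, h⟩ := x.2
  rw [rhoW_eq ℓ x a b hb h] at hx
  have ha : red ℓ a ≠ 0 := fun h0 => hx (by rw [h0, zero_div])
  have ha0 : iota ℓ a ≠ 0 := h4_iota_ne_zero ℓ (h4_ne_zero_of_red ℓ ha)
  have hx0 : (x : LaurentSeries ℚ) ≠ 0 := by
    intro h0
    rw [h0, zero_mul] at h
    exact ha0 h.symm
  have hmem : (x : LaurentSeries ℚ)⁻¹ ∈ OW ℓ := by
    refine ⟨b, a, ha, ?_⟩
    rw [← h, ← mul_assoc, inv_mul_cancel₀ hx0, one_mul]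
  refine ⟨⟨_, hmem⟩, ?_⟩
  apply Subtype.ext
  push_cast
  exact mul_inv_cancel₀ hx0

/-- The inverse of an element of `O_W` with nonzero reduction lies in `O_W`. -/
theorem h4_inv_mem_OW (x : OW ℓ) (hx : rhoW ℓ x ≠ 0) : (x : LaurentSeries ℚ)⁻¹ ∈ OW ℓ := by
  obtain ⟨y, hy⟩ := h4_stUnit ℓ x hx
  have h1 : (x : LaurentSeries ℚ) * (y : LaurentSeries ℚ) = 1 := by
    have := congrArg (fun z : OW ℓ => (z : LaurentSeries ℚ)) hy
    simpa using this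
  rw [inv_eq_of_mul_eq_one_right h1]
  exact y.2

omit [Fact ℓ.Prime] in
/-- Elements of `K_W` are fractions of elements of `Λ`. -/
theorem h4_mem_KW_iff {x : LaurentSeries ℚ} :
    x ∈ KW ℓ ↔ ∃ a b : Lam ℓ, iota ℓ a / iota ℓ b = x := by
  have hcl : Subring.closure (Set.range (iota ℓ)) = (iota ℓ).range := by
    rw [← RingHom.coe_range, Subring.closure_eq]
  unfold KW
  rw [Subfield.mem_closure_iff, hcl]
  constructor
  · rintro ⟨y, ⟨a, rfl⟩, z, ⟨b, rfl⟩, h⟩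
    exact ⟨a, b, h⟩
  · rintro ⟨a, b, h⟩
    exact ⟨_, ⟨a, rfl⟩, _, ⟨b, rfl⟩, h⟩

/-- **[RED-W3]** every nonzero element of `K_W` is `ℓ^e u`, `e ∈ ℤ`, `u ∈ O_W`, `ρ_W u ≠ 0`. -/
theorem h4_stVal (hval : StRedVal ℓ) : StVal ℓ := by
  intro x hx hx0
  obtain ⟨a, b, rfl⟩ := (h4_mem_KW_iff ℓ).mp hx
  have hb0 : b ≠ 0 := by
    rintro rfl
    rw [map_zero, div_zero] at hx0
    exact hx0 rfl
  have ha0 : a ≠ 0 := by
    rintro rfl
    rw [map_zero, zero_div] at hx0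
    exact hx0 rfl
  obtain ⟨m, a', ha', hra⟩ := hval a ha0
  obtain ⟨n, b', hb', hrb⟩ := hval b hb0
  have hl := h4_natCast_ne_zero ℓ
  have hb'0 : iota ℓ b' ≠ 0 := h4_iota_ne_zero ℓ (h4_ne_zero_of_red ℓ hrb)
  refine ⟨(m : ℤ) - n, ⟨_, h4_div_mem_OW ℓ a' b' hrb⟩, ?_, ?_⟩
  · show iota ℓ a / iota ℓ b = _ * (iota ℓ a' / iota ℓ b')
    rw [ha', hb', map_mul, map_mul, map_pow, map_pow, map_natCast, zpow_sub₀ hl, zpow_natCast,
      zpow_natCast]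
    field_simp
  · rw [h4_rhoW_div ℓ a' b' hrb]
    exact div_ne_zero hra hrb

/-- **[RED-W4]** `O_W` is integrally closed in `K_W`. -/
theorem h4_stIntClosed (hval : StRedVal ℓ) : StIntClosed ℓ := by
  intro x hx hint
  by_cases hx0 : x = 0
  · rw [hx0]; exact (OW ℓ).zero_mem
  obtain ⟨e, u, hxu, hu⟩ := h4_stVal ℓ hval x hx hx0
  have hl := h4_natCast_ne_zero ℓ
  have hlmem : ((ℓ : ℕ) : LaurentSeries ℚ) ∈ OW ℓ := natCast_mem (OW ℓ) ℓ
  rcases le_or_gt 0 e with he | he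
  · obtain ⟨d, rfl⟩ := Int.eq_ofNat_of_zero_le he
    rw [hxu, zpow_natCast]
    exact (OW ℓ).mul_mem ((OW ℓ).pow_mem hlmem d) u.2
  · exfalso
    obtain ⟨d, hd⟩ : ∃ d : ℕ, e = -((d : ℤ) + 1) := by
      refine ⟨(-e - 1).toNat, ?_⟩
      rw [Int.toNat_of_nonneg (by omega)]
      ring
    have huinv := h4_inv_mem_OW ℓ u hu
    have hu0 : (u : LaurentSeries ℚ) ≠ 0 := by
      intro h0
      apply hx0
      rw [hxu, h0, mul_zero]
    have hinv : x⁻¹ = ((⟨_, hlmem⟩ : OW ℓ) : LaurentSeries ℚ) *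
        ((⟨_, (OW ℓ).mul_mem ((OW ℓ).pow_mem hlmem d) huinv⟩ : OW ℓ) : LaurentSeries ℚ) := by
      show x⁻¹ = ((ℓ : ℕ) : LaurentSeries ℚ) *
        (((ℓ : ℕ) : LaurentSeries ℚ) ^ d * (u : LaurentSeries ℚ)⁻¹)
      rw [hxu, hd, zpow_neg, mul_inv, inv_inv, ← mul_assoc]
      congr 1
      rw [← zpow_natCast, ← zpow_one_add₀ hl]
      congr 1
      ring
    obtain ⟨z, hz⟩ := h4_one_eq_mul_of_isIntegral (OW ℓ) x hx0 hint _ _ hinv
    have h1 : (1 : OW ℓ) = ((ℓ : ℕ) : OW ℓ) * z := Subtype.ext (by push_cast; exact hz)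
    have h2 := congrArg (rhoW ℓ) h1
    rw [map_one, map_mul, h4_rhoW_natCast, zero_mul] at h2
    exact one_ne_zero h2

end Fermat.Agent.S28.Alg.H4
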