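import Fermat.Agent.S28.Alg.H5_Sat
import Fermat.Agent.S28.Alg.H29_Indep
import Fermat.Agent.S28.Alg.H6_QbFin

/-!
# S28, package ALG (helper5): the two deliverables `Asm.StQEP` and `Asm.StQEPC_DEGU`

Wiring of the landed leaves: `H5.stK0` (Gauss), `H29.stBasis` / `H29.stQEPC_DEGU_of` (basis
argument), `H5.stSat_fin` / `H5.stSat_inf` (saturation), `H6.stQEP_of_sat` (charts).
-/

set_option autoImplicit false

open ModularCurve ModularCurve.IgusaScheme

namespace Fermat.Agent.S28.Alg.H5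

open Fermat.Agent.S28.Alg Fermat.Agent.S28.Asm

/-- **Deliverable QEP of package ALG.** -/
theorem stQEP : Asm.StQEP :=
  H6.stQEP_of_sat
    (fun N _ ℓ _ h0 h1 => H5.stSat_fin ℓ N (H29.stBasis N ℓ (H5.stK0 ℓ)) h0 h1)
    (fun N _ ℓ _ h0 h1 => H5.stSat_inf ℓ N (H29.stBasis N ℓ (H5.stK0 ℓ)) h0 h1)

/-- **Deliverable DEGU of package ALG.** -/
theorem stQEPC_DEGU : Asm.StQEPC_DEGU :=
  H29.stQEPC_DEGU_of (fun ℓ _ => H5.stK0 ℓ)

end Fermat.Agent.S28.Alg.H5
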