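import Fermat.Agent.S28.Alg.H5_Res

/-!
# S28, package ALG (helper5): the Gauss valuation ring `O_W ⊆ ℚ((q))` and `ρ_W : O_W → 𝔽_ℓ((q))`

`OW ℓ = {a / b : a, b ∈ ℤ_(ℓ)((q)), red b ≠ 0}`, `rhoW (a / b) = red a / red b`.
-/

set_option autoImplicit false
set_option linter.unusedSectionVars false
set_option linter.style.haveILetI false

open ModularCurve

namespace Fermat.Agent.S28.Alg.H5

variable (ℓ : ℕ) [hℓ : Fact ℓ.Prime]

/-- The Gauss valuation ring `O_W ⊆ ℚ((q))`. -/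
def OW : Subring (LaurentSeries ℚ) where
  carrier := {x | ∃ a b : LaurentSeries (Zl ℓ), red ℓ b ≠ 0 ∧ x * iotaQ ℓ b = iotaQ ℓ a}
  zero_mem' := ⟨0, 1, by rw [map_one]; exact one_ne_zero, by simp⟩
  one_mem' := ⟨1, 1, by rw [map_one]; exact one_ne_zero, by simp⟩
  add_mem' := by
    rintro x y ⟨a, b, hb, h⟩ ⟨a', b', hb', h'⟩
    refine ⟨a * b' + a' * b, b * b', ?_, ?_⟩
    · rw [map_mul]; exact mul_ne_zero hb hb'
    · simp only [map_add, map_mul]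
      rw [← h, ← h']; ring
  mul_mem' := by
    rintro x y ⟨a, b, hb, h⟩ ⟨a', b', hb', h'⟩
    refine ⟨a * a', b * b', ?_, ?_⟩
    · rw [map_mul]; exact mul_ne_zero hb hb'
    · simp only [map_mul]
      rw [← h, ← h']; ring
  neg_mem' := by
    rintro x ⟨a, b, hb, h⟩
    exact ⟨-a, b, hb, by rw [map_neg, ← h]; ring⟩

lemma mem_OW_iff {x : LaurentSeries ℚ} :
    x ∈ OW ℓ ↔ ∃ a b : LaurentSeries (Zl ℓ), red ℓ b ≠ 0 ∧ x * iotaQ ℓ b = iotaQ ℓ a :=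
  Iff.rfl

lemma iotaQ_mem_OW (a : LaurentSeries (Zl ℓ)) : iotaQ ℓ a ∈ OW ℓ :=
  ⟨a, 1, by rw [map_one]; exact one_ne_zero, by simp⟩

lemma red_ne_zero_imp_ne_zero {b : LaurentSeries (Zl ℓ)} (hb : red ℓ b ≠ 0) : b ≠ 0 := by
  rintro rfl
  exact hb (map_zero _)

omit hℓ in
lemma iotaQ_ne_zero {b : LaurentSeries (Zl ℓ)} (hb : b ≠ 0) : iotaQ ℓ b ≠ 0 := by
  intro h
  exact hb (iotaQ_injective ℓ (by rw [h, map_zero]))

/-- The underlying function of `rhoW`. -/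
noncomputable def rhoFun (x : OW ℓ) : LaurentSeries (ZMod ℓ) :=
  red ℓ (Classical.choose x.2) / red ℓ (Classical.choose (Classical.choose_spec x.2))

lemma rhoFun_spec (x : OW ℓ) {a b : LaurentSeries (Zl ℓ)} (hb : red ℓ b ≠ 0)
    (h : (x : LaurentSeries ℚ) * iotaQ ℓ b = iotaQ ℓ a) :
    rhoFun ℓ x * red ℓ b = red ℓ a := by
  obtain ⟨hb₀, h₀⟩ := Classical.choose_spec (Classical.choose_spec x.2)
  set a₀ := Classical.choose x.2
  set b₀ := Classical.choose (Classical.choose_spec x.2)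
  have key : a₀ * b = a * b₀ := by
    apply iotaQ_injective ℓ
    rw [map_mul, map_mul, ← h₀, ← h]; ring
  have key' := congrArg (red ℓ) key
  rw [map_mul, map_mul] at key'
  show red ℓ a₀ / red ℓ b₀ * red ℓ b = red ℓ a
  rw [div_mul_eq_mul_div, key', mul_div_assoc, div_self hb₀, mul_one]

lemma rhoFun_eq_of (x : OW ℓ) {a b : LaurentSeries (Zl ℓ)} (hb : red ℓ b ≠ 0)
    (h : (x : LaurentSeries ℚ) * iotaQ ℓ b = iotaQ ℓ a) :
    rhoFun ℓ x = red ℓ a / red ℓ b := by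
  rw [eq_div_iff hb]
  exact rhoFun_spec ℓ x hb h

lemma exists_rep (x : OW ℓ) : ∃ a b : LaurentSeries (Zl ℓ), red ℓ b ≠ 0 ∧
    (x : LaurentSeries ℚ) * iotaQ ℓ b = iotaQ ℓ a ∧ rhoFun ℓ x = red ℓ a / red ℓ b := by
  obtain ⟨a, b, hb, h⟩ := x.2
  exact ⟨a, b, hb, h, rhoFun_eq_of ℓ x hb h⟩

/-- The reduction map `ρ_W : O_W → 𝔽_ℓ((q))`. -/
noncomputable def rhoW : OW ℓ →+* LaurentSeries (ZMod ℓ) where
  toFun := rhoFun ℓ
  map_one' := by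
    rw [rhoFun_eq_of ℓ 1 (a := 1) (b := 1) (by rw [map_one]; exact one_ne_zero) (by simp)]
    simp
  map_zero' := by
    rw [rhoFun_eq_of ℓ 0 (a := 0) (b := 1) (by rw [map_one]; exact one_ne_zero) (by simp)]
    simp
  map_mul' x y := by
    obtain ⟨a, b, hb, h, hx⟩ := exists_rep ℓ x
    obtain ⟨a', b', hb', h', hy⟩ := exists_rep ℓ y
    rw [hx, hy, rhoFun_eq_of ℓ (x * y) (a := a * a') (b := b * b')
      (by rw [map_mul]; exact mul_ne_zero hb hb')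
      (by simp only [map_mul, Subring.coe_mul]; rw [← h, ← h']; ring)]
    rw [map_mul, map_mul, mul_div_mul_comm]
  map_add' x y := by
    obtain ⟨a, b, hb, h, hx⟩ := exists_rep ℓ x
    obtain ⟨a', b', hb', h', hy⟩ := exists_rep ℓ y
    rw [hx, hy, rhoFun_eq_of ℓ (x + y) (a := a * b' + a' * b) (b := b * b')
      (by rw [map_mul]; exact mul_ne_zero hb hb')
      (by simp only [map_mul, map_add, Subring.coe_add]; rw [← h, ← h']; ring)]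
    rw [map_add, map_mul, map_mul, map_mul, div_add_div _ _ hb hb']
    congr 1
    ring

lemma rhoW_spec (x : OW ℓ) {a b : LaurentSeries (Zl ℓ)} (hb : red ℓ b ≠ 0)
    (h : (x : LaurentSeries ℚ) * iotaQ ℓ b = iotaQ ℓ a) :
    rhoW ℓ x = red ℓ a / red ℓ b :=
  rhoFun_eq_of ℓ x hb h

lemma rhoW_iotaQ (a : LaurentSeries (Zl ℓ)) :
    rhoW ℓ ⟨iotaQ ℓ a, iotaQ_mem_OW ℓ a⟩ = red ℓ a := by
  rw [rhoW_spec ℓ _ (a := a) (b := 1) (by rw [map_one]; exact one_ne_zero) (by simp)]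
  simp

/-- `ℓ` as an element of `O_W`. -/
lemma natCast_mem_OW (n : ℕ) : ((n : ℕ) : LaurentSeries ℚ) ∈ OW ℓ := natCast_mem _ n

lemma rhoW_natCast_self : rhoW ℓ ((ℓ : ℕ) : OW ℓ) = 0 := by
  rw [map_natCast, ← map_natCast (HahnSeries.C (Γ := ℤ) (R := ZMod ℓ)) ℓ, ZMod.natCast_self,
    map_zero]

lemma natCast_ne_zero_L : ((ℓ : ℕ) : LaurentSeries ℚ) ≠ 0 := by
  rw [← map_natCast (algebraMap ℚ (LaurentSeries ℚ)) ℓ]
  intro h
  have h0 : ((ℓ : ℕ) : ℚ) = 0 :=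
    (algebraMap ℚ (LaurentSeries ℚ)).injective (by rw [h, map_zero])
  exact hℓ.out.ne_zero (by exact_mod_cast h0)

/-- The kernel of `ρ_W` is `ℓ O_W`. -/
theorem exists_eq_mul_of_rhoW_eq_zero {x : OW ℓ} (hx : rhoW ℓ x = 0) :
    ∃ y : OW ℓ, x = ((ℓ : ℕ) : OW ℓ) * y := by
  obtain ⟨a, b, hb, h, hx'⟩ := exists_rep ℓ x
  have ha : red ℓ a = 0 := by
    have : rhoW ℓ x = red ℓ a / red ℓ b := hx'
    rw [hx, eq_comm, div_eq_zero_iff] at this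
    exact this.resolve_right hb
  obtain ⟨a', rfl⟩ := exists_eq_mul_of_red_eq_zero ℓ ha
  have hb0 : iotaQ ℓ b ≠ 0 := iotaQ_ne_zero ℓ (red_ne_zero_imp_ne_zero ℓ hb)
  have hy : iotaQ ℓ a' / iotaQ ℓ b ∈ OW ℓ :=
    ⟨a', b, hb, by rw [div_mul_cancel₀ _ hb0]⟩
  refine ⟨⟨_, hy⟩, Subtype.ext ?_⟩
  rw [map_mul, map_natCast] at h
  have h2 : (x : LaurentSeries ℚ) = ((ℓ : ℕ) : LaurentSeries ℚ) * iotaQ ℓ a' / iotaQ ℓ b :=
    eq_div_of_mul_eq hb0 h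
  rw [Subring.coe_mul, Subring.coe_natCast, h2, mul_div_assoc]

theorem rhoW_eq_zero_iff {x : OW ℓ} :
    rhoW ℓ x = 0 ↔ ∃ y : OW ℓ, x = ((ℓ : ℕ) : OW ℓ) * y := by
  refine ⟨exists_eq_mul_of_rhoW_eq_zero ℓ, ?_⟩
  rintro ⟨y, rfl⟩
  rw [map_mul, rhoW_natCast_self, zero_mul]

/-- Elements with nonzero reduction are units of `O_W`. -/
theorem inv_mem_OW {x : OW ℓ} (hx : rhoW ℓ x ≠ 0) : (x : LaurentSeries ℚ)⁻¹ ∈ OW ℓ := by
  obtain ⟨a, b, hb, h, hx'⟩ := exists_rep ℓ x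
  have ha : red ℓ a ≠ 0 := by
    intro h0
    apply hx
    show rhoFun ℓ x = 0
    rw [hx', h0, zero_div]
  have ha0 : iotaQ ℓ a ≠ 0 := iotaQ_ne_zero ℓ (red_ne_zero_imp_ne_zero ℓ ha)
  have hx0 : (x : LaurentSeries ℚ) ≠ 0 := by
    intro h0
    rw [h0, zero_mul] at h
    exact ha0 h.symm
  refine ⟨b, a, ha, ?_⟩
  rw [← h]
  field_simp

theorem rhoW_inv {x : OW ℓ} (hx : rhoW ℓ x ≠ 0) :
    rhoW ℓ ⟨(x : LaurentSeries ℚ)⁻¹, inv_mem_OW ℓ hx⟩ = (rhoW ℓ x)⁻¹ := by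
  have hx0 : (x : LaurentSeries ℚ) ≠ 0 := by
    intro h0
    apply hx
    have : x = 0 := Subtype.ext h0
    rw [this, map_zero]
  have h1 : x * ⟨(x : LaurentSeries ℚ)⁻¹, inv_mem_OW ℓ hx⟩ = 1 :=
    Subtype.ext (by simp [mul_inv_cancel₀ hx0])
  have h2 := congrArg (rhoW ℓ) h1
  rw [map_mul, map_one] at h2
  exact eq_inv_of_mul_eq_one_right h2

/-- The fraction field of `ℤ_(ℓ)((q))` inside `ℚ((q))`. -/
def fracLam : Subfield (LaurentSeries ℚ) where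
  carrier := {x | ∃ a b : LaurentSeries (Zl ℓ), b ≠ 0 ∧ x * iotaQ ℓ b = iotaQ ℓ a}
  zero_mem' := ⟨0, 1, one_ne_zero, by simp⟩
  one_mem' := ⟨1, 1, one_ne_zero, by simp⟩
  add_mem' := by
    rintro x y ⟨a, b, hb, h⟩ ⟨a', b', hb', h'⟩
    refine ⟨a * b' + a' * b, b * b', ?_, ?_⟩
    · exact fun h0 => iotaQ_ne_zero ℓ hb
        ((mul_eq_zero.mp (by rw [← map_mul, h0, map_zero] :
          iotaQ ℓ b * iotaQ ℓ b' = 0)).resolve_right (iotaQ_ne_zero ℓ hb'))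
    · simp only [map_add, map_mul]
      rw [← h, ← h']; ring
  mul_mem' := by
    rintro x y ⟨a, b, hb, h⟩ ⟨a', b', hb', h'⟩
    refine ⟨a * a', b * b', ?_, ?_⟩
    · exact fun h0 => iotaQ_ne_zero ℓ hb
        ((mul_eq_zero.mp (by rw [← map_mul, h0, map_zero] :
          iotaQ ℓ b * iotaQ ℓ b' = 0)).resolve_right (iotaQ_ne_zero ℓ hb'))
    · simp only [map_mul]
      rw [← h, ← h']; ring
  neg_mem' := by
    rintro x ⟨a, b, hb, h⟩
    exact ⟨-a, b, hb, by rw [map_neg, ← h]; ring⟩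
  inv_mem' := by
    rintro x ⟨a, b, hb, h⟩
    by_cases hx : x = 0
    · subst hx
      exact ⟨0, 1, one_ne_zero, by simp⟩
    · have ha : a ≠ 0 := by
        rintro rfl
        rw [map_zero] at h
        exact iotaQ_ne_zero ℓ hb ((mul_eq_zero.mp h).resolve_left hx)
      refine ⟨b, a, ha, ?_⟩
      rw [← h]
      field_simp

lemma mem_fracLam_iff {x : LaurentSeries ℚ} :
    x ∈ fracLam ℓ ↔ ∃ a b : LaurentSeries (Zl ℓ), b ≠ 0 ∧ x * iotaQ ℓ b = iotaQ ℓ a :=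
  Iff.rfl

lemma iotaQ_mem_fracLam (a : LaurentSeries (Zl ℓ)) : iotaQ ℓ a ∈ fracLam ℓ :=
  ⟨a, 1, one_ne_zero, by simp⟩

lemma OW_le_fracLam : OW ℓ ≤ (fracLam ℓ).toSubring := by
  rintro x ⟨a, b, hb, h⟩
  exact ⟨a, b, red_ne_zero_imp_ne_zero ℓ hb, h⟩

/-- **Normal form**: every nonzero element of `Frac ℤ_(ℓ)((q))` is `ℓ ^ e * u` with `e : ℤ` and
`u ∈ O_W` of nonzero reduction. -/
theorem exists_zpow_mul_of_mem_fracLam {x : LaurentSeries ℚ} (hx : x ∈ fracLam ℓ) (hx0 : x ≠ 0) :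
    ∃ (e : ℤ) (u : OW ℓ), x = ((ℓ : ℕ) : LaurentSeries ℚ) ^ e * (u : LaurentSeries ℚ) ∧
      rhoW ℓ u ≠ 0 := by
  obtain ⟨a, b, hb, h⟩ := hx
  have ha : a ≠ 0 := by
    rintro rfl
    rw [map_zero] at h
    exact iotaQ_ne_zero ℓ hb ((mul_eq_zero.mp h).resolve_left hx0)
  obtain ⟨m, a', rfl, ha'⟩ := exists_pow_mul_red_ne_zero ℓ ha
  obtain ⟨n, b', rfl, hb'⟩ := exists_pow_mul_red_ne_zero ℓ hb
  have hb0 : iotaQ ℓ b' ≠ 0 := iotaQ_ne_zero ℓ (red_ne_zero_imp_ne_zero ℓ hb')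
  have hu : iotaQ ℓ a' / iotaQ ℓ b' ∈ OW ℓ := ⟨a', b', hb', by rw [div_mul_cancel₀ _ hb0]⟩
  have hℓ0 := natCast_ne_zero_L ℓ
  refine ⟨(m : ℤ) - n, ⟨_, hu⟩, ?_, ?_⟩
  · simp only [map_mul, map_pow, map_natCast] at h
    rw [zpow_sub₀ hℓ0, zpow_natCast, zpow_natCast]
    have hn0 : ((ℓ : ℕ) : LaurentSeries ℚ) ^ n ≠ 0 := pow_ne_zero _ hℓ0
    field_simp
    rw [← h]; ring
  · rw [rhoW_spec ℓ _ hb' (by simp only []; rw [div_mul_cancel₀ _ hb0])]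
    exact div_ne_zero ha' hb'

/-- `O_W` is integrally closed in `Frac ℤ_(ℓ)((q))`, in elementary form: a monic polynomial
relation with coefficients in `O_W`. -/
theorem mem_OW_of_monic_relation {x : LaurentSeries ℚ} (hx : x ∈ fracLam ℓ) (n : ℕ)
    (c : ℕ → LaurentSeries ℚ) (hc : ∀ i, c i ∈ OW ℓ)
    (h : x ^ n + ∑ i ∈ Finset.range n, c i * x ^ i = 0) : x ∈ OW ℓ := by
  by_cases hx0 : x = 0
  · rw [hx0]; exact zero_mem _
  obtain ⟨e, u, hxe, hu⟩ := exists_zpow_mul_of_mem_fracLam ℓ hx hx0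
  have hℓ0 := natCast_ne_zero_L ℓ
  by_cases he : 0 ≤ e
  · obtain ⟨m, rfl⟩ := Int.eq_ofNat_of_zero_le he
    rw [hxe, zpow_natCast]
    exact mul_mem (pow_mem (natCast_mem_OW ℓ ℓ) m) u.2
  exfalso
  push Not at he
  obtain ⟨m, hm⟩ : ∃ m : ℕ, e = -((m : ℤ) + 1) := ⟨(-e - 1).toNat, by omega⟩
  -- x * ℓ^(m+1) = u
  have hxu : x * ((ℓ : ℕ) : LaurentSeries ℚ) ^ (m + 1) = u := by
    rw [hxe, hm, zpow_neg, ← Nat.cast_add_one, zpow_natCast]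
    field_simp
  -- multiply the relation by ℓ^((m+1) n)
  have key : (u : LaurentSeries ℚ) ^ n +
      ∑ i ∈ Finset.range n, c i * ((ℓ : ℕ) : LaurentSeries ℚ) ^ ((m + 1) * (n - i)) *
        (u : LaurentSeries ℚ) ^ i = 0 := by
    have h1 : (x ^ n + ∑ i ∈ Finset.range n, c i * x ^ i) *
        (((ℓ : ℕ) : LaurentSeries ℚ) ^ (m + 1)) ^ n = 0 := by rw [h, zero_mul]
    rw [add_mul, ← mul_pow, hxu, Finset.sum_mul] at h1
    rw [← h1]
    congr 1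
    refine Finset.sum_congr rfl fun i hi => ?_
    have hin : i ≤ n := (Finset.mem_range.mp hi).le
    have e1 : (((ℓ : ℕ) : LaurentSeries ℚ) ^ (m + 1)) ^ n =
        ((ℓ : ℕ) : LaurentSeries ℚ) ^ ((m + 1) * (n - i)) *
          (((ℓ : ℕ) : LaurentSeries ℚ) ^ (m + 1)) ^ i := by
      rw [← pow_mul, ← pow_mul, ← pow_add, ← Nat.mul_add, Nat.sub_add_cancel hin]
    have e2 : (u : LaurentSeries ℚ) ^ i = x ^ i * (((ℓ : ℕ) : LaurentSeries ℚ) ^ (m + 1)) ^ i := by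
      rw [← hxu, mul_pow]
    rw [e1, e2]
    ring
  -- apply ρ
  let cc : ℕ → OW ℓ := fun i => ⟨c i, hc i⟩
  have key' : u ^ n + ∑ i ∈ Finset.range n,
      cc i * ((ℓ : ℕ) : OW ℓ) ^ ((m + 1) * (n - i)) * u ^ i = 0 := by
    apply Subtype.ext
    simp only [Subring.coe_add, Subring.coe_pow, AddSubmonoidClass.coe_finsetSum,
      Subring.coe_mul, Subring.coe_natCast, Subring.coe_zero, cc]
    exact key
  have key'' := congrArg (rhoW ℓ) key'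
  rw [map_add, map_sum, map_zero, map_pow] at key''
  have hsum : ∑ i ∈ Finset.range n,
      rhoW ℓ (cc i * ((ℓ : ℕ) : OW ℓ) ^ ((m + 1) * (n - i)) * u ^ i) = 0 := by
    refine Finset.sum_eq_zero fun i hi => ?_
    have hin : i < n := Finset.mem_range.mp hi
    have hpos : (m + 1) * (n - i) ≠ 0 := by
      have : 0 < n - i := Nat.sub_pos_of_lt hin
      positivity
    rw [map_mul, map_mul, map_pow, rhoW_natCast_self, zero_pow hpos, mul_zero, zero_mul]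
  rw [hsum, add_zero] at key''
  exact hu (pow_eq_zero_iff (n := n) (by
    rintro rfl
    simp at key'') |>.mp key'')

end Fermat.Agent.S28.Alg.H5
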