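import Fermat.Agent.S28.Alg.H1_Leaves
import Fermat.Agent.S28.Alg.H5_OW

/-!
# S28, package ALG (helper5): the leaves RED-Z, RED-L (and RED-W) for helper1's definitions

helper1's `resZl`, `iota`, `red`, `OW`, `rhoW` are definitionally equal to the ones of
`H5_Res` / `H5_OW`, so the statements transfer.
-/

set_option autoImplicit false
set_option linter.unusedSectionVars false

open ModularCurve

namespace Fermat.Agent.S28.Alg.H5

open Fermat.Agent.S28.Alg Fermat.Agent.S28.Asm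

variable (ℓ : ℕ) [hℓ : Fact ℓ.Prime]

lemma resZl_eq_alg : H5.resZl ℓ = Alg.resZl ℓ := rfl
lemma iotaQ_eq_alg : H5.iotaQ ℓ = Alg.iota ℓ := rfl
lemma red_eq_alg : H5.red ℓ = Alg.red ℓ := rfl
lemma OW_eq_alg : H5.OW ℓ = Alg.OW ℓ := rfl
lemma rhoW_eq_alg : H5.rhoW ℓ = Alg.rhoW ℓ := rfl

/-- [RED-Z] -/
theorem stResZl : StResZl ℓ :=
  ⟨resZl_surjective ℓ, fun _ => resZl_eq_zero_iff ℓ⟩

/-- [RED-L1] -/
theorem stRedKer : StRedKer ℓ := fun _ => red_eq_zero_iff ℓ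

/-- [RED-L2] -/
theorem stRedVal : StRedVal ℓ := fun _ ha => exists_pow_mul_red_ne_zero ℓ ha

/-- [RED-W1] -/
theorem stRhoWKer : StRhoWKer ℓ := fun _ => rhoW_eq_zero_iff ℓ

/-- [RED-W2] -/
theorem stUnit : StUnit ℓ := by
  intro x hx
  have hx0 : (x : LaurentSeries ℚ) ≠ 0 := by
    intro h0
    apply hx
    have : x = 0 := Subtype.ext h0
    rw [this, map_zero]
  exact ⟨⟨(x : LaurentSeries ℚ)⁻¹, inv_mem_OW ℓ hx⟩, Subtype.ext (by simp [mul_inv_cancel₀ hx0])⟩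

lemma KW_le_fracLam : KW ℓ ≤ fracLam ℓ := by
  apply Subfield.closure_le.mpr
  rintro _ ⟨a, rfl⟩
  exact iotaQ_mem_fracLam ℓ a

lemma fracLam_le_KW : fracLam ℓ ≤ KW ℓ := by
  rintro x ⟨a, b, hb, h⟩
  have hb0 : iotaQ ℓ b ≠ 0 := iotaQ_ne_zero ℓ hb
  have hx : x = iotaQ ℓ a / iotaQ ℓ b := eq_div_of_mul_eq hb0 h
  rw [hx]
  exact div_mem (Subfield.subset_closure ⟨a, rfl⟩) (Subfield.subset_closure ⟨b, rfl⟩)

lemma KW_eq_fracLam : KW ℓ = fracLam ℓ := le_antisymm (KW_le_fracLam ℓ) (fracLam_le_KW ℓ)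

/-- [RED-W3] -/
theorem stVal : StVal ℓ := fun _ hx hx0 =>
  exists_zpow_mul_of_mem_fracLam ℓ (KW_le_fracLam ℓ hx) hx0

/-- [RED-W4] -/
theorem stIntClosed : StIntClosed ℓ := by
  intro x hx hint
  obtain ⟨p, hp, hpx⟩ := hint
  rw [Polynomial.eval₂_eq_sum_range, Finset.sum_range_succ, hp.coeff_natDegree, map_one,
    one_mul, add_comm] at hpx
  exact mem_OW_of_monic_relation ℓ (KW_le_fracLam ℓ hx) p.natDegree
    (fun i => ((p.coeff i : OW ℓ) : LaurentSeries ℚ)) (fun i => (p.coeff i).2) hpx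

end Fermat.Agent.S28.Alg.H5
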