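import Mathlib
import Fermat.Prelude.Def_GaloisRep_Flat
import Fermat.Prelude.Def_ModularCurve_LaurentCoeff

/-!
# S28, package ALG (helper5): the residue map `ℤ_(ℓ) → 𝔽_ℓ` and coefficientwise reduction

* `resZl ℓ : ℤ_(ℓ) →+* ZMod ℓ` (through `ℤ_[ℓ]`), surjective, kernel `(ℓ)`.
* `iotaQ ℓ : LaurentSeries ℤ_(ℓ) →+* LaurentSeries ℚ` (injective) and
  `red ℓ : LaurentSeries ℤ_(ℓ) →+* LaurentSeries (ZMod ℓ)`.
* `red a = 0 → a = ℓ * a'`, and `a ≠ 0 → a = ℓ ^ m * a'` with `red a' ≠ 0`.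
-/

set_option autoImplicit false
set_option linter.unusedSectionVars false
set_option linter.style.haveILetI false

open ModularCurve

namespace Fermat.Agent.S28.Alg.H5

variable (ℓ : ℕ)

/-- `Z_(ℓ)` as a type. -/
abbrev Zl : Type := ↥(GaloisRep.ratLocalizedAt ℓ)

lemma mem_ratLocalizedAt_iff (x : ℚ) : x ∈ GaloisRep.ratLocalizedAt ℓ ↔ x.den.Coprime ℓ :=
  Iff.rfl

lemma intCast_mem (n : ℤ) : (n : ℚ) ∈ GaloisRep.ratLocalizedAt ℓ := by
  show ((n : ℚ)).den.Coprime ℓ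
  simp

lemma inv_den_mem (x : Zl ℓ) : (((x : ℚ).den : ℚ))⁻¹ ∈ GaloisRep.ratLocalizedAt ℓ := by
  show ((((x : ℚ).den : ℚ))⁻¹).den.Coprime ℓ
  have h1 : ((((x : ℚ).den : ℚ))⁻¹).den = (x : ℚ).den := by
    rw [Rat.inv_natCast_den]
    simp [(x : ℚ).den_ne_zero]
  rw [h1]
  exact x.2

/-- The inverse of the denominator, as an element of `ℤ_(ℓ)`. -/
def invDen (x : Zl ℓ) : Zl ℓ := ⟨_, inv_den_mem ℓ x⟩

lemma den_mul_invDen (x : Zl ℓ) : (((x : ℚ).den : ℕ) : Zl ℓ) * invDen ℓ x = 1 := by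
  apply Subtype.ext
  simp only [invDen, Subring.coe_mul, Subring.coe_natCast, Subring.coe_one]
  exact mul_inv_cancel₀ (Nat.cast_ne_zero.mpr (x : ℚ).den_ne_zero)

lemma eq_num_mul_invDen (x : Zl ℓ) : x = (((x : ℚ).num : ℤ) : Zl ℓ) * invDen ℓ x := by
  apply Subtype.ext
  simp only [invDen, Subring.coe_mul, Subring.coe_intCast]
  rw [← div_eq_mul_inv]
  exact (Rat.num_div_den _).symm

variable [hℓ : Fact ℓ.Prime]

/-- `ℤ_(ℓ) → ℤ_[ℓ]`. -/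
noncomputable def toPadicInt : Zl ℓ →+* ℤ_[ℓ] :=
  RingHom.codRestrict ((Rat.castHom ℚ_[ℓ]).comp (GaloisRep.ratLocalizedAt ℓ).subtype)
    (PadicInt.subring ℓ) (fun x => by
      show ‖((x : ℚ) : ℚ_[ℓ])‖ ≤ 1
      exact Padic.norm_rat_le_one ((Nat.Prime.coprime_iff_not_dvd hℓ.out).1 x.2.symm))

/-- The residue map `ℤ_(ℓ) → 𝔽_ℓ`. -/
noncomputable def resZl : Zl ℓ →+* ZMod ℓ := PadicInt.toZMod.comp (toPadicInt ℓ)

lemma resZl_surjective : Function.Surjective (resZl ℓ) := by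
  intro a
  refine ⟨((a.val : ℕ) : Zl ℓ), ?_⟩
  rw [map_natCast, ZMod.natCast_zmod_val]

lemma resZl_natCast_self : resZl ℓ ((ℓ : ℕ) : Zl ℓ) = 0 := by
  rw [map_natCast]
  exact ZMod.natCast_self ℓ

lemma resZl_den_ne_zero (x : Zl ℓ) : resZl ℓ (((x : ℚ).den : ℕ) : Zl ℓ) ≠ 0 := by
  rw [map_natCast]
  intro h
  rw [ZMod.natCast_eq_zero_iff] at h
  exact (Nat.Prime.coprime_iff_not_dvd hℓ.out).1 x.2.symm h

lemma resZl_invDen_ne_zero (x : Zl ℓ) : resZl ℓ (invDen ℓ x) ≠ 0 := by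
  intro h
  have h1 := congrArg (resZl ℓ) (den_mul_invDen ℓ x)
  rw [map_mul, h, mul_zero, map_one] at h1
  exact zero_ne_one h1

/-- The kernel of the residue map is `(ℓ)`. -/
theorem exists_eq_mul_of_resZl_eq_zero {x : Zl ℓ} (hx : resZl ℓ x = 0) :
    ∃ y : Zl ℓ, x = ((ℓ : ℕ) : Zl ℓ) * y := by
  have h1 := congrArg (resZl ℓ) (eq_num_mul_invDen ℓ x)
  rw [hx, map_mul, map_intCast] at h1
  have h2 : (((x : ℚ).num : ℤ) : ZMod ℓ) = 0 := by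
    rcases mul_eq_zero.mp h1.symm with h | h
    · exact h
    · exact absurd h (resZl_invDen_ne_zero ℓ x)
  rw [ZMod.intCast_zmod_eq_zero_iff_dvd] at h2
  obtain ⟨m, hm⟩ := h2
  refine ⟨((m : ℤ) : Zl ℓ) * invDen ℓ x, ?_⟩
  conv_lhs => rw [eq_num_mul_invDen ℓ x, hm]
  push_cast
  ring

theorem resZl_eq_zero_iff {x : Zl ℓ} :
    resZl ℓ x = 0 ↔ ∃ y : Zl ℓ, x = ((ℓ : ℕ) : Zl ℓ) * y := by
  refine ⟨exists_eq_mul_of_resZl_eq_zero ℓ, ?_⟩
  rintro ⟨y, rfl⟩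
  rw [map_mul, resZl_natCast_self, zero_mul]

omit hℓ in
lemma natCast_ne_zero_Zl (hℓ0 : ℓ ≠ 0) : ((ℓ : ℕ) : Zl ℓ) ≠ 0 := by
  intro h
  have := congrArg (Subtype.val) h
  simp only [Subring.coe_natCast, Subring.coe_zero, Nat.cast_eq_zero] at this
  exact hℓ0 this

/-! ### Laurent series -/

omit hℓ in
/-- `ℤ_(ℓ)((q)) → ℚ((q))`. -/
noncomputable def iotaQ : LaurentSeries (Zl ℓ) →+* LaurentSeries ℚ :=
  coeffMap (GaloisRep.ratLocalizedAt ℓ).subtype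

omit hℓ in
@[simp] lemma iotaQ_coeff (a : LaurentSeries (Zl ℓ)) (k : ℤ) :
    (iotaQ ℓ a).coeff k = ((a.coeff k : Zl ℓ) : ℚ) := rfl

omit hℓ in
lemma iotaQ_injective : Function.Injective (iotaQ ℓ) := by
  intro a b h
  ext k
  have := congrArg (fun f => f.coeff k) h
  simpa using this

/-- Coefficientwise reduction `ℤ_(ℓ)((q)) → 𝔽_ℓ((q))`. -/
noncomputable def red : LaurentSeries (Zl ℓ) →+* LaurentSeries (ZMod ℓ) :=
  coeffMap (resZl ℓ)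

@[simp] lemma red_coeff (a : LaurentSeries (Zl ℓ)) (k : ℤ) :
    (red ℓ a).coeff k = resZl ℓ (a.coeff k) := rfl

omit hℓ in
/-- A Laurent series over `ℚ` with all coefficients in `ℤ_(ℓ)` comes from `ℤ_(ℓ)((q))`. -/
theorem exists_iotaQ_eq (f : LaurentSeries ℚ)
    (hf : ∀ k, f.coeff k ∈ GaloisRep.ratLocalizedAt ℓ) :
    ∃ a : LaurentSeries (Zl ℓ), iotaQ ℓ a = f := by
  refine ⟨⟨fun k => ⟨f.coeff k, hf k⟩, ?_⟩, ?_⟩
  · refine f.isPWO_support.mono ?_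
    intro k hk
    simp only [Function.mem_support, ne_eq] at hk ⊢
    intro h0
    exact hk (Subtype.ext h0)
  · ext k
    rfl

omit hℓ in
lemma natCast_mul_coeff (n : ℕ) (a : LaurentSeries (Zl ℓ)) (k : ℤ) :
    (((n : ℕ) : LaurentSeries (Zl ℓ)) * a).coeff k = ((n : ℕ) : Zl ℓ) * a.coeff k := by
  rw [← map_natCast (HahnSeries.C (Γ := ℤ) (R := Zl ℓ)) n, HahnSeries.C_mul_eq_smul,
    HahnSeries.coeff_smul, smul_eq_mul]

lemma red_natCast_self : red ℓ ((ℓ : ℕ) : LaurentSeries (Zl ℓ)) = 0 := by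
  rw [map_natCast, ← map_natCast (HahnSeries.C (Γ := ℤ) (R := ZMod ℓ)) ℓ, ZMod.natCast_self,
    map_zero]

/-- The kernel of `red` is generated by `ℓ`. -/
theorem exists_eq_mul_of_red_eq_zero {a : LaurentSeries (Zl ℓ)} (ha : red ℓ a = 0) :
    ∃ a' : LaurentSeries (Zl ℓ), a = ((ℓ : ℕ) : LaurentSeries (Zl ℓ)) * a' := by
  have hk : ∀ k, ∃ y : Zl ℓ, a.coeff k = ((ℓ : ℕ) : Zl ℓ) * y := by
    intro k
    apply exists_eq_mul_of_resZl_eq_zero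
    have := congrArg (fun f => f.coeff k) ha
    simpa using this
  choose g hg using hk
  have hℓ0 : ((ℓ : ℕ) : Zl ℓ) ≠ 0 := natCast_ne_zero_Zl ℓ hℓ.out.ne_zero
  refine ⟨⟨g, ?_⟩, ?_⟩
  · refine a.isPWO_support.mono ?_
    intro k hk
    simp only [Function.mem_support, ne_eq] at hk ⊢
    intro h0
    apply hk
    have := hg k
    rw [h0, zero_eq_mul] at this
    exact this.resolve_left hℓ0
  · ext k
    rw [natCast_mul_coeff]
    exact congrArg Subtype.val (hg k)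

theorem red_eq_zero_iff {a : LaurentSeries (Zl ℓ)} :
    red ℓ a = 0 ↔ ∃ a' : LaurentSeries (Zl ℓ), a = ((ℓ : ℕ) : LaurentSeries (Zl ℓ)) * a' := by
  refine ⟨exists_eq_mul_of_red_eq_zero ℓ, ?_⟩
  rintro ⟨a', rfl⟩
  rw [map_mul, red_natCast_self, zero_mul]

omit hℓ in
lemma padicValRat_nonneg_of_mem (x : Zl ℓ) (hp : ℓ.Prime) : 0 ≤ padicValRat ℓ (x : ℚ) := by
  haveI : Fact ℓ.Prime := ⟨hp⟩
  rw [padicValRat_def]
  have h : padicValNat ℓ (x : ℚ).den = 0 :=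
    padicValNat.eq_zero_of_not_dvd ((Nat.Prime.coprime_iff_not_dvd hp).1 x.2.symm)
  rw [h]
  simp

private lemma exists_pow_mul_aux (n : ℕ) : ∀ (a : LaurentSeries (Zl ℓ)) (k : ℤ),
    a.coeff k ≠ 0 → padicValRat ℓ ((a.coeff k : Zl ℓ) : ℚ) = n →
    ∃ (m : ℕ) (a' : LaurentSeries (Zl ℓ)),
      a = ((ℓ : ℕ) : LaurentSeries (Zl ℓ)) ^ m * a' ∧ red ℓ a' ≠ 0 := by
  induction n with
  | zero =>
    intro a k hk hv
    by_cases hr : red ℓ a = 0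
    · exfalso
      obtain ⟨a₁, rfl⟩ := exists_eq_mul_of_red_eq_zero ℓ hr
      rw [natCast_mul_coeff] at hk hv
      have h1 : a₁.coeff k ≠ 0 := fun h => hk (by rw [h, mul_zero])
      have h1' : ((a₁.coeff k : Zl ℓ) : ℚ) ≠ 0 := fun h => h1 (Subtype.ext h)
      have hℓ0 : ((ℓ : ℕ) : ℚ) ≠ 0 := Nat.cast_ne_zero.mpr hℓ.out.ne_zero
      rw [Subring.coe_mul, Subring.coe_natCast, padicValRat.mul hℓ0 h1',
        padicValRat.self hℓ.out.one_lt] at hv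
      have := padicValRat_nonneg_of_mem ℓ (a₁.coeff k) hℓ.out
      push_cast at hv
      omega
    · exact ⟨0, a, by simp, hr⟩
  | succ n ih =>
    intro a k hk hv
    by_cases hr : red ℓ a = 0
    · obtain ⟨a₁, rfl⟩ := exists_eq_mul_of_red_eq_zero ℓ hr
      rw [natCast_mul_coeff] at hk hv
      have h1 : a₁.coeff k ≠ 0 := fun h => hk (by rw [h, mul_zero])
      have h1' : ((a₁.coeff k : Zl ℓ) : ℚ) ≠ 0 := fun h => h1 (Subtype.ext h)
      have hℓ0 : ((ℓ : ℕ) : ℚ) ≠ 0 := Nat.cast_ne_zero.mpr hℓ.out.ne_zero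
      rw [Subring.coe_mul, Subring.coe_natCast, padicValRat.mul hℓ0 h1',
        padicValRat.self hℓ.out.one_lt] at hv
      have hv' : padicValRat ℓ ((a₁.coeff k : Zl ℓ) : ℚ) = n := by
        push_cast at hv
        omega
      obtain ⟨m, a', rfl, ha'⟩ := ih a₁ k h1 hv'
      exact ⟨m + 1, a', by rw [pow_succ']; ring, ha'⟩
    · exact ⟨0, a, by simp, hr⟩

/-- Gauss normal form: a nonzero series is `ℓ ^ m` times a series with nonzero reduction. -/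
theorem exists_pow_mul_red_ne_zero {a : LaurentSeries (Zl ℓ)} (ha : a ≠ 0) :
    ∃ (m : ℕ) (a' : LaurentSeries (Zl ℓ)),
      a = ((ℓ : ℕ) : LaurentSeries (Zl ℓ)) ^ m * a' ∧ red ℓ a' ≠ 0 := by
  obtain ⟨k, hk⟩ : ∃ k, a.coeff k ≠ 0 := by
    by_contra h
    push Not at h
    exact ha (HahnSeries.ext (funext h))
  have h0 := padicValRat_nonneg_of_mem ℓ (a.coeff k) hℓ.out
  obtain ⟨n, hn⟩ := Int.eq_ofNat_of_zero_le h0
  exact exists_pow_mul_aux ℓ n a k hk hn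

end Fermat.Agent.S28.Alg.H5
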