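import Fermat.Agent.S28.Alg.H1_Leaves
import Fermat.Agent.S28.Alg.H2_RedF
import Fermat.Agent.S28.Alg.H5_Leaves
import Fermat.Agent.S28.Alg.H5_Gauss
import Fermat.Agent.S28.Alg.H29_Basis
import Fermat.Agent.S28.Asm.H11_Deg

/-!
# S28, package ALG, leaf [QC-BASIS] (helper6)

Instantiation of helper29's abstract basis argument (`H29.BasisHyp`) for helper1's definitions:
`E = ℚ(j) = K0`, `F = F_N`, `W = C = F_N ∩ O_W`, `ρ = rhoC`, `κ = k(jb)`, `π = ℓ`.
Deliverables: `basisHyp`, `stIndep : StIndep N ℓ`, `stBasis : StBasis N ℓ`,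
`isIntegral_of_mem_CW`.
-/

set_option autoImplicit false
set_option linter.unusedSectionVars false
set_option linter.unusedVariables false
set_option linter.style.haveILetI false

open ModularCurve ModularCurve.IgusaScheme

noncomputable section

namespace Fermat.Agent.S28.Alg.H6B

open Fermat.Agent.S28.Asm Fermat.Agent.S28.Alg

variable (N : ℕ) [NeZero N] (ℓ : ℕ) [Fact ℓ.Prime]

lemma K0_le_full : K0 ≤ modularFunctionFieldFull N := kj_le_full ℚ N

lemma kappa_le_full : kappa (ZMod ℓ) ≤ modularFunctionFieldFullC (ZMod ℓ) N :=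
  kj_le_full (ZMod ℓ) N

/-- The inclusion `ℚ(j) → F_N`. -/
def incK0 : ↥K0 →+* FN N where
  toFun c := ⟨(c : LaurentSeries ℚ), K0_le_full N c.2⟩
  map_one' := rfl
  map_mul' _ _ := rfl
  map_zero' := rfl
  map_add' _ _ := rfl

lemma incK0_apply (c : ↥K0) : incK0 N c = ⟨(c : LaurentSeries ℚ), K0_le_full N c.2⟩ := rfl

lemma coe_incK0 (c : ↥K0) : ((incK0 N c : FN N) : LaurentSeries ℚ) = (c : LaurentSeries ℚ) := by
  rw [incK0_apply]

/-- The algebra structure `ℚ(j) → F_N` (a `def`, used with `letI`). -/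
@[reducible] def algK0 : Algebra ↥K0 (FN N) := (incK0 N).toAlgebra

lemma algebraMap_K0 (c : ↥K0) : @algebraMap ↥K0 (FN N) _ _ (algK0 N) c = incK0 N c := by
  letI := algK0 N
  rw [RingHom.algebraMap_toAlgebra]

lemma coe_algebraMap_K0 (c : ↥K0) :
    ((@algebraMap ↥K0 (FN N) _ _ (algK0 N) c : FN N) : LaurentSeries ℚ) = (c : LaurentSeries ℚ) := by
  rw [algebraMap_K0, coe_incK0]

lemma natCast_ne_zero_K0 : ((ℓ : ℕ) : ↥K0) ≠ 0 := by
  intro h
  have h1 := congrArg (fun z : ↥K0 => (z : LaurentSeries ℚ)) h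
  simp only [ZeroMemClass.coe_zero] at h1
  exact H5.natCast_ne_zero_L ℓ (by simpa using h1)

lemma coe_natCast_K0 : ((((ℓ : ℕ) : ↥K0) : ↥K0) : LaurentSeries ℚ) = ((ℓ : ℕ) : LaurentSeries ℚ) := by
  simp

lemma rhoC_eq (x : CW N ℓ) :
    rhoC N ℓ x = rhoW ℓ ⟨((x : FN N) : LaurentSeries ℚ), x.2⟩ := rfl

lemma mem_CW_algebraMap_iff (c : ↥K0) :
    @algebraMap ↥K0 (FN N) _ _ (algK0 N) c ∈ CW N ℓ ↔ (c : LaurentSeries ℚ) ∈ OW ℓ := by
  rw [mem_CW_iff, coe_algebraMap_K0]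

lemma rhoC_algebraMap (c : ↥K0) (hc : @algebraMap ↥K0 (FN N) _ _ (algK0 N) c ∈ CW N ℓ) :
    rhoC N ℓ ⟨@algebraMap ↥K0 (FN N) _ _ (algK0 N) c, hc⟩ =
      rhoW ℓ ⟨(c : LaurentSeries ℚ), (mem_CW_algebraMap_iff N ℓ c).mp hc⟩ := by
  refine (rhoC_eq N ℓ _).trans ?_
  exact congrArg (rhoW ℓ) (Subtype.ext (coe_algebraMap_K0 N c))

/-- The hypotheses of the abstract basis argument hold for `C = F_N ∩ O_W`. -/
theorem basisHyp :
    @H29.BasisHyp ↥K0 (FN N) (LaurentSeries (ZMod ℓ)) _ _ (algK0 N) _ ↥(kappa (ZMod ℓ)) _ _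
      (CW N ℓ) (rhoC N ℓ) ((ℓ : ℕ) : ↥K0) := by
  letI := algK0 N
  have hℓmem : ((ℓ : ℕ) : LaurentSeries ℚ) ∈ OW ℓ := natCast_mem _ ℓ
  have hπ : algebraMap ↥K0 (FN N) ((ℓ : ℕ) : ↥K0) ∈ CW N ℓ := by
    rw [mem_CW_algebraMap_iff, coe_natCast_K0]
    exact hℓmem
  refine ⟨natCast_ne_zero_K0 ℓ, hπ, ?_, ?_, ?_⟩
  · rw [rhoC_algebraMap]
    have h1 : (⟨((((ℓ : ℕ) : ↥K0) : ↥K0) : LaurentSeries ℚ),
        (mem_CW_algebraMap_iff N ℓ _).mp hπ⟩ : OW ℓ) = ((ℓ : ℕ) : OW ℓ) :=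
      Subtype.ext (by rw [coe_natCast_K0]; simp)
    rw [h1]
    exact H5.rhoW_natCast_self ℓ
  · intro c hc
    have hcL : (c : LaurentSeries ℚ) ≠ 0 := fun h => hc (Subtype.ext h)
    obtain ⟨e, u, hu, hρu⟩ := H5.stVal ℓ (c : LaurentSeries ℚ) ((stK0le ℓ N).1 _ c.2) hcL
    have hℓ0 := H5.natCast_ne_zero_L ℓ
    -- `u ∈ K0`
    have huK : (u : LaurentSeries ℚ) ∈ K0 := by
      have h1 : (u : LaurentSeries ℚ) = ((ℓ : ℕ) : LaurentSeries ℚ) ^ (-e) * c := by
        rw [hu, ← mul_assoc, ← zpow_add₀ hℓ0, neg_add_cancel, zpow_zero, one_mul]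
      rw [h1]
      exact mul_mem (zpow_mem (natCast_mem _ ℓ) _) c.2
    have huW : algebraMap ↥K0 (FN N) ⟨(u : LaurentSeries ℚ), huK⟩ ∈ CW N ℓ := by
      rw [mem_CW_algebraMap_iff]
      exact u.2
    have hρ : rhoC N ℓ ⟨algebraMap ↥K0 (FN N) ⟨(u : LaurentSeries ℚ), huK⟩, huW⟩ ≠ 0 := by
      rw [rhoC_algebraMap]
      exact hρu
    rcases le_or_gt 0 e with he | he
    · obtain ⟨n, rfl⟩ := Int.eq_ofNat_of_zero_le he
      refine ⟨0, n, ⟨(u : LaurentSeries ℚ), huK⟩, huW, hρ, Subtype.ext ?_⟩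
      rw [pow_zero, one_mul]
      push_cast
      rw [hu, zpow_natCast]
    · obtain ⟨m, hm⟩ := Int.eq_ofNat_of_zero_le (by omega : 0 ≤ -e)
      refine ⟨m, 0, ⟨(u : LaurentSeries ℚ), huK⟩, huW, hρ, Subtype.ext ?_⟩
      rw [pow_zero, one_mul]
      push_cast
      rw [hu, ← zpow_natCast, ← hm, ← mul_assoc, ← zpow_add₀ hℓ0, neg_add_cancel, zpow_zero,
        one_mul]
  · intro u hu
    rw [rhoC_algebraMap]
    have h := H5.stK0 ℓ ⟨(u : LaurentSeries ℚ), (mem_CW_algebraMap_iff N ℓ u).mp hu⟩ u.2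
    exact ⟨⟨_, h⟩, rfl⟩

/-! ### Dimensions -/

/-- `[F_N : ℚ(j)]`, computed with the algebra structure `algK0`, is `degC ℚ N`. -/
theorem finrank_K0_FN :
    @Module.finrank ↥K0 (FN N) _ _ (algK0 N).toModule = degC ℚ N := by
  letI := algK0 N
  rw [degC_eq_relfinrank ℚ N,
    IntermediateField.relfinrank_eq_finrank_of_le (kj_le_full ℚ N)]
  let i : ↥K0 ≃+* ↥(kj ℚ) := RingEquiv.refl _
  let j : FN N ≃+* ↥(IntermediateField.extendScalars (kj_le_full ℚ N)) := RingEquiv.refl _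
  refine Algebra.finrank_eq_of_equiv_equiv i j ?_
  ext a
  rfl

/-- Finiteness over `ℚ(x)` does not depend on the `ℚ`-algebra structure used to form `ℚ(x)`. -/
theorem findim_congr {L : Type*} [Field L] (a1 a2 : Algebra ℚ L) (x : L) :
    FiniteDimensional (@IntermediateField.adjoin ℚ _ L _ a1 {x}) L ↔
      FiniteDimensional (@IntermediateField.adjoin ℚ _ L _ a2 {x}) L := by
  have h : a1 = a2 := Subsingleton.elim _ _
  subst h
  exact Iff.rfl

/-- Generic-instance form of the finiteness in `StDEG0`. -/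
def FinDimG (k : Type) [Field k] (N : ℕ) [NeZero N] : Prop :=
  FiniteDimensional (IntermediateField.adjoin k {jbFull k N}) ↥(modularFunctionFieldFullC k N)

theorem finDimG_of_StDEG0 (h0 : StDEG0 N) : FinDimG ℚ N := by
  unfold FinDimG
  exact (findim_congr _ _ _).mp h0.1

theorem degC_pos_of_finDimG (k : Type) [Field k] (h : FinDimG k N) : 0 < degC k N := by
  unfold FinDimG at h
  unfold degC
  exact Module.finrank_pos

theorem degC_pos_of_StDEG0 (h0 : StDEG0 N) : 0 < degC ℚ N :=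
  degC_pos_of_finDimG N ℚ (finDimG_of_StDEG0 N h0)

/-- A `k(jb)`-linearly independent family of `n` elements of `Fb_N`, as soon as
`n ≤ degC (ZMod ℓ) N`. -/
theorem exists_indep_family (n : ℕ) (hn : n ≤ degC (ZMod ℓ) N) :
    ∃ b : Fin n → LaurentSeries (ZMod ℓ),
      (∀ i, b i ∈ modularFunctionFieldFullC (ZMod ℓ) N) ∧
        LinearIndependent ↥(kappa (ZMod ℓ)) b := by
  rw [degC_eq_relfinrank (ZMod ℓ) N,
    IntermediateField.relfinrank_eq_finrank_of_le (kj_le_full (ZMod ℓ) N)] at hn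
  obtain ⟨f, hf⟩ := exists_linearIndependent_of_le_finrank hn
  refine ⟨fun i => ((f i : ↥(IntermediateField.extendScalars (kj_le_full (ZMod ℓ) N))) :
    LaurentSeries (ZMod ℓ)), fun i => ?_, ?_⟩
  · exact (IntermediateField.mem_extendScalars (kj_le_full (ZMod ℓ) N)).mp (f i).2
  · have h1 := hf.map' (IntermediateField.extendScalars (kj_le_full (ZMod ℓ) N)).val.toLinearMap
      (LinearMap.ker_eq_bot.mpr
        (IntermediateField.extendScalars (kj_le_full (ZMod ℓ) N)).val.injective)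
    exact h1

/-! ### The basis -/

/-- A family `c_1, …, c_n ∈ C` whose reductions are `k(jb)`-independent and which spans `F_N`
over `ℚ(j)`. -/
theorem exists_basis_family (h0 : StDEG0 N) (h1 : StDEG N ℓ) :
    ∃ (n : ℕ) (c : Fin n → CW N ℓ),
      LinearIndependent ↥(kappa (ZMod ℓ)) (fun i => rhoC N ℓ (c i)) ∧
      ∀ f : FN N, ∃ a : Fin n → ↥K0,
        f = ∑ i, @algebraMap ↥K0 (FN N) _ _ (algK0 N) (a i) * ((c i : CW N ℓ) : FN N) := by
  letI := algK0 N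
  set n := degC ℚ N with hn
  have hnpos : 0 < n := degC_pos_of_StDEG0 N h0
  have hnD : n ≤ degC (ZMod ℓ) N := h0.2.trans h1
  obtain ⟨b, hb, hbi⟩ := exists_indep_family N ℓ n hnD
  have hlift : ∀ i, ∃ x : CW N ℓ, rhoC N ℓ x = b i :=
    fun i => stImage N ℓ (H5.stUnit ℓ) (b i) (hb i)
  choose c hc using hlift
  have hci : LinearIndependent ↥(kappa (ZMod ℓ)) (fun i => rhoC N ℓ (c i)) := by
    have h2 : (fun i => rhoC N ℓ (c i)) = b := funext hc
    rw [h2]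
    exact hbi
  have hE : LinearIndependent ↥K0 (fun i => ((c i : CW N ℓ) : FN N)) :=
    (basisHyp N ℓ).linearIndependent_of_rho c hci
  haveI : Nonempty (Fin n) := ⟨⟨0, hnpos⟩⟩
  have hcard : Fintype.card (Fin n) = Module.finrank ↥K0 (FN N) := by
    rw [Fintype.card_fin, finrank_K0_FN]
  refine ⟨n, c, hci, fun f => ?_⟩
  refine ⟨fun i => (basisOfLinearIndependentOfCardEqFinrank hE hcard).repr f i, ?_⟩
  have h3 := (basisOfLinearIndependentOfCardEqFinrank hE hcard).sum_repr f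
  rw [coe_basisOfLinearIndependentOfCardEqFinrank] at h3
  rw [← h3]
  refine Finset.sum_congr rfl fun i _ => ?_
  rw [Algebra.smul_def]
  congr 2
  rw [h3]

lemma coe_sum_FN {ι : Type*} (s : Finset ι) (f : ι → FN N) :
    (((∑ i ∈ s, f i : FN N)) : LaurentSeries ℚ) = ∑ i ∈ s, ((f i : FN N) : LaurentSeries ℚ) :=
  map_sum ((modularFunctionFieldFull N).toSubring.subtype) f s

lemma coe_algebraMap_mul (a : ↥K0) (f : FN N) :
    ((@algebraMap ↥K0 (FN N) _ _ (algK0 N) a * f : FN N) : LaurentSeries ℚ) =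
      (a : LaurentSeries ℚ) * (f : LaurentSeries ℚ) := by
  rw [MulMemClass.coe_mul, coe_algebraMap_K0]

lemma smul_eq_mul_L (a : ↥K0) (x : LaurentSeries ℚ) : a • x = (a : LaurentSeries ℚ) * x := rfl

/-- [QC-DIM] (by-product). -/
theorem stIndep : StIndep N ℓ := by
  intro n c hc
  letI := algK0 N
  have hE : LinearIndependent ↥K0 (fun i => ((c i : CW N ℓ) : FN N)) :=
    (basisHyp N ℓ).linearIndependent_of_rho c hc
  rw [Fintype.linearIndependent_iff] at hE ⊢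
  intro g hg i
  apply hE g _ i
  apply Subtype.ext
  rw [coe_sum_FN]
  rw [ZeroMemClass.coe_zero, ← hg]
  refine Finset.sum_congr rfl fun i _ => ?_
  rw [Algebra.smul_def, coe_algebraMap_mul, smul_eq_mul_L]

/-- **[QC-BASIS]** `C = F_N ∩ O_W` is spanned over `O_W ∩ ℚ(j)` by `n` elements. -/
theorem stBasis : StBasis N ℓ := by
  intro h0 h1
  letI := algK0 N
  obtain ⟨n, c, hci, hsp⟩ := exists_basis_family N ℓ h0 h1
  refine ⟨n, c, fun x => ?_⟩
  obtain ⟨a, ha⟩ := hsp (x : FN N)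
  have ha' : ((x : CW N ℓ) : FN N) = ∑ i, a i • ((c i : CW N ℓ) : FN N) := by
    rw [ha]
    refine Finset.sum_congr rfl fun i _ => ?_
    rw [Algebra.smul_def]
  have hmem := (basisHyp N ℓ).coord_mem c hci a x ha'
  refine ⟨fun i => ⟨(a i : LaurentSeries ℚ), (mem_CW_algebraMap_iff N ℓ (a i)).mp (hmem i)⟩,
    fun i => (a i).2, ?_⟩
  have h2 : (((x : CW N ℓ) : FN N) : LaurentSeries ℚ) =
      ((∑ i, @algebraMap ↥K0 (FN N) _ _ (algK0 N) (a i) * ((c i : CW N ℓ) : FN N) : FN N) :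
        LaurentSeries ℚ) := congrArg (fun z : FN N => (z : LaurentSeries ℚ)) ha
  rw [h2, coe_sum_FN]
  refine Finset.sum_congr rfl fun i _ => ?_
  rw [coe_algebraMap_mul]

/-- Every element of `C = F_N ∩ O_W` is integral over any subring of `F_N` containing
`O_W ∩ ℚ(j)`. -/
theorem isIntegral_of_mem_CW (h0 : StDEG0 N) (h1 : StDEG N ℓ) (O : Subring (FN N))
    (hO : ∀ c : FN N, (c : LaurentSeries ℚ) ∈ K0 → c ∈ CW N ℓ → c ∈ O)
    (w : FN N) (hw : w ∈ CW N ℓ) : IsIntegral O w := by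
  letI := algK0 N
  obtain ⟨n, c, hci, hsp⟩ := exists_basis_family N ℓ h0 h1
  have hsp' : ∀ f : FN N, ∃ a : Fin n → ↥K0, f = ∑ i, a i • ((c i : CW N ℓ) : FN N) := by
    intro f
    obtain ⟨a, ha⟩ := hsp f
    refine ⟨a, ?_⟩
    rw [ha]
    refine Finset.sum_congr rfl fun i _ => ?_
    rw [Algebra.smul_def]
  have hO' : ∀ e : ↥K0, algebraMap ↥K0 (FN N) e ∈ CW N ℓ → algebraMap ↥K0 (FN N) e ∈ O := by
    intro e he
    apply hO _ _ he
    rw [coe_algebraMap_K0]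
    exact e.2
  exact (basisHyp N ℓ).isIntegral_of_basis c hci hsp' O hO' ⟨w, hw⟩

end Fermat.Agent.S28.Alg.H6B
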