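import Fermat.Agent.S28.Asm.Defs
import Fermat.Agent.S28.Alg.H6_Tens

/-!
# S28, package ALG: the deliverable `StTENS` (helper6)
-/

set_option autoImplicit false
open AlgebraicGeometry CategoryTheory CategoryTheory.Limits ModularCurve ModularCurve.IgusaScheme
open scoped TensorProduct

namespace Fermat.Agent.S28.Alg

/-- **Deliverable TENS**, verbatim from `Asm/Defs.lean`. -/
theorem stTENS : Fermat.Agent.S28.Asm.StTENS := by
  intro N _ ℓ _ S K _ _ _ h
  obtain ⟨ρ, hρ⟩ := h
  exact isDomain_tensor_of_ker_le ℓ _ K ρ hρ.le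

end Fermat.Agent.S28.Alg
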